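/-
S55 / GLO7 (helper21): second inequality, Chevalley–Kummer proof.  File 5: Chevalley's auxiliary
primes.

`K` a number field containing a primitive `p`-th root of unity, `S` a finite set of primes of `K`
containing all primes above `p`, `V = S.unit K` the group of `S`-units, `[V : V ^ p]` finite,
`a ∈ V`.  Then there is a finite set `T` of primes outside `S` such that
* (T1) `a` is a `p`-th power residue at every `w ∈ T`;
* (T2) an `S`-unit which is a `p`-th power residue at every `w ∈ T` lies in `a ^ ℤ · V ^ p`;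
* (T3) the power-residue map `V → ∏_{w ∈ T} k_w^× / p` is onto: for every family of `w`-units
  `c w` there is `u ∈ V` with `u * c w` a `p`-th power residue at `w` for all `w ∈ T`;
* (T4) `[V : V ^ p] ≤ p ^ (|T| + 1)`.

(`exists_auxPrimes`).  No Galois group of `K(V^{1/p})/K` is used: (T2) comes from the relative
local-global principle `exists_eq_pow_mul_pow_of_forall_isPowMod` and finiteness of `V / V ^ p`,
(T3) and (T4) from the minimality of `T`.
-/
import Mathlib
import Fermat.Agent.S55.GL.SecondIneq.PowResidueGlobal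

set_option autoImplicit false

namespace Fermat.Agent.S55.GL.SecondIneq

open NumberField IsDedekindDomain HeightOneSpectrum

section general

variable {R : Type*} [CommRing R] [IsDedekindDomain R] {F : Type*} [Field F] [Algebra R F]
  [IsFractionRing R F] {w : HeightOneSpectrum R} {p : ℕ}

/-- a product of integral power residues is an integral power residue -/
lemma IsPowMod.prod {ι : Type*} (s : Finset ι) (f : ι → F) (hp : p ≠ 0)
    (h : ∀ i ∈ s, w.valuation F (f i) ≤ 1 ∧ IsPowMod w p (f i)) :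
    w.valuation F (∏ i ∈ s, f i) ≤ 1 ∧ IsPowMod w p (∏ i ∈ s, f i) := by
  classical
  induction s using Finset.induction_on with
  | empty => simpa using isPowMod_one
  | insert i s hi ih =>
    have h1 := h i (Finset.mem_insert_self i s)
    have h2 := ih (fun j hj => h j (Finset.mem_insert_of_mem hj))
    rw [Finset.prod_insert hi]
    refine ⟨?_, IsPowMod.mul hp h1.1 h2.1 h1.2 h2.2⟩
    rw [map_mul]
    exact mul_le_one' h1.1 h2.1

/-- version of `exists_isPowMod_mul_pow` with an exponent `< p` -/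
theorem exists_lt_isPowMod_mul_pow [Finite (R ⧸ w.asIdeal)] (hp : p.Prime) {a : F}
    (ha : w.valuation F a = 1) (hna : ¬ IsPowMod w p a) {u : F} (hu : w.valuation F u = 1) :
    ∃ i : ℕ, i < p ∧ IsPowMod w p (u * a ^ i) := by
  obtain ⟨i, hi⟩ := exists_isPowMod_mul_pow hp ha hna hu
  refine ⟨i % p, Nat.mod_lt _ hp.pos, ?_⟩
  have e : u * a ^ i = (u * a ^ (i % p)) * (a ^ (i / p)) ^ p := by
    conv_lhs => rw [← Nat.mod_add_div i p]
    rw [pow_add, pow_mul', mul_assoc]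
  rw [e] at hi
  refine IsPowMod.of_mul_pow hp.ne_zero ?_ ?_ hi
  · rw [map_mul, map_pow, ha, hu, one_pow, one_mul]
  · rw [map_pow, ha, one_pow]

end general

variable {K : Type*} [Field K] [NumberField K]

/-- the group of `S`-units of a number field (Mathlib's `Set.unit`) -/
noncomputable abbrev sUnits (K : Type*) [Field K] [NumberField K]
    (S : Finset (HeightOneSpectrum (𝓞 K))) : Subgroup Kˣ :=
  (S : Set (HeightOneSpectrum (𝓞 K))).unit K

lemma mem_sUnits {S : Finset (HeightOneSpectrum (𝓞 K))} {x : Kˣ} :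
    x ∈ sUnits K S ↔ ∀ v ∉ S, v.valuation K (x : K) = 1 := Iff.rfl

/-- the subgroup of `p`-th powers of `S`-units -/
noncomputable abbrev sUnitsPow (K : Type*) [Field K] [NumberField K]
    (S : Finset (HeightOneSpectrum (𝓞 K))) (p : ℕ) : Subgroup Kˣ :=
  (sUnits K S).map (powMonoidHom p)

lemma mem_sUnitsPow {S : Finset (HeightOneSpectrum (𝓞 K))} {p : ℕ} {x : Kˣ} :
    x ∈ sUnitsPow K S p ↔ ∃ c ∈ sUnits K S, c ^ p = x := by
  simp [sUnitsPow, Subgroup.mem_map]

lemma sUnitsPow_le (S : Finset (HeightOneSpectrum (𝓞 K))) (p : ℕ) :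
    sUnitsPow K S p ≤ sUnits K S := by
  rintro x hx
  obtain ⟨c, hc, rfl⟩ := mem_sUnitsPow.mp hx
  exact pow_mem hc p

/-- a `p`-th root (in `K`) of an `S`-unit times a power of an `S`-unit is an `S`-unit -/
lemma exists_sUnit_of_eq_pow_mul_pow {S : Finset (HeightOneSpectrum (𝓞 K))} {p : ℕ} (hp : p ≠ 0)
    {a u : Kˣ} (ha : a ∈ sUnits K S) (hu : u ∈ sUnits K S) {k : ℕ} {c : K}
    (h : (u : K) = (a : K) ^ k * c ^ p) :
    ∃ c' : Kˣ, c' ∈ sUnits K S ∧ u = a ^ k * c' ^ p := by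
  have hc0 : c ≠ 0 := by
    rintro rfl
    rw [zero_pow hp, mul_zero] at h
    exact u.ne_zero h
  refine ⟨Units.mk0 c hc0, ?_, ?_⟩
  · rw [mem_sUnits]
    intro v hv
    have h1 := congrArg (v.valuation K) h
    rw [map_mul, map_pow, map_pow, mem_sUnits.mp ha v hv, mem_sUnits.mp hu v hv, one_pow,
      one_mul] at h1
    exact (pow_eq_one_iff_of_nonneg zero_le hp).mp h1.symm
  · ext
    simpa using h

section main

variable {p : ℕ} {ζ : K} (S : Finset (HeightOneSpectrum (𝓞 K)))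

/-- Step A0: an `S`-unit which is not in `a ^ ℤ K ^ p` is a non-residue at some prime outside `S`
where `a` is a residue. -/
lemma exists_prime_isPowMod_not_isPowMod (hp : p.Prime) (hζ : IsPrimitiveRoot ζ p)
    (hS : ∀ w ∉ S, w.valuation K (p : K) = 1) {a u : Kˣ} (ha : a ∈ sUnits K S)
    (hu : u ∈ sUnits K S) (h : ¬ ∃ (k : ℕ) (c : K), (u : K) = (a : K) ^ k * c ^ p) :
    ∃ w : HeightOneSpectrum (𝓞 K), w ∉ S ∧ IsPowMod w p (a : K) ∧ ¬ IsPowMod w p (u : K) := by
  by_contra hcon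
  push Not at hcon
  apply h
  refine exists_eq_pow_mul_pow_of_forall_isPowMod hp hζ S ?_
  intro w hw
  exact ⟨mem_sUnits.mp ha w hw, mem_sUnits.mp hu w hw, hS w hw, hcon w hw⟩

/-- the property of a finite set of auxiliary primes -/
def IsAuxSet (S : Finset (HeightOneSpectrum (𝓞 K))) (p : ℕ) (a : Kˣ)
    (T : Finset (HeightOneSpectrum (𝓞 K))) : Prop :=
  (∀ w ∈ T, w ∉ S ∧ IsPowMod w p (a : K)) ∧
    ∀ u ∈ sUnits K S, (∀ w ∈ T, IsPowMod w p ((u : Kˣ) : K)) →
      ∃ (k : ℕ) (c : K), (u : K) = (a : K) ^ k * c ^ p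

/-- Step A: auxiliary sets exist. -/
lemma exists_isAuxSet (hp : p.Prime) (hζ : IsPrimitiveRoot ζ p)
    (hS : ∀ w ∉ S, w.valuation K (p : K) = 1)
    (hfin : (sUnitsPow K S p).relIndex (sUnits K S) ≠ 0) {a : Kˣ} (ha : a ∈ sUnits K S) :
    ∃ T, IsAuxSet S p a T := by
  classical
  have hfi : ((sUnitsPow K S p).subgroupOf (sUnits K S)).FiniteIndex := ⟨hfin⟩
  have : Finite (↥(sUnits K S) ⧸ (sUnitsPow K S p).subgroupOf (sUnits K S)) :=
    Subgroup.finite_quotient_of_finiteIndex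
  have : Fintype (↥(sUnits K S) ⧸ (sUnitsPow K S p).subgroupOf (sUnits K S)) :=
    Fintype.ofFinite _
  -- representatives
  let rep : (↥(sUnits K S) ⧸ (sUnitsPow K S p).subgroupOf (sUnits K S)) → ↥(sUnits K S) :=
    fun q => Quotient.out q
  let bad : (↥(sUnits K S) ⧸ (sUnitsPow K S p).subgroupOf (sUnits K S)) → Prop :=
    fun q => ¬ ∃ (k : ℕ) (c : K), (((rep q : ↥(sUnits K S)) : Kˣ) : K) = (a : K) ^ k * c ^ p
  have hsel : ∀ q, bad q → ∃ w : HeightOneSpectrum (𝓞 K), w ∉ S ∧ IsPowMod w p (a : K) ∧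
      ¬ IsPowMod w p (((rep q : ↥(sUnits K S)) : Kˣ) : K) := fun q hq =>
    exists_prime_isPowMod_not_isPowMod S hp hζ hS ha (rep q).2 hq
  let T : Finset (HeightOneSpectrum (𝓞 K)) :=
    Finset.univ.biUnion (fun q => if h : bad q then {Classical.choose (hsel q h)} else ∅)
  refine ⟨T, ?_, ?_⟩
  · intro w hw
    obtain ⟨q, -, hq⟩ := Finset.mem_biUnion.mp hw
    by_cases hb : bad q
    · rw [dif_pos hb, Finset.mem_singleton] at hq
      subst hq
      exact ⟨(Classical.choose_spec (hsel q hb)).1, (Classical.choose_spec (hsel q hb)).2.1⟩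
    · rw [dif_neg hb] at hq
      exact absurd hq (Finset.notMem_empty _)
  · intro u hu hres
    -- the class of `u`
    set q : ↥(sUnits K S) ⧸ (sUnitsPow K S p).subgroupOf (sUnits K S) :=
      QuotientGroup.mk (⟨u, hu⟩ : ↥(sUnits K S)) with hq
    have hrq : (QuotientGroup.mk (rep q) :
        ↥(sUnits K S) ⧸ (sUnitsPow K S p).subgroupOf (sUnits K S)) = q := Quotient.out_eq q
    have hmem : (rep q)⁻¹ * (⟨u, hu⟩ : ↥(sUnits K S)) ∈
        (sUnitsPow K S p).subgroupOf (sUnits K S) := by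
      rw [← QuotientGroup.eq, hrq]
    rw [Subgroup.mem_subgroupOf] at hmem
    obtain ⟨c, hc, hcp⟩ := mem_sUnitsPow.mp hmem
    have hcp' : (u : K) = (((rep q : ↥(sUnits K S)) : Kˣ) : K) * (c : K) ^ p := by
      have : (u : Kˣ) = ((rep q : ↥(sUnits K S)) : Kˣ) * c ^ p := by
        rw [hcp]; simp
      rw [this]; simp
    by_cases hb : bad q
    · exfalso
      have hwT : Classical.choose (hsel q hb) ∈ T := by
        refine Finset.mem_biUnion.mpr ⟨q, Finset.mem_univ _, ?_⟩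
        rw [dif_pos hb]; exact Finset.mem_singleton_self _
      obtain ⟨hwS, -, hnr⟩ := Classical.choose_spec (hsel q hb)
      apply hnr
      have h1 := hres _ hwT
      rw [hcp'] at h1
      refine IsPowMod.of_mul_pow hp.ne_zero ?_ ?_ h1
      · exact (mem_sUnits.mp (rep q).2 _ hwS).le
      · exact mem_sUnits.mp hc _ hwS
    · simp only [bad, not_not] at hb
      obtain ⟨k, c₀, hk⟩ := hb
      refine ⟨k, c₀ * c, ?_⟩
      rw [hcp', hk, mul_pow, mul_assoc]

/-- Step B: in an auxiliary set of minimal cardinality every prime has a "dual" `S`-unit. -/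
lemma exists_isAuxSet_dual (hp : p.Prime) (hζ : IsPrimitiveRoot ζ p)
    (hS : ∀ w ∉ S, w.valuation K (p : K) = 1)
    (hfin : (sUnitsPow K S p).relIndex (sUnits K S) ≠ 0) {a : Kˣ} (ha : a ∈ sUnits K S) :
    ∃ T, IsAuxSet S p a T ∧ ∀ w₀ ∈ T, ∃ e : Kˣ, e ∈ sUnits K S ∧
      (∀ w ∈ T, w ≠ w₀ → IsPowMod w p (e : K)) ∧ ¬ IsPowMod w₀ p (e : K) := by
  classical
  obtain ⟨T₀, hT₀⟩ := exists_isAuxSet S hp hζ hS hfin ha
  have hex : ∃ n, ∃ T, T.card = n ∧ IsAuxSet S p a T := ⟨_, T₀, rfl, hT₀⟩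
  obtain ⟨T, hTn, hT⟩ := Nat.find_spec hex
  have hmin : ∀ T', IsAuxSet S p a T' → Nat.find hex ≤ T'.card :=
    fun T' hT' => Nat.find_min' hex ⟨T', rfl, hT'⟩
  refine ⟨T, hT, ?_⟩
  intro w₀ hw₀
  have hcard : (T.erase w₀).card < Nat.find hex := by
    have h0 : T.card ≠ 0 := Finset.card_ne_zero_of_mem hw₀
    rw [Finset.card_erase_of_mem hw₀, ← hTn]
    omega
  have hnot : ¬ IsAuxSet S p a (T.erase w₀) := fun h => absurd (hmin _ h) (not_le.mpr hcard)
  have h2 : ¬ ∀ u ∈ sUnits K S, (∀ w ∈ T.erase w₀, IsPowMod w p ((u : Kˣ) : K)) →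
      ∃ (k : ℕ) (c : K), (u : K) = (a : K) ^ k * c ^ p :=
    fun h2 => hnot ⟨fun w hw => hT.1 w (Finset.mem_of_mem_erase hw), h2⟩
  push Not at h2
  obtain ⟨u, hu, hres, hnk⟩ := h2
  refine ⟨u, hu, fun w hw hne => hres w (Finset.mem_erase.mpr ⟨hne, hw⟩), fun hw0 => ?_⟩
  obtain ⟨k, c, hkc⟩ := hT.2 u hu (fun w hw => by
    by_cases h : w = w₀
    · rw [h]; exact hw0
    · exact hres w (Finset.mem_erase.mpr ⟨h, hw⟩))
  exact hnk k c hkc

/-- **Chevalley's auxiliary primes.** -/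
theorem exists_auxPrimes (hp : p.Prime) (hζ : IsPrimitiveRoot ζ p)
    (hS : ∀ w ∉ S, w.valuation K (p : K) = 1)
    (hfin : (sUnitsPow K S p).relIndex (sUnits K S) ≠ 0) {a : Kˣ} (ha : a ∈ sUnits K S) :
    ∃ T : Finset (HeightOneSpectrum (𝓞 K)),
      (∀ w ∈ T, w ∉ S ∧ IsPowMod w p (a : K)) ∧
      (∀ u ∈ sUnits K S, (∀ w ∈ T, IsPowMod w p ((u : Kˣ) : K)) →
          ∃ (k : ℕ) (c : Kˣ), c ∈ sUnits K S ∧ u = a ^ k * c ^ p) ∧
      (∀ c : HeightOneSpectrum (𝓞 K) → K, (∀ w ∈ T, w.valuation K (c w) = 1) →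
          ∃ u ∈ sUnits K S, ∀ w ∈ T, IsPowMod w p (((u : Kˣ) : K) * c w)) ∧
      (sUnitsPow K S p).relIndex (sUnits K S) ≤ p ^ (T.card + 1) := by
  classical
  obtain ⟨T, hT, hdual⟩ := exists_isAuxSet_dual S hp hζ hS hfin ha
  choose e he hres hnres using hdual
  -- total version of the dual elements
  let e' : HeightOneSpectrum (𝓞 K) → Kˣ := fun w => if h : w ∈ T then e w h else 1
  have he'V : ∀ w, e' w ∈ sUnits K S := by
    intro w
    by_cases h : w ∈ T
    · simp only [e', dif_pos h]; exact he w h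
    · simp only [e', dif_neg h]; exact one_mem _
  have he'res : ∀ w ∈ T, ∀ w' ∈ T, w' ≠ w → IsPowMod w' p ((e' w : Kˣ) : K) := by
    intro w hw w' hw' hne
    simp only [e', dif_pos hw]; exact hres w hw w' hw' hne
  have he'nres : ∀ w ∈ T, ¬ IsPowMod w p ((e' w : Kˣ) : K) := by
    intro w hw
    simp only [e', dif_pos hw]; exact hnres w hw
  have hval : ∀ w ∈ T, ∀ x ∈ sUnits K S, w.valuation K ((x : Kˣ) : K) = 1 :=
    fun w hw x hx => mem_sUnits.mp hx w (hT.1 w hw).1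
  -- refined surjectivity
  have hsurj : ∀ c : HeightOneSpectrum (𝓞 K) → K, (∀ w ∈ T, w.valuation K (c w) = 1) →
      ∃ i : HeightOneSpectrum (𝓞 K) → ℕ, (∀ w, i w < p) ∧ ∀ w' ∈ T,
        IsPowMod w' p ((∏ w ∈ T, ((e' w : Kˣ) : K) ^ i w) * c w') := by
    intro c hc
    have hi : ∀ w ∈ T, ∃ i : ℕ, i < p ∧ IsPowMod w p (c w * ((e' w : Kˣ) : K) ^ i) := by
      intro w hw
      have : Finite (𝓞 K ⧸ w.asIdeal) := Ideal.finiteQuotientOfFreeOfNeBot w.asIdeal w.ne_bot
      exact exists_lt_isPowMod_mul_pow hp (hval w hw _ (he'V w)) (he'nres w hw) (hc w hw)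
    choose i hip hi using hi
    let i' : HeightOneSpectrum (𝓞 K) → ℕ := fun w => if h : w ∈ T then i w h else 0
    refine ⟨i', ?_, ?_⟩
    · intro w
      by_cases h : w ∈ T
      · simp only [i', dif_pos h]; exact hip w h
      · simp only [i', dif_neg h]; exact hp.pos
    · intro w' hw'
      rw [← Finset.mul_prod_erase T _ hw']
      have h1 : IsPowMod w' p (c w' * ((e' w' : Kˣ) : K) ^ i' w') := by
        simp only [i', dif_pos hw']; exact hi w' hw'
      have h2 := IsPowMod.prod (w := w') (p := p) (T.erase w')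
        (fun w => ((e' w : Kˣ) : K) ^ i' w) hp.ne_zero (by
          intro w hw
          have hwT := Finset.mem_of_mem_erase hw
          have hne : w' ≠ w := (Finset.ne_of_mem_erase hw).symm
          have hv : w'.valuation K ((e' w : Kˣ) : K) = 1 := hval w' hw' _ (he'V w)
          refine ⟨?_, IsPowMod.pow hp.ne_zero hv.le (he'res w hwT w' hw' hne) _⟩
          rw [map_pow, hv, one_pow])
      have e1 : ((e' w' : Kˣ) : K) ^ i' w' * (∏ w ∈ T.erase w', ((e' w : Kˣ) : K) ^ i' w) * c w'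
          = (c w' * ((e' w' : Kˣ) : K) ^ i' w') *
            ∏ w ∈ T.erase w', ((e' w : Kˣ) : K) ^ i' w := by ring
      rw [e1]
      refine IsPowMod.mul hp.ne_zero ?_ h2.1 h1 h2.2
      rw [map_mul, map_pow, hc w' hw', hval w' hw' _ (he'V w'), one_pow, one_mul]
  have hprodV : ∀ i : HeightOneSpectrum (𝓞 K) → ℕ, (∏ w ∈ T, e' w ^ i w) ∈ sUnits K S :=
    fun i => Subgroup.prod_mem _ (fun w _ => pow_mem (he'V w) _)
  have hprodcoe : ∀ i : HeightOneSpectrum (𝓞 K) → ℕ,
      (((∏ w ∈ T, e' w ^ i w : Kˣ)) : K) = ∏ w ∈ T, ((e' w : Kˣ) : K) ^ i w := by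
    intro i
    rw [Units.coe_prod]
    exact Finset.prod_congr rfl (fun w _ => Units.val_pow_eq_pow_val _ _)
  -- (T2) with `S`-unit root
  have hT2 : ∀ u ∈ sUnits K S, (∀ w ∈ T, IsPowMod w p ((u : Kˣ) : K)) →
      ∃ (k : ℕ) (c : Kˣ), c ∈ sUnits K S ∧ u = a ^ k * c ^ p := by
    intro u hu hres'
    obtain ⟨k, c, hkc⟩ := hT.2 u hu hres'
    obtain ⟨c', hc', h⟩ := exists_sUnit_of_eq_pow_mul_pow hp.ne_zero ha hu hkc
    exact ⟨k, c', hc', h⟩
  refine ⟨T, hT.1, hT2, ?_, ?_⟩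
  · -- (T3)
    intro c hc
    obtain ⟨i, -, hi⟩ := hsurj c hc
    refine ⟨∏ w ∈ T, e' w ^ i w, hprodV i, ?_⟩
    intro w hw
    rw [hprodcoe]
    exact hi w hw
  · -- (T4)
    have hidx : (sUnitsPow K S p).relIndex (sUnits K S) =
        Nat.card (↥(sUnits K S) ⧸ (sUnitsPow K S p).subgroupOf (sUnits K S)) :=
      Subgroup.index_eq_card _
    rw [hidx]
    let f : Fin p × (↥T → Fin p) →
        ↥(sUnits K S) ⧸ (sUnitsPow K S p).subgroupOf (sUnits K S) := fun x =>
      QuotientGroup.mk ((⟨a, ha⟩ : ↥(sUnits K S)) ^ (x.1 : ℕ) *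
        (∏ w ∈ T.attach, (⟨e' w.1, he'V w.1⟩ : ↥(sUnits K S)) ^ (x.2 w : ℕ))⁻¹)
    have hf : Function.Surjective f := by
      intro q
      obtain ⟨⟨u, hu⟩, rfl⟩ := QuotientGroup.mk_surjective q
      obtain ⟨i, hip, hi⟩ := hsurj (fun _ => (u : K)) (fun w hw => hval w hw u hu)
      -- `u * ∏ e ^ i` is a residue at all of `T`
      have hmem : (∏ w ∈ T, e' w ^ i w) * u ∈ sUnits K S := mul_mem (hprodV i) hu
      obtain ⟨k, c, hc, hkc⟩ := hT2 _ hmem (by
        intro w hw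
        rw [Units.val_mul, hprodcoe]
        exact hi w hw)
      refine ⟨(⟨k % p, Nat.mod_lt _ hp.pos⟩, fun w => ⟨i w.1, hip w.1⟩), ?_⟩
      simp only [f]
      rw [QuotientGroup.eq, Subgroup.mem_subgroupOf, mem_sUnitsPow]
      refine ⟨a ^ (k / p) * c, mul_mem (pow_mem ha _) hc, ?_⟩
      -- the computation in `Kˣ`
      have hP : ((∏ w ∈ T.attach, (⟨e' w.1, he'V w.1⟩ : ↥(sUnits K S)) ^ i w.1 :
          ↥(sUnits K S)) : Kˣ) = ∏ w ∈ T, e' w ^ i w := by
        rw [SubmonoidClass.coe_finsetProd, ← Finset.prod_attach T (fun w => e' w ^ i w)]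
        rfl
      simp only [Subgroup.coe_mul, Subgroup.coe_inv, Subgroup.coe_pow, hP]
      have hk : a ^ k = a ^ (k % p) * (a ^ (k / p)) ^ p := by
        conv_lhs => rw [← Nat.mod_add_div k p]
        rw [pow_add, pow_mul']
      have hu' : u = (∏ w ∈ T, e' w ^ i w)⁻¹ * (a ^ k * c ^ p) := eq_inv_mul_of_mul_eq hkc
      rw [eq_inv_mul_iff_mul_eq, mul_pow, hu', hk]
      simp only [mul_comm, mul_left_comm, mul_assoc]
    calc Nat.card (↥(sUnits K S) ⧸ (sUnitsPow K S p).subgroupOf (sUnits K S))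
        ≤ Nat.card (Fin p × (↥T → Fin p)) := Nat.card_le_card_of_surjective f hf
      _ = p ^ (T.card + 1) := by
        rw [Nat.card_prod, Nat.card_fun, Nat.card_fin, Nat.card_eq_fintype_card,
          Fintype.card_coe, pow_succ, mul_comm]

end main

end Fermat.Agent.S55.GL.SecondIneq
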