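/-
S55 / GLO7 (helper21): second inequality.  File 7: the bridge between the Herbrand index
`h⁰(C) = [C^G : N C]` of a quotient `C = J / E` (helper29's `hIdx (dlt σC) (nrm σC n)`) and the
"idelic" norm index `[J^G : E^G + N J]` computed upstairs, under `Ĥ⁻¹(G, E) = H¹(G, E) = 0`.

* `hIdx_quotient_eq_relIndex` : for `σ ^ n = 1` on `J`, `E = ker (J → C)` with `Ĥ⁻¹(E) = 0`:
  `hIdx (dlt σC) (nrm σC n) = [(J^σ) : N J + (E ∩ J^σ)]`.
* `hIdx_quotient_eq_index` : if moreover `j : X → J` identifies a (multiplicative) group `X` with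
  `J^σ`, `P ≤ X` with `E ∩ J^σ` and `𝒩 ≤ X` with `N J`, then
  `hIdx (dlt σC) (nrm σC n) = (P ⊔ 𝒩).index`.

With `X = ∏_{v ∈ S} (K_v)ˣ`, `P` = diagonal image of the `S`-units, `𝒩 = ∏ N_v` this is the index
bounded in `Chevalley.lean` (GLO7) and bounded below by helper29's first inequality (GLO6).
Mathlib + S14/Herbrand{,Cyclic} only.
-/
import Mathlib
import Fermat.Agent.S14.Herbrand
import Fermat.Agent.S14.HerbrandCyclic

set_option autoImplicit false

namespace Fermat.Agent.S55.GL.SecondIneq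

open Fermat.Agent.S14.Herbrand AddSubgroup

variable {M C : Type*} [AddCommGroup M] [AddCommGroup C]

/-- powers of compatible endomorphisms are compatible -/
lemma pow_comp_of_comp {σ : AddMonoid.End M} {σC : AddMonoid.End C} (π : M →+ C)
    (hπσ : ∀ x, σC (π x) = π (σ x)) (i : ℕ) (x : M) : (σC ^ i) (π x) = π ((σ ^ i) x) := by
  induction i generalizing x with
  | zero => simp
  | succ i ih =>
    rw [pow_succ, pow_succ]
    show (σC ^ i) (σC (π x)) = π ((σ ^ i) (σ x))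
    rw [hπσ, ih]

lemma nrm_comp_of_comp {σ : AddMonoid.End M} {σC : AddMonoid.End C} (π : M →+ C)
    (hπσ : ∀ x, σC (π x) = π (σ x)) (n : ℕ) (x : M) : nrm σC n (π x) = π (nrm σ n x) := by
  rw [nrm_apply, nrm_apply, map_sum]
  exact Finset.sum_congr rfl (fun i _ => pow_comp_of_comp π hπσ i x)

lemma dlt_comp_of_comp {σ : AddMonoid.End M} {σC : AddMonoid.End C} (π : M →+ C)
    (hπσ : ∀ x, σC (π x) = π (σ x)) (x : M) : dlt σC (π x) = π (dlt σ x) := by
  rw [dlt_apply, dlt_apply, hπσ, map_sub]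

/-- **Herbrand index of a quotient**: if `Ĥ⁻¹(E) = 0` then
`[C^σ : N C] = [J^σ : N J + (E ∩ J^σ)]` for `C = J / E`. -/
theorem hIdx_quotient_eq_relIndex (σ : AddMonoid.End M) (n : ℕ) (hσ : σ ^ n = 1)
    (E : AddSubgroup M) (π : M →+ C) (hπ : Function.Surjective π) (hker : π.ker = E)
    (σC : AddMonoid.End C) (hπσ : ∀ x, σC (π x) = π (σ x))
    (hH1 : ∀ e ∈ E, nrm σ n e = 0 → ∃ e' ∈ E, e = σ e' - e') :
    hIdx (dlt σC) (nrm σC n) =
      ((nrm σ n).range ⊔ (E ⊓ (dlt σ).ker)).relIndex (dlt σ).ker := by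
  have hI : (dlt σC).ker = (dlt σ).ker.map π := by
    ext c
    constructor
    · intro hc
      obtain ⟨x, rfl⟩ := hπ c
      rw [AddMonoidHom.mem_ker, dlt_comp_of_comp π hπσ] at hc
      have he : dlt σ x ∈ E := by rw [← hker]; exact hc
      obtain ⟨e', he', hee'⟩ := hH1 _ he (nrm_dlt hσ x)
      refine ⟨x - e', ?_, ?_⟩
      · show dlt σ (x - e') = 0
        rw [map_sub, hee', dlt_apply, sub_self]
      · have : π e' = 0 := by
          rw [← AddMonoidHom.mem_ker, hker]; exact he'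
        rw [map_sub, this, sub_zero]
    · rintro ⟨x, hx, rfl⟩
      have hx' : dlt σ x = 0 := hx
      rw [AddMonoidHom.mem_ker, dlt_comp_of_comp π hπσ, hx', map_zero]
  have hR : (nrm σC n).range = (nrm σ n).range.map π := by
    ext c
    constructor
    · rintro ⟨c', rfl⟩
      obtain ⟨x, rfl⟩ := hπ c'
      exact ⟨nrm σ n x, ⟨x, rfl⟩, (nrm_comp_of_comp π hπσ n x).symm⟩
    · rintro ⟨_, ⟨x, rfl⟩, rfl⟩
      exact ⟨π x, nrm_comp_of_comp π hπσ n x⟩
  have hRI : (nrm σ n).range ≤ (dlt σ).ker := by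
    rintro _ ⟨x, rfl⟩
    exact dlt_nrm hσ x
  unfold hIdx
  rw [hI, hR, relIndex_map_map, hker]
  -- `(R ⊔ E).relIndex (I ⊔ E) = (R ⊔ (E ⊓ I)).relIndex I`
  have e1 : (dlt σ).ker ⊔ E = (dlt σ).ker ⊔ ((nrm σ n).range ⊔ E) := by
    rw [← sup_assoc, sup_eq_left.mpr hRI]
  rw [e1, relIndex_sup_right, ← inf_relIndex_right]
  congr 1
  -- modular law
  rw [inf_comm, sup_comm, ← inf_sup_assoc_of_le E hRI, sup_comm, inf_comm]

/-- **Bridge to the idelic index.** -/
theorem hIdx_quotient_eq_index (σ : AddMonoid.End M) (n : ℕ) (hσ : σ ^ n = 1)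
    (E : AddSubgroup M) (π : M →+ C) (hπ : Function.Surjective π) (hker : π.ker = E)
    (σC : AddMonoid.End C) (hπσ : ∀ x, σC (π x) = π (σ x))
    (hH1 : ∀ e ∈ E, nrm σ n e = 0 → ∃ e' ∈ E, e = σ e' - e')
    {X : Type*} [CommGroup X] (j : Additive X →+ M) (hj : Function.Injective j)
    (hjI : j.range = (dlt σ).ker) (P 𝒩 : Subgroup X)
    (hP : P.toAddSubgroup.map j = E ⊓ (dlt σ).ker)
    (hN : 𝒩.toAddSubgroup.map j = (nrm σ n).range) :
    hIdx (dlt σC) (nrm σC n) = (P ⊔ 𝒩).index := by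
  rw [hIdx_quotient_eq_relIndex σ n hσ E π hπ hker σC hπσ hH1, ← hP, ← hN, ← hjI,
    AddMonoidHom.range_eq_map, ← AddSubgroup.map_sup, relIndex_map_map_of_injective _ _ hj,
    relIndex_top_right, sup_comm, ← OrderIso.map_sup]
  rfl

/-- Variant of `hIdx_quotient_eq_index` where only the inclusion `j(𝒩) ⊆ N(M)` is known
("local norms are global norms"): then `h⁰(C)` divides `[X : P 𝒩]`. -/
theorem hIdx_quotient_dvd_index (σ : AddMonoid.End M) (n : ℕ) (hσ : σ ^ n = 1)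
    (E : AddSubgroup M) (π : M →+ C) (hπ : Function.Surjective π) (hker : π.ker = E)
    (σC : AddMonoid.End C) (hπσ : ∀ x, σC (π x) = π (σ x))
    (hH1 : ∀ e ∈ E, nrm σ n e = 0 → ∃ e' ∈ E, e = σ e' - e')
    {X : Type*} [CommGroup X] (j : Additive X →+ M) (hj : Function.Injective j)
    (hjI : j.range = (dlt σ).ker) (P 𝒩 : Subgroup X)
    (hP : P.toAddSubgroup.map j = E ⊓ (dlt σ).ker)
    (hN : 𝒩.toAddSubgroup.map j ≤ (nrm σ n).range) :
    hIdx (dlt σC) (nrm σC n) ∣ (P ⊔ 𝒩).index := by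
  rw [hIdx_quotient_eq_relIndex σ n hσ E π hπ hker σC hπσ hH1]
  have h1 : (P ⊔ 𝒩).index =
      (E ⊓ (dlt σ).ker ⊔ 𝒩.toAddSubgroup.map j).relIndex (dlt σ).ker := by
    rw [← hP, ← hjI, AddMonoidHom.range_eq_map, ← AddSubgroup.map_sup,
      relIndex_map_map_of_injective _ _ hj, relIndex_top_right, ← OrderIso.map_sup]
    rfl
  rw [h1, sup_comm ((nrm σ n).range)]
  refine AddSubgroup.relIndex_dvd_of_le_left _ (sup_le_sup_left hN _)

end Fermat.Agent.S55.GL.SecondIneq
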