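/-
S55 / GLO7 (helper21): second inequality.  File 13: the Chevalley datum in the place model.

`K : IntermediateField ℚ ℚ̄` a number field.  For `q` prime and `σ ∈ Gal(ℚ̄/ℚ)`, helper2's
`localFieldAt q K σ = ℚ_q(ι σ K) ⊆ PadicAlgCl q` with its ring of integers
`integralClosure ℤ_[q] _` (complete DVR with finite residue field, `GL/PlacesDVR.lean`) and
`embAt q K σ : K →+* localFieldAt q K σ` is a *local model* (`LocalApprox.IsLocalModel`) of the
prime `primeAt q K σ` (`isLocalModel_embAt`); per prime `v` of `𝓞 K`, with helper2's chosen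
`(ratPrime K v, sigmaAt K v)`, `completionAt K v`, `locAt K v`: `isLocalModel_locAt`.

The Chevalley datum (`isChevalleyDatum_model`):
* `G v := (completionAt K v)ˣ`, `loc v := Units.map (locAt K v)`,
* `U v := localUnits (integers of completionAt K v) (completionAt K v)`,
* `N b v := normGroup (completionAt K v) (betaAt p K b v)`, `betaAt p K b v = ι (σ_v (b^{1/p}))`,
with the (cofinal, weak) first inequality as its only hypothesis.
-/
import Mathlib
import Fermat.Agent.S55.GL.PlacesDVR
import Fermat.Agent.S55.GL.SecondIneq.LocalDatum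

set_option autoImplicit false
set_option linter.unusedSectionVars false

namespace Fermat.Agent.S55.GL.SecondIneq

open IsLocalRing IsDedekindDomain NumberField Fermat.Agent.S55.Local Fermat.Agent.S55.LocalDict
  Fermat.Agent.S55.GL.Places Fermat.Agent.S55.GL.PlacesDVR

local notation "Qbar" => AlgebraicClosure ℚ
local notation "Γ" => (AlgebraicClosure ℚ ≃ₐ[ℚ] AlgebraicClosure ℚ)

section general

variable {O : Type*} [CommRing O] [IsDomain O] [IsDiscreteValuationRing O]
  {F : Type*} [Field F] [Algebra O F] [IsFractionRing O F]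

/-- the valuation ring of `dvrValuation O F` is (the image of) `O` -/
lemma dvrValuation_le_one_iff_exists (x : F) :
    dvrValuation O F x ≤ 1 ↔ ∃ a : O, algebraMap O F a = x := by
  constructor
  · intro h
    by_cases hx : x = 0
    · exact ⟨0, by rw [map_zero, hx]⟩
    obtain ⟨ϖ, hϖ⟩ := IsDiscreteValuationRing.exists_irreducible O
    obtain ⟨n, u, hxu⟩ := exists_eq_unit_mul_zpow (O := O) (F := F) hϖ (Units.mk0 x hx)
    rw [Units.val_mk0] at hxu
    rw [hxu, dvrValuation_unit_mul_zpow hϖ, ← WithZero.exp_zero, WithZero.exp_le_exp] at h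
    obtain ⟨m, rfl⟩ := Int.eq_ofNat_of_zero_le (by omega : 0 ≤ n)
    refine ⟨(u : O) * ϖ ^ m, ?_⟩
    rw [hxu, map_mul, map_pow, zpow_natCast]
  · rintro ⟨a, rfl⟩
    exact HeightOneSpectrum.valuation_le_one _ a

/-- divisibility in `O` from a comparison of valuations -/
lemma exists_eq_mul_of_dvrValuation_le {y : F} {c : O} (hc : c ≠ 0)
    (h : dvrValuation O F y ≤ dvrValuation O F (algebraMap O F c)) :
    ∃ a : O, y = algebraMap O F (c * a) := by
  have hc' : algebraMap O F c ≠ 0 := (map_ne_zero_iff _ (IsFractionRing.injective O F)).mpr hc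
  have h1 : dvrValuation O F (y / algebraMap O F c) ≤ 1 := by
    rw [map_div₀]
    exact div_le_one_of_le₀ h zero_le
  obtain ⟨a, ha⟩ := (dvrValuation_le_one_iff_exists _).mp h1
  refine ⟨a, ?_⟩
  rw [map_mul, ha, mul_div_cancel₀ _ hc']

end general

section model

variable (q : ℕ) [Fact q.Prime] (K : IntermediateField ℚ Qbar) [NumberField K] (σ : Γ)

/-- **The local model at the place `σ` of `K` over `q`.** -/
theorem isLocalModel_embAt :
    IsLocalModel (primeAt q K σ) (integralClosure ℤ_[q] (localFieldAt q K σ)) (embAt q K σ) where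
  int_iff x := by
    rw [← dvrValuation_embAt q K σ x]
    exact dvrValuation_le_one_iff_exists _
  dense y c hc := by
    obtain ⟨ϖ, hϖ⟩ := IsDiscreteValuationRing.exists_irreducible
      (integralClosure ℤ_[q] (localFieldAt q K σ))
    have hc' : algebraMap (integralClosure ℤ_[q] (localFieldAt q K σ)) (localFieldAt q K σ) c ≠ 0 :=
      (map_ne_zero_iff _ (IsFractionRing.injective _ _)).mpr hc
    -- the valuation of `c`
    obtain ⟨n, u, hcu⟩ := exists_eq_unit_mul_zpow
      (O := integralClosure ℤ_[q] (localFieldAt q K σ)) (F := localFieldAt q K σ) hϖ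
      (Units.mk0 _ hc')
    rw [Units.val_mk0] at hcu
    obtain ⟨x, hx⟩ := exists_dvrValuation_sub_embAt_le q K σ y n
    obtain ⟨a, ha⟩ := exists_eq_mul_of_dvrValuation_le hc (y := y - embAt q K σ x) (by
      rw [hcu, dvrValuation_unit_mul_zpow hϖ]
      exact hx)
    exact ⟨x, a, ha⟩

end model

section perPrime

/-- primes as `Fact`s -/
local instance factPrime_mp (q : Nat.Primes) : Fact (q : ℕ).Prime := ⟨q.2⟩

variable (K : IntermediateField ℚ Qbar) [NumberField K]

/-- **The local model at the prime `v`** (helper2's `completionAt`, `locAt`). -/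
theorem isLocalModel_locAt (v : HeightOneSpectrum (𝓞 K)) :
    IsLocalModel v (integralClosure ℤ_[(ratPrime K v : ℕ)] (completionAt K v)) (locAt K v) := by
  have h := isLocalModel_embAt (ratPrime K v : ℕ) K (sigmaAt K v)
  rw [primeAt_sigmaAt] at h
  exact h

/-- a chosen `p`-th root in `ℚ̄` -/
noncomputable def pRoot (p : ℕ) (b : Qbar) : Qbar :=
  if hp : 0 < p then Classical.choose (IsAlgClosed.exists_pow_nat_eq b hp) else 0

lemma pRoot_pow {p : ℕ} (hp : 0 < p) (b : Qbar) : pRoot p b ^ p = b := by
  unfold pRoot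
  rw [dif_pos hp]
  exact Classical.choose_spec (IsAlgClosed.exists_pow_nat_eq b hp)

/-- the chosen `p`-th root of `ι_v b` in `PadicAlgCl q_v` -/
noncomputable def betaAt (p : ℕ) (b : Kˣ) (v : HeightOneSpectrum (𝓞 K)) :
    PadicAlgCl (ratPrime K v : ℕ) :=
  padicEmbedding (ratPrime K v : ℕ) (sigmaAt K v (pRoot p (((b : Kˣ) : K) : Qbar)))

lemma betaAt_pow {p : ℕ} (hp : 0 < p) (b : Kˣ) (v : HeightOneSpectrum (𝓞 K)) :
    betaAt K p b v ^ p =
      algebraMap (completionAt K v) (PadicAlgCl (ratPrime K v : ℕ)) (locAt K v (b : K)) := by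
  unfold betaAt
  rw [← map_pow, ← map_pow, pRoot_pow hp]
  rfl

/-- **The Chevalley datum of `K` in the place model**, given the weak first inequality. -/
theorem isChevalleyDatum_model {p : ℕ} (hp : p.Prime) {ζ : K} (hζ : IsPrimitiveRoot ζ p)
    (hfirst : ∀ b : Kˣ, (¬ ∃ c : Kˣ, c ^ p = b) →
      ∀ S₁ : Finset (HeightOneSpectrum (𝓞 K)), ∃ S'' : Finset (HeightOneSpectrum (𝓞 K)),
        S₁ ⊆ S'' ∧ ∃ x : ∀ v, (completionAt K v)ˣ, ¬ ∃ u ∈ sUnits K S'', ∀ v ∈ S'',
          x v / Units.map (locAt K v : K →* completionAt K v) u ∈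
            normGroup (completionAt K v) (betaAt K p b v)) :
    IsChevalleyDatum (G := fun v => (completionAt K v)ˣ) p
      (fun v => Units.map (locAt K v : K →* completionAt K v))
      (fun v => localUnits (integralClosure ℤ_[(ratPrime K v : ℕ)] (completionAt K v))
        (completionAt K v))
      (fun b v => normGroup (completionAt K v) (betaAt K p b v)) :=
  isChevalleyDatum_of_localModels
    (O := fun v => integralClosure ℤ_[(ratPrime K v : ℕ)] (completionAt K v))
    (F := fun v => completionAt K v) (Ω := fun v => PadicAlgCl (ratPrime K v : ℕ))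
    (ι := locAt K) (β := betaAt K p) hp hζ (isLocalModel_locAt K)
    (fun b v => betaAt_pow K hp.pos b v) hfirst

end perPrime

end Fermat.Agent.S55.GL.SecondIneq
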