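/-
S55 / GLO7 (helper21): second inequality.  File 8: the local norm groups of Kummer extensions
`F(β)/F`, `β ^ p = b`, for a field `F` containing a primitive `p`-th root of unity — the three
local facts (N1), (N2), (N3) of `IsChevalleyDatum`.

`normGroup F β := N_{F(β)/F} (F(β)ˣ) ≤ Fˣ` (`β` in any extension field `Ω` of `F`).
* `finrank_kummer_dvd` : `[F(β) : F] ∣ p`;
* (N1) `pow_mem_normGroup` : `x ^ p ∈ normGroup F β`;
* (N2) `normGroup_eq_top` : if `b` is a `p`-th power in `F` then `normGroup F β = ⊤`;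
* (N3) `units_le_normGroup` : `F = Frac O`, `O` a complete DVR with finite residue field in which
  `p` is invertible, `b` a unit of `O`: every unit of `O` is a norm from `F(β)`
  (`F(β)/F` is unramified: helper1's LO2; the norm index is `[F(β) : F]`: helper8's LO3).
-/
import Mathlib
import Fermat.Agent.S55.Local.NormIndex
import Fermat.Agent.S55.Local.UnramExist
import Fermat.Agent.S55.Local.PowerIndex2
import Fermat.Agent.S55.Local.ValZ

set_option autoImplicit false

namespace Fermat.Agent.S55.GL.SecondIneq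

open IntermediateField Polynomial

section field

variable {F Ω : Type*} [Field F] [Field Ω] [Algebra F Ω] {p : ℕ}

/-- the norm group of the simple extension `F(β)/F` -/
noncomputable def normGroup (F : Type*) {Ω : Type*} [Field F] [Field Ω] [Algebra F Ω] (β : Ω) :
    Subgroup Fˣ :=
  (Units.map (Algebra.norm F : F⟮β⟯ →* F)).range

lemma mem_normGroup_iff {β : Ω} {x : Fˣ} :
    x ∈ normGroup F β ↔ ∃ y : (F⟮β⟯)ˣ, Algebra.norm F (y : F⟮β⟯) = (x : F) := by
  unfold normGroup
  rw [MonoidHom.mem_range]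
  constructor
  · rintro ⟨y, rfl⟩
    exact ⟨y, rfl⟩
  · rintro ⟨y, hy⟩
    exact ⟨y, Units.ext hy⟩

/-- if `b` is a `p`-th power in `F ∋ ζ_p`, the `p`-th roots of `b` lie in `F` -/
lemma mem_bot_of_pow_eq (hp : p.Prime) {ζ : F} (hζ : IsPrimitiveRoot ζ p) {b : F} (hb : b ≠ 0)
    {β : Ω} (hβ : β ^ p = algebraMap F Ω b) (h : ∃ c : F, c ^ p = b) :
    β ∈ (⊥ : IntermediateField F Ω) := by
  obtain ⟨c, rfl⟩ := h
  have hc : c ≠ 0 := by
    rintro rfl
    exact hb (zero_pow hp.ne_zero)
  have hc' : algebraMap F Ω c ≠ 0 := by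
    rwa [Ne, map_eq_zero]
  have hξ : (β / algebraMap F Ω c) ^ p = 1 := by
    rw [div_pow, hβ, map_pow, div_self (pow_ne_zero _ hc')]
  have : NeZero p := ⟨hp.ne_zero⟩
  have hζ' : IsPrimitiveRoot (algebraMap F Ω ζ) p :=
    hζ.map_of_injective (algebraMap F Ω).injective
  obtain ⟨i, -, hi⟩ := hζ'.eq_pow_of_pow_eq_one hξ
  rw [IntermediateField.mem_bot]
  refine ⟨ζ ^ i * c, ?_⟩
  rw [map_mul, map_pow, hi, div_mul_cancel₀ _ hc']

/-- `[F(β) : F]` is `1` or `p` -/
lemma finrank_kummer (hp : p.Prime) {ζ : F} (hζ : IsPrimitiveRoot ζ p) {b : F} (hb : b ≠ 0)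
    {β : Ω} (hβ : β ^ p = algebraMap F Ω b) :
    ((∃ c : F, c ^ p = b) ∧ Module.finrank F F⟮β⟯ = 1) ∨
      ((¬ ∃ c : F, c ^ p = b) ∧ Module.finrank F F⟮β⟯ = p) := by
  by_cases h : ∃ c : F, c ^ p = b
  · left
    exact ⟨h, finrank_adjoin_simple_eq_one_iff.mpr (mem_bot_of_pow_eq hp hζ hb hβ h)⟩
  · right
    refine ⟨h, ?_⟩
    push Not at h
    have hirr : Irreducible (X ^ p - C b) := X_pow_sub_C_irreducible_of_prime hp h
    have hroot : aeval β (X ^ p - C b) = 0 := by
      simp [hβ]
    have hint : IsIntegral F β :=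
      ⟨X ^ p - C b, monic_X_pow_sub_C b hp.ne_zero, by rwa [← aeval_def]⟩
    have hmin : minpoly F β = X ^ p - C b :=
      (minpoly.eq_of_irreducible_of_monic hirr hroot (monic_X_pow_sub_C b hp.ne_zero)).symm
    rw [IntermediateField.adjoin.finrank hint, hmin, natDegree_X_pow_sub_C]

lemma finrank_kummer_dvd (hp : p.Prime) {ζ : F} (hζ : IsPrimitiveRoot ζ p) {b : F} (hb : b ≠ 0)
    {β : Ω} (hβ : β ^ p = algebraMap F Ω b) : Module.finrank F F⟮β⟯ ∣ p := by
  rcases finrank_kummer hp hζ hb hβ with h | h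
  · rw [h.2]; exact one_dvd _
  · rw [h.2]

/-- (N1): `p`-th powers are norms from `F(β)` -/
theorem pow_mem_normGroup (hp : p.Prime) {ζ : F} (hζ : IsPrimitiveRoot ζ p) {b : F} (hb : b ≠ 0)
    {β : Ω} (hβ : β ^ p = algebraMap F Ω b) (x : Fˣ) : x ^ p ∈ normGroup F β := by
  rw [mem_normGroup_iff]
  rcases finrank_kummer hp hζ hb hβ with h | h
  · refine ⟨Units.map (algebraMap F F⟮β⟯ : F →* F⟮β⟯) (x ^ p), ?_⟩
    rw [Units.coe_map, MonoidHom.coe_coe, Algebra.norm_algebraMap, h.2, pow_one]
  · refine ⟨Units.map (algebraMap F F⟮β⟯ : F →* F⟮β⟯) x, ?_⟩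
    rw [Units.coe_map, MonoidHom.coe_coe, Algebra.norm_algebraMap, h.2, Units.val_pow_eq_pow_val]

/-- (N2): if `b` is a `p`-th power in `F`, every element of `Fˣ` is a norm from `F(β) = F` -/
theorem normGroup_eq_top (hp : p.Prime) {ζ : F} (hζ : IsPrimitiveRoot ζ p) {b : F} (hb : b ≠ 0)
    {β : Ω} (hβ : β ^ p = algebraMap F Ω b) (h : ∃ c : F, c ^ p = b) : normGroup F β = ⊤ := by
  rw [eq_top_iff]
  intro x _
  rw [mem_normGroup_iff]
  have h1 : Module.finrank F F⟮β⟯ = 1 :=
    finrank_adjoin_simple_eq_one_iff.mpr (mem_bot_of_pow_eq hp hζ hb hβ h)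
  refine ⟨Units.map (algebraMap F F⟮β⟯ : F →* F⟮β⟯) x, ?_⟩
  rw [Units.coe_map, MonoidHom.coe_coe, Algebra.norm_algebraMap, h1, pow_one]

end field

section unramified

set_option linter.unusedSectionVars false

open IsLocalRing Fermat.Agent.S55.Local

variable (O : Type*) [CommRing O] [IsDomain O] [IsDiscreteValuationRing O]
  [IsAdicComplete (maximalIdeal O) O] [Finite (ResidueField O)]
  (F : Type*) [Field F] [Algebra O F] [IsFractionRing O F]
  (E : Type*) [Field E] [Algebra F E] [Algebra O E] [IsScalarTower O F E]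
  [FiniteDimensional F E] [Algebra.IsSeparable F E]
  (B : Type*) [CommRing B] [Algebra O B] [Algebra B E] [IsScalarTower O B E]
  [IsIntegralClosure B O E] [IsDomain B] [IsDiscreteValuationRing B] [IsFractionRing B E]

/-- In an unramified extension the normalised valuation of `E` extends that of `F`. -/
theorem valZ_algebraMap_of_isMaximal
    (hmax : ((maximalIdeal O).map (algebraMap O B)).IsMaximal) (x : Fˣ) :
    valZ B E (Units.map (algebraMap F E : F →* E) x) = valZ O F x := by
  obtain ⟨ϖ, hϖ⟩ := IsDiscreteValuationRing.exists_irreducible O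
  have hspan : maximalIdeal B = Ideal.span {algebraMap O B ϖ} := by
    rw [← IsLocalRing.eq_maximalIdeal hmax, hϖ.maximalIdeal_eq, Ideal.map_span,
      Set.image_singleton]
  have hϖB : Irreducible (algebraMap O B ϖ) :=
    (IsDiscreteValuationRing.irreducible_iff_uniformizer _).mpr hspan
  obtain ⟨n, u, hx⟩ := exists_eq_unit_mul_zpow (O := O) (F := F) hϖ x
  have hxE : ((Units.map (algebraMap F E : F →* E) x : Eˣ) : E) =
      algebraMap B E (Units.map (algebraMap O B : O →* B) u : Bˣ) *
        algebraMap B E (algebraMap O B ϖ) ^ n := by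
    rw [Units.coe_map, MonoidHom.coe_coe, hx, map_mul, map_zpow₀, Units.coe_map,
      MonoidHom.coe_coe, ← IsScalarTower.algebraMap_apply O F E,
      ← IsScalarTower.algebraMap_apply O F E, ← IsScalarTower.algebraMap_apply O B E,
      ← IsScalarTower.algebraMap_apply O B E]
  apply WithZero.coe_injective
  rw [coe_valZ, coe_valZ, hxE, hx, dvrValuation_unit_mul_zpow hϖB, dvrValuation_unit_mul_zpow hϖ]

variable [IsGalois F E]

/-- In an unramified Galois extension, `v_F (N y) = [E : F] · v_E (y)`. -/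
theorem valZ_norm_of_isMaximal
    (hmax : ((maximalIdeal O).map (algebraMap O B)).IsMaximal) (y : Eˣ) :
    valZ O F (Units.map (Algebra.norm F : E →* F) y) = valZ B E y ^ Module.finrank F E := by
  classical
  rw [← valZ_algebraMap_of_isMaximal O F E B hmax]
  have hprod : Units.map (algebraMap F E : F →* E) (Units.map (Algebra.norm F : E →* F) y) =
      ∏ σ : E ≃ₐ[F] E, Units.map ((σ : E ≃+* E).toRingHom : E →* E) y := by
    ext
    rw [Units.coe_map, MonoidHom.coe_coe, Units.coe_map, Units.coe_prod,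
      Algebra.norm_eq_prod_automorphisms]
    rfl
  rw [hprod, map_prod]
  rw [Finset.prod_congr rfl (fun σ _ => valZ_map_algEquiv O F E B σ y), Finset.prod_const,
    Finset.card_univ, ← Nat.card_eq_fintype_card, IsGalois.card_aut_eq_finrank]

/-- **Units are norms in an unramified cyclic extension of prime degree.** -/
theorem units_mem_range_norm_of_isMaximal [IsCyclic (E ≃ₐ[F] E)]
    (hprime : (Module.finrank F E).Prime)
    (hmax : ((maximalIdeal O).map (algebraMap O B)).IsMaximal) (u : Oˣ) :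
    Units.map (algebraMap O F : O →* F) u ∈ (Units.map (Algebra.norm F : E →* F)).range := by
  set n := Module.finrank F E with hn
  set Nm := (Units.map (Algebra.norm F : E →* F)).range with hNm
  -- the subgroup of elements of valuation divisible by `n`
  set H : Subgroup Fˣ := (powMonoidHom n : Multiplicative ℤ →* Multiplicative ℤ).range.comap
    (valZ O F) with hH
  have hNH : Nm ≤ H := by
    rintro _ ⟨y, rfl⟩
    rw [hH, Subgroup.mem_comap, valZ_norm_of_isMaximal O F E B hmax y]
    exact ⟨valZ B E y, rfl⟩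
  have hidx : Nm.index = n := index_range_norm_of_isCyclic O F E B
  -- `H ≠ ⊤`
  have hHtop : H ≠ ⊤ := by
    intro htop
    obtain ⟨x, hx⟩ := valZ_surjective (O := O) (F := F) (Multiplicative.ofAdd (1 : ℤ))
    have hxH : x ∈ H := htop ▸ Subgroup.mem_top x
    rw [hH, Subgroup.mem_comap, hx] at hxH
    obtain ⟨t, ht⟩ := hxH
    have h1 : (n : ℤ) * Multiplicative.toAdd t = 1 := by
      have := congrArg Multiplicative.toAdd ht
      simpa [powMonoidHom_apply, toAdd_pow] using this
    have h2 : (n : ℤ) ∣ 1 := ⟨_, h1.symm⟩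
    have h3 : n = 1 := by
      have := Int.natAbs_dvd_natAbs.mpr h2
      simpa using Nat.eq_one_of_dvd_one this
    exact hprime.one_lt.ne' h3
  have hHidx : H.index = n := by
    have hdvd : H.index ∣ n := hidx ▸ Subgroup.index_dvd_of_le hNH
    rcases (Nat.dvd_prime hprime).mp hdvd with h1 | h1
    · exact absurd (Subgroup.index_eq_one.mp h1) hHtop
    · exact h1
  have hrel : Nm.relIndex H = 1 := by
    have h := Subgroup.relIndex_mul_index hNH
    rw [hidx, hHidx] at h
    exact Nat.eq_of_mul_eq_mul_right hprime.pos (by rw [h, one_mul])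
  have hHN : H ≤ Nm := Subgroup.relIndex_eq_one.mp hrel
  apply hHN
  rw [hH, Subgroup.mem_comap]
  have : valZ O F (Units.map (algebraMap O F : O →* F) u) = 1 := valZ_map_unit u
  rw [this]
  exact one_mem _

end unramified

section kummerLocal

set_option linter.unusedSectionVars false

open IsLocalRing Fermat.Agent.S55.Local Fermat.Agent.S55.Local.Unram

variable (O : Type*) [CommRing O] [IsDomain O] [IsDiscreteValuationRing O]
  [IsAdicComplete (maximalIdeal O) O] [Finite (ResidueField O)]
  (F : Type*) [Field F] [Algebra O F] [IsFractionRing O F]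
  {Ω : Type*} [Field Ω] [Algebra F Ω] [Algebra O Ω] [IsScalarTower O F Ω] {p : ℕ}

/-- the generator of `F(β)` generates -/
lemma adjoin_gen_eq_top {β : Ω} (hint : IsIntegral F β) :
    F⟮AdjoinSimple.gen F β⟯ = (⊤ : IntermediateField F F⟮β⟯) := by
  apply IntermediateField.adjoin_eq_top_of_algebra
  rw [← IntermediateField.adjoin.powerBasis_gen hint]
  exact PowerBasis.adjoin_gen_eq_top _

/-- (N3): **local units are norms from `F(β)`, `β ^ p = b` a unit, `p` invertible.** -/
theorem units_mem_normGroup (hp : p.Prime) {ζ : F} (hζ : IsPrimitiveRoot ζ p)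
    (hpu : IsUnit (p : O)) (b₀ : Oˣ) {β : Ω} (hβ : β ^ p = algebraMap O Ω (b₀ : O)) (u : Oˣ) :
    Units.map (algebraMap O F : O →* F) u ∈ normGroup F β := by
  have hb : algebraMap O F (b₀ : O) ≠ 0 := by
    rw [Ne, map_eq_zero_iff _ (IsFractionRing.injective O F)]
    exact b₀.ne_zero
  have hβ' : β ^ p = algebraMap F Ω (algebraMap O F (b₀ : O)) := by
    rw [hβ, ← IsScalarTower.algebraMap_apply]
  rcases finrank_kummer hp hζ hb hβ' with h | h
  · rw [normGroup_eq_top hp hζ hb hβ' h.1]
    exact Subgroup.mem_top _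
  · obtain ⟨hnot, hfin⟩ := h
    -- `X ^ p - b₀` is irreducible modulo `𝔪`
    have hres : ∀ c : ResidueField O, c ^ p ≠ residue O (b₀ : O) := by
      intro c hc
      obtain ⟨y, rfl⟩ := residue_surjective c
      have hy : (b₀ : O) - y ^ p ∈ maximalIdeal O := by
        rw [← Ideal.Quotient.eq_zero_iff_mem]
        have : residue O ((b₀ : O) - y ^ p) = 0 := by
          rw [map_sub, map_pow, hc, sub_self]
        exact this
      obtain ⟨x, hx⟩ := (exists_pow_eq_iff_of_isUnit hp hpu b₀).mpr ⟨y, hy⟩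
      apply hnot
      refine ⟨algebraMap O F (x : O), ?_⟩
      rw [← map_pow, ← Units.val_pow_eq_pow_val, hx]
    set g : O[X] := X ^ p - C (b₀ : O) with hg
    have hgm : g.Monic := monic_X_pow_sub_C _ hp.ne_zero
    have hgirr : Irreducible (g.map (residue O)) := by
      rw [hg, Polynomial.map_sub, Polynomial.map_pow, map_X, map_C]
      exact X_pow_sub_C_irreducible_of_prime hp hres
    have hgβ : aeval β g = 0 := by
      rw [hg, map_sub, map_pow, aeval_X, aeval_C, hβ, sub_self]
    have hmax := isMaximal_map_integralClosure_adjoin_root F hgm hgirr hgβ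
    have hint : IsIntegral F β := isIntegral_of_aeval_eq_zero F hgm hgβ
    have : FiniteDimensional F F⟮β⟯ := IntermediateField.adjoin.finiteDimensional hint
    -- Galois and cyclic
    have hK : (primitiveRoots (Module.finrank F F⟮β⟯) F).Nonempty := by
      rw [hfin]
      exact ⟨ζ, (mem_primitiveRoots hp.pos).mpr hζ⟩
    have hgal : IsGalois F F⟮β⟯ ∧ IsCyclic (F⟮β⟯ ≃ₐ[F] F⟮β⟯) := by
      have h20 := (isCyclic_tfae F F⟮β⟯ hK).out 2 0
      refine h20.mp ⟨AdjoinSimple.gen F β, ?_, adjoin_gen_eq_top F hint⟩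
      refine ⟨algebraMap O F (b₀ : O), ?_⟩
      apply Subtype.ext
      rw [hfin]
      show algebraMap F Ω (algebraMap O F (b₀ : O)) = ((AdjoinSimple.gen F β : F⟮β⟯) : Ω) ^ p
      rw [AdjoinSimple.coe_gen, hβ']
    obtain ⟨hG, hC⟩ := hgal
    have hdvr : IsDiscreteValuationRing (integralClosure O F⟮β⟯) :=
      isDiscreteValuationRing_of_isIntegralClosure O F F⟮β⟯ (integralClosure O F⟮β⟯)
    have hfr : IsFractionRing (integralClosure O F⟮β⟯) F⟮β⟯ :=
      isFractionRing_of_isIntegralClosure O F F⟮β⟯ (integralClosure O F⟮β⟯)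
    exact units_mem_range_norm_of_isMaximal O F F⟮β⟯ (integralClosure O F⟮β⟯)
      (hfin ▸ hp) hmax u

end kummerLocal

end Fermat.Agent.S55.GL.SecondIneq
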