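/-
S55 / GLO7 (helper21): second inequality.  File 15: the field norm as a product over cosets of
Galois groups.

`L'/F₀` finite Galois, `F ≤ E` intermediate fields, `Δ_F = Gal(L'/F)`, `Δ_E = Gal(L'/E)` as
subgroups of `Gal(L'/F₀)`.  For `z ∈ E`:
`∏_{y ∈ Δ_F / Δ_E} y z = N_{E/F} z`  (`finprod_fixingSubgroup_eq_norm`),
and the same statement for units in terms of helper3's `CoindInv.relNorm`
(`relNorm_fixingSubgroup_eq_norm`).  This is the comparison (c2) between the group-theoretic
local norm of the coinduced idèle model and the norm groups of `LocalKummer.lean`.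
-/
import Mathlib
import Fermat.Agent.S55.GL.CoindInv

set_option autoImplicit false
set_option linter.unusedSectionVars false

namespace Fermat.Agent.S55.GL.SecondIneq

open IntermediateField Module Fermat.Agent.S55.GL.CoindInv

variable {F₀ L' : Type*} [Field F₀] [Field L'] [Algebra F₀ L'] [FiniteDimensional F₀ L']
  [IsGalois F₀ L'] (F E : IntermediateField F₀ L') (hFE : F ≤ E)

/-- the `F`-embedding of `E` into an algebraic closure of `L'` attached to `d ∈ Gal(L'/F)` -/
noncomputable def embOfFix (d : F.fixingSubgroup) :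
    extendScalars hFE →ₐ[F] AlgebraicClosure L' :=
  ((IsScalarTower.toAlgHom F L' (AlgebraicClosure L')).comp
    ((fixingSubgroupEquiv F d : L' ≃ₐ[F] L') : L' →ₐ[F] L')).comp (extendScalars hFE).val

lemma embOfFix_apply (d : F.fixingSubgroup) (x : extendScalars hFE) :
    embOfFix F E hFE d x = algebraMap L' (AlgebraicClosure L') ((d : L' ≃ₐ[F₀] L') (x : L')) :=
  rfl

lemma embOfFix_eq_iff (d d' : F.fixingSubgroup) :
    embOfFix F E hFE d = embOfFix F E hFE d' ↔
      d⁻¹ * d' ∈ E.fixingSubgroup.subgroupOf F.fixingSubgroup := by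
  rw [Subgroup.mem_subgroupOf, IntermediateField.mem_fixingSubgroup_iff]
  constructor
  · intro h x hx
    have h1 := DFunLike.congr_fun h (⟨x, hx⟩ : extendScalars hFE)
    rw [embOfFix_apply, embOfFix_apply] at h1
    have h2 : (d : L' ≃ₐ[F₀] L') x = (d' : L' ≃ₐ[F₀] L') x :=
      (algebraMap L' (AlgebraicClosure L')).injective h1
    show ((d⁻¹ * d' : F.fixingSubgroup) : L' ≃ₐ[F₀] L') x = x
    push_cast
    rw [AlgEquiv.mul_apply, ← h2]
    exact (d : L' ≃ₐ[F₀] L').symm_apply_apply x
  · intro h
    ext x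
    rw [embOfFix_apply, embOfFix_apply]
    congr 1
    have h1 := h (x : L') x.2
    have h2 : ((d⁻¹ * d' : F.fixingSubgroup) : L' ≃ₐ[F₀] L') (x : L') =
        (d : L' ≃ₐ[F₀] L').symm ((d' : L' ≃ₐ[F₀] L') (x : L')) := by
      push_cast
      rw [AlgEquiv.mul_apply]
      rfl
    rw [h2] at h1
    have h3 := congrArg (d : L' ≃ₐ[F₀] L') h1
    rw [AlgEquiv.apply_symm_apply] at h3
    exact h3.symm

lemma card_quotient_fixingSubgroup :
    Nat.card (F.fixingSubgroup ⧸ E.fixingSubgroup.subgroupOf F.fixingSubgroup) =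
      finrank F (extendScalars hFE) := by
  have hle : E.fixingSubgroup ≤ F.fixingSubgroup := IntermediateField.fixingSubgroup_antitone hFE
  have h1 := Subgroup.card_eq_card_quotient_mul_card_subgroup
    (E.fixingSubgroup.subgroupOf F.fixingSubgroup)
  rw [Nat.card_congr (Subgroup.subgroupOfEquivOfLe hle).toEquiv,
    IsGalois.card_fixingSubgroup_eq_finrank F, IsGalois.card_fixingSubgroup_eq_finrank E,
    ← Module.finrank_mul_finrank F (extendScalars hFE) L'] at h1
  have h2 : finrank (extendScalars hFE) L' = finrank E L' := rfl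
  rw [h2] at h1
  have hpos : 0 < finrank E L' := Module.finrank_pos
  exact (Nat.eq_of_mul_eq_mul_right hpos h1).symm

lemma embOfFix_out_bijective :
    Function.Bijective (fun y : F.fixingSubgroup ⧸ E.fixingSubgroup.subgroupOf F.fixingSubgroup =>
      embOfFix F E hFE (Quotient.out y)) := by
  have hinj : Function.Injective
      (fun y : F.fixingSubgroup ⧸ E.fixingSubgroup.subgroupOf F.fixingSubgroup =>
        embOfFix F E hFE (Quotient.out y)) := by
    intro y y' h
    have h1 := (embOfFix_eq_iff F E hFE _ _).mp h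
    rw [← QuotientGroup.eq, QuotientGroup.out_eq', QuotientGroup.out_eq'] at h1
    exact h1
  refine hinj.bijective_of_nat_card_le ?_
  rw [card_quotient_fixingSubgroup F E hFE, ← Fintype.card_eq_nat_card, AlgHom.card]

/-- **The norm as a product over `Gal(L'/F) / Gal(L'/E)`.** -/
theorem finprod_fixingSubgroup_eq_norm (z : L') (hz : z ∈ E) :
    ∏ᶠ y : F.fixingSubgroup ⧸ E.fixingSubgroup.subgroupOf F.fixingSubgroup,
        (((Quotient.out y : F.fixingSubgroup) : L' ≃ₐ[F₀] L')) z =
      algebraMap F L' (Algebra.norm F (⟨z, hz⟩ : extendScalars hFE)) := by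
  have hfin : Finite (F.fixingSubgroup ⧸ E.fixingSubgroup.subgroupOf F.fixingSubgroup) :=
    inferInstance
  apply (algebraMap L' (AlgebraicClosure L')).injective
  rw [← IsScalarTower.algebraMap_apply, Algebra.norm_eq_prod_embeddings F (AlgebraicClosure L'),
    ← finprod_eq_prod_of_fintype,
    ← finprod_eq_of_bijective _ (embOfFix_out_bijective F E hFE) (fun y => rfl)]
  rw [map_finprod _ (Set.toFinite _)]
  rfl

/-- units version, with helper3's `relNorm` -/
theorem relNorm_fixingSubgroup_eq_norm (z : L'ˣ) (hz : (z : L') ∈ E) :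
    ((relNorm F.fixingSubgroup E.fixingSubgroup z : L'ˣ) : L') =
      algebraMap F L' (Algebra.norm F (⟨(z : L'), hz⟩ : extendScalars hFE)) := by
  rw [← finprod_fixingSubgroup_eq_norm F E hFE (z : L') hz]
  unfold relNorm
  rw [← Units.coeHom_apply, map_finprod _ (Set.toFinite _)]
  rfl

end Fermat.Agent.S55.GL.SecondIneq
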