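/-
S55 / GLO7 (helper21): second inequality.  File 16: the comparison (c2) between the local norm
groups `normGroup K_v β` of `LocalKummer.lean` (field norms from `K_v(β)`, inside `PadicAlgCl q`)
and the group-theoretic relative norms `relNorm Δ_σ^H Δ_σ^N` of helper3's coinduced idèle model
(inside `L_q = localField q L`).

* `norm_eq_of_range_eq` : the field norm only depends on the images in a common overfield;
* `norm_restrict_eq` : for `F ≤ E ≤ L'` intermediate fields of `Ω/F₀`, the norm `E → F` computed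
  inside `L'` (with `restrict`/`extendScalars`) or directly in `Ω`;
* `localFieldAt_sup_adjoin` : `ℚ_q(ι σ K(b)) = ℚ_q(ι σ K)(ι σ b)`;
* `exists_relNorm_eq_of_mem_normGroup` : for `K = L^H`, `M = L^{N'} = K(b)`, `σ ∈ Γ`: every
  element of `normGroup K_v (ι σ b)` (`K_v = localFieldAt q K σ`) is, viewed in `L_qˣ`, of the form
  `relNorm Δ_σ^H Δ_σ^{N'} z` with `z` fixed by `Δ_σ^{N'}` — the `hloc` of helper3's
  `CoindInvRep.exists_relNorm_eq_of`.
-/
import Mathlib
import Fermat.Agent.S55.GL.IdelePlaces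
import Fermat.Agent.S55.GL.SecondIneq.NormGalois
import Fermat.Agent.S55.GL.SecondIneq.LocalKummer

set_option autoImplicit false
set_option linter.unusedSectionVars false

namespace Fermat.Agent.S55.GL.SecondIneq

open IntermediateField
open Fermat.Agent.S55.LocalDict Fermat.Agent.S55.GL.LocalFieldAt Fermat.Agent.S55.GL.CoindFun
  Fermat.Agent.S55.GL.CoindInv Fermat.Agent.S55.GL.Places Fermat.Agent.S55.GL.IdelePlaces

local notation "Qbar" => AlgebraicClosure ℚ
local notation "Γ" => (AlgebraicClosure ℚ ≃ₐ[ℚ] AlgebraicClosure ℚ)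

section Transfer

variable {F₁ E₁ F₂ E₂ Ω : Type*} [Field F₁] [Field E₁] [Field F₂] [Field E₂] [Field Ω]
  [Algebra F₁ E₁] [Algebra F₂ E₂]

/-- two fields with the same image in a common overfield are isomorphic -/
noncomputable def ringEquivOfRangeEq (i₁ : E₁ →+* Ω) (i₂ : E₂ →+* Ω) (h : i₁.range = i₂.range) :
    E₁ ≃+* E₂ :=
  (RingEquiv.ofBijective i₁.rangeRestrict
      ⟨(RingHom.injective _), i₁.rangeRestrict_surjective⟩).trans
    ((RingEquiv.subringCongr h).trans
      (RingEquiv.ofBijective i₂.rangeRestrict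
        ⟨(RingHom.injective _), i₂.rangeRestrict_surjective⟩).symm)

lemma ringEquivOfRangeEq_apply (i₁ : E₁ →+* Ω) (i₂ : E₂ →+* Ω) (h : i₁.range = i₂.range)
    (x : E₁) : i₂ (ringEquivOfRangeEq i₁ i₂ h x) = i₁ x := by
  unfold ringEquivOfRangeEq
  set e₂ := RingEquiv.ofBijective i₂.rangeRestrict
        ⟨(RingHom.injective _), i₂.rangeRestrict_surjective⟩ with he₂
  have h1 : ∀ y : i₂.range, i₂ (e₂.symm y) = (y : Ω) := by
    intro y
    have := e₂.apply_symm_apply y
    have h2 : (e₂ (e₂.symm y) : Ω) = i₂ (e₂.symm y) := rfl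
    rw [← h2, this]
  rw [RingEquiv.trans_apply, RingEquiv.trans_apply, h1]
  rfl

/-- **The norm depends only on the images in a common overfield.** -/
theorem norm_eq_of_range_eq (j₁ : F₁ →+* Ω) (j₂ : F₂ →+* Ω) (i₁ : E₁ →+* Ω) (i₂ : E₂ →+* Ω)
    (hj : j₁.range = j₂.range) (hi : i₁.range = i₂.range)
    (h₁ : i₁.comp (algebraMap F₁ E₁) = j₁) (h₂ : i₂.comp (algebraMap F₂ E₂) = j₂)
    (x₁ : E₁) (x₂ : E₂) (hx : i₁ x₁ = i₂ x₂) :
    j₁ (Algebra.norm F₁ x₁) = j₂ (Algebra.norm F₂ x₂) := by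
  have key := Algebra.norm_eq_of_equiv_equiv (ringEquivOfRangeEq j₁ j₂ hj)
    (ringEquivOfRangeEq i₁ i₂ hi) (by
      ext a
      apply i₂.injective
      simp only [RingHom.coe_comp, RingHom.coe_coe, Function.comp_apply]
      rw [ringEquivOfRangeEq_apply, ← RingHom.comp_apply, h₂, ringEquivOfRangeEq_apply,
        ← RingHom.comp_apply, h₁]) x₁
  have hx' : ringEquivOfRangeEq i₁ i₂ hi x₁ = x₂ := by
    apply i₂.injective
    rw [ringEquivOfRangeEq_apply, hx]
  rw [hx'] at key
  rw [key, ← ringEquivOfRangeEq_apply j₁ j₂ hj, RingEquiv.apply_symm_apply]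

end Transfer

/-- The norm in a tower `F ≤ E ≤ L'` of intermediate fields of `Ω/F₀`, computed inside `L'`
(with `restrict`, `extendScalars`) or directly in `Ω` (`E` presented as an intermediate field
`E₂` of `Ω/F`). -/
theorem norm_restrict_eq {F₀ Ω : Type*} [Field F₀] [Field Ω] [Algebra F₀ Ω]
    (L' F E : IntermediateField F₀ Ω) (hF : F ≤ L') (hE : E ≤ L')
    (hFE' : IntermediateField.restrict hF ≤ IntermediateField.restrict hE)
    (E₂ : IntermediateField F Ω) (hE₂ : E = E₂.restrictScalars F₀)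
    (w : E₂) (z : L') (hz : z ∈ IntermediateField.restrict hE) (hwz : (w : Ω) = (z : Ω)) :
    ((algebraMap (IntermediateField.restrict hF) L'
      (Algebra.norm (IntermediateField.restrict hF)
        (⟨z, hz⟩ : IntermediateField.extendScalars hFE')) : L') : Ω) =
      ((Algebra.norm F w : F) : Ω) := by
  symm
  refine norm_eq_of_range_eq
      (algebraMap F Ω)
      ((algebraMap L' Ω).comp (algebraMap (IntermediateField.restrict hF) L'))
      (algebraMap E₂ Ω)
      ((algebraMap L' Ω).comp (algebraMap (IntermediateField.extendScalars hFE') L'))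
      ?_ ?_ ?_ ?_ _ _ hwz
  · ext t
    constructor
    · rintro ⟨a, rfl⟩
      exact ⟨⟨⟨a, hF a.2⟩, (IntermediateField.mem_restrict _ _).2 a.2⟩, rfl⟩
    · rintro ⟨a, rfl⟩
      exact ⟨⟨_, (IntermediateField.mem_restrict _ _).1 a.2⟩, rfl⟩
  · ext t
    constructor
    · rintro ⟨a, rfl⟩
      have ha : (a : Ω) ∈ E := by
        rw [hE₂]; exact a.2
      exact ⟨⟨⟨a, hE ha⟩, (IntermediateField.mem_restrict _ _).2 ha⟩, rfl⟩
    · rintro ⟨a, rfl⟩
      have ha : ((a : L') : Ω) ∈ E := (IntermediateField.mem_restrict _ _).1 a.2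
      have ha' : ((a : L') : Ω) ∈ E₂.restrictScalars F₀ := by
        rw [← hE₂]; exact ha
      exact ⟨⟨_, ha'⟩, rfl⟩
  · ext a
    rfl
  · ext a
    rfl

variable (q : ℕ) [Fact q.Prime]

/-- `ℚ_q(ι σ K(b)) = ℚ_q(ι σ K)(ι σ b)` -/
theorem localFieldAt_sup_adjoin (K : IntermediateField ℚ Qbar) (b : Qbar) (σ : Γ) :
    localFieldAt q (K ⊔ ℚ⟮b⟯) σ =
      ((localFieldAt q K σ)⟮padicEmbedding q (σ b)⟯).restrictScalars ℚ_[q] := by
  have h1 : (K ⊔ ℚ⟮b⟯).map (σ : Qbar →ₐ[ℚ] Qbar) =
      IntermediateField.adjoin ℚ (((K.map (σ : Qbar →ₐ[ℚ] Qbar) :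
        IntermediateField ℚ Qbar) : Set Qbar) ∪ {σ b}) := by
    rw [IntermediateField.adjoin_union, IntermediateField.adjoin_self, IntermediateField.map_sup,
      IntermediateField.adjoin_map, Set.image_singleton]
    rfl
  rw [localFieldAt, h1, localField_adjoin, localFieldAt, localField,
    IntermediateField.adjoin_adjoin_left, Set.image_union, Set.image_singleton]

variable {L : IntermediateField ℚ Qbar} [Normal ℚ L] [FiniteDimensional ℚ L]

theorem fixedLift_anti {H N' : Subgroup (L ≃ₐ[ℚ] L)} (h : N' ≤ H) :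
    fixedLift L H ≤ fixedLift L N' := by
  rintro x ⟨hx, hx'⟩
  exact ⟨hx, fun s hs => hx' s (h hs)⟩

/-- **(c2) Local norms from `K_v(β)` are group-theoretic relative norms.**
`K = L^H`, `M = L^{N'} = K(b)`, `σ ∈ Γ`, `K_v = ℚ_q(ι σ K)`: an element `x` of
`normGroup K_v (ι σ b) = N(K_v(ι σ b)ˣ)`, viewed as a unit `y` of `L_q`, is
`relNorm Δ_σ^H Δ_σ^{N'} z` for some `Δ_σ^{N'}`-fixed `z ∈ L_qˣ`. -/
theorem exists_relNorm_eq_of_mem_normGroup (H N' : Subgroup (L ≃ₐ[ℚ] L)) (hNH : N' ≤ H)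
    (b : Qbar) (hM : fixedLift L N' = fixedLift L H ⊔ ℚ⟮b⟯) (σ : Γ)
    (x : (localFieldAt q (fixedLift L H) σ)ˣ)
    (hx : x ∈ normGroup (localFieldAt q (fixedLift L H) σ) (padicEmbedding q (σ b)))
    (y : (localField q L)ˣ)
    (hy : ((y : localField q L) : PadicAlgCl q) =
      ((x : localFieldAt q (fixedLift L H) σ) : PadicAlgCl q)) :
    ∃ z ∈ fixedSub (X := (localField q L)ˣ) (deltaAt (resLoc q L) N' (resΓ L σ)),
      y = relNorm (deltaAt (resLoc q L) H (resΓ L σ)) (deltaAt (resLoc q L) N' (resΓ L σ)) z := by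
  rw [mem_normGroup_iff] at hx
  obtain ⟨w, hw⟩ := hx
  have hE : localFieldAt q (fixedLift L N') σ =
      ((localFieldAt q (fixedLift L H) σ)⟮padicEmbedding q (σ b)⟯).restrictScalars ℚ_[q] := by
    rw [hM, localFieldAt_sup_adjoin]
  have hwE : (((w : (localFieldAt q (fixedLift L H) σ)⟮padicEmbedding q (σ b)⟯)) : PadicAlgCl q) ∈
      localFieldAt q (fixedLift L N') σ := by
    rw [hE]
    exact (w : (localFieldAt q (fixedLift L H) σ)⟮padicEmbedding q (σ b)⟯).2
  have hwL := localFieldAt_fixedLift_le q N' σ hwE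
  have hw0 : (⟨_, hwL⟩ : localField q L) ≠ 0 := by
    intro h0
    have h1 := congrArg Subtype.val h0
    have h2 : ((w : (localFieldAt q (fixedLift L H) σ)⟮padicEmbedding q (σ b)⟯)) ≠ 0 := w.ne_zero
    exact h2 (Subtype.ext h1)
  refine ⟨Units.mk0 _ hw0, ?_, ?_⟩
  · rw [mem_fixedSub_deltaAt_iff]
    exact hwE
  · have hFE : localFieldAt q (fixedLift L H) σ ≤ localFieldAt q (fixedLift L N') σ :=
      localFieldAt_mono q (fixedLift_anti hNH) σ
    have hFE' : IntermediateField.restrict (localFieldAt_fixedLift_le q H σ) ≤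
        IntermediateField.restrict (localFieldAt_fixedLift_le q N' σ) := by
      intro t ht
      rw [IntermediateField.mem_restrict] at ht ⊢
      exact hFE ht
    have hz' : ((Units.mk0 _ hw0 : (localField q L)ˣ) : localField q L) ∈
        IntermediateField.restrict (localFieldAt_fixedLift_le q N' σ) := by
      rw [IntermediateField.mem_restrict]
      exact hwE
    rw [deltaAt_eq_fixingSubgroup, deltaAt_eq_fixingSubgroup]
    apply Units.ext
    rw [relNorm_fixingSubgroup_eq_norm _ _ hFE' _ hz']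
    apply Subtype.ext
    rw [hy, ← hw]
    exact (norm_restrict_eq (localField q L) _ _ (localFieldAt_fixedLift_le q H σ)
      (localFieldAt_fixedLift_le q N' σ) hFE' _ hE w _ hz' rfl).symm

end Fermat.Agent.S55.GL.SecondIneq
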