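/-
S55 / GLO7 (helper21): second inequality.  File 14: the numerical inputs of the abstract second
inequality in the place model, and the **second inequality for `K` in the place model**.

`K : IntermediateField ℚ ℚ̄` a number field containing a primitive `p`-th root of unity, `p > 2`.
* `relIndex_sUnitsPow` (hV) : `[U_T : U_T^p] = p ^ ((rank K + 1) + #T)` (helper11's
  `SUnitPow.index_pow_TUnit`);
* `sum_finrank_completionAt` : `∑_{v ∣ p} [K_v : ℚ_p] = [K : ℚ]` in helper2's per-prime model;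
* `prod_index_pow_completionAt` (hidx) : `∏_{v ∈ S} [K_vˣ : K_vˣᵖ] = p ^ (2 ((rank K + 1) + #S))`
  for `S ⊇ {v ∣ p}` (helper24's `LocalIndex.index_range_pow_units`);
* ★ `second_inequality_model` : for every `a ∈ Kˣ` there is a finite set `S'` of primes such that
  for every finite `Sp ⊇ S'` the subgroup `diag(Sp-units) · ∏_{v ∈ Sp} N_v(a)` of
  `∏_{v ∈ Sp} K_vˣ` has index dividing `p`  (`N_v(a)` = norm group of `K_v(a^{1/p}) / K_v`),
  given the weak first inequality `hfirst`.
-/
import Mathlib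
import Fermat.Agent.S55.GL.SecondIneq.ModelPlaces
import Fermat.Agent.S55.GL.LocalIndex
import Fermat.Agent.S55.SUnitPow
import Fermat.Agent.S55.SUnitClass

set_option autoImplicit false
set_option linter.unusedSectionVars false

namespace Fermat.Agent.S55.GL.SecondIneq

open IsLocalRing IsDedekindDomain NumberField Fermat.Agent.S55.Local Fermat.Agent.S55.LocalDict
  Fermat.Agent.S55.GL.Places Fermat.Agent.S55.GL.PlacesDVR Fermat.Agent.S55.GL.PlacesUnits

local notation "Qbar" => AlgebraicClosure ℚ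
local notation "Γ" => (AlgebraicClosure ℚ ≃ₐ[ℚ] AlgebraicClosure ℚ)

/-- `[A : A^p]` as a relative index and as the index of the range of `x ↦ x ^ p` on `A`. -/
lemma relIndex_map_pow {G : Type*} [CommGroup G] (A : Subgroup G) (p : ℕ) :
    (A.map (powMonoidHom p)).relIndex A = (powMonoidHom p : A →* A).range.index := by
  unfold Subgroup.relIndex
  congr 1
  ext ⟨x, hx⟩
  rw [Subgroup.mem_subgroupOf, Subgroup.mem_map, MonoidHom.mem_range]
  constructor
  · rintro ⟨c, hc, hcx⟩
    exact ⟨⟨c, hc⟩, Subtype.ext hcx⟩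
  · rintro ⟨c, hc⟩
    exact ⟨c.1, c.2, congrArg Subtype.val hc⟩

section units

variable {K : Type*} [Field K] [NumberField K]

/-- (hV) -/
theorem relIndex_sUnitsPow {p : ℕ} (hp : p.Prime) {ζ : K} (hζ : IsPrimitiveRoot ζ p)
    (T : Finset (HeightOneSpectrum (𝓞 K))) :
    (sUnitsPow K T p).relIndex (sUnits K T) = p ^ ((Units.rank K + 1) + T.card) := by
  have h := Fermat.Agent.S55.SUnitPow.index_pow_TUnit (K := K) T hp hζ
  rw [show Units.rank K + 1 + T.card = Units.rank K + T.card + 1 by ring, ← h]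
  exact relIndex_map_pow _ p

end units

section degrees

variable (q : ℕ) [Fact q.Prime] (K : IntermediateField ℚ Qbar) [NumberField K]

/-- the local degree only depends on the place -/
lemma finrank_localFieldAt_of_samePlace {σ σ' : Γ} (h : SamePlace q K σ σ') :
    Module.finrank ℚ_[q] (localFieldAt q K σ') = Module.finrank ℚ_[q] (localFieldAt q K σ) := by
  obtain ⟨τ, g, hg, rfl⟩ := h.exists_eq_mul q
  have hK : K.map (g : Qbar →ₐ[ℚ] Qbar) = K := fixingSubgroup_le_stabField K hg
  rw [localFieldAt_mul_of_map_eq q _ g hK, localFieldAt_localGaloisToGlobal_mul]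
  exact (IntermediateField.equivMap (localFieldAt q K σ)
    (τ : PadicAlgCl q →ₐ[ℚ_[q]] PadicAlgCl q)).toLinearEquiv.finrank_eq.symm

end degrees

section perPrime

/-- primes as `Fact`s -/
local instance factPrime_mc (q : Nat.Primes) : Fact (q : ℕ).Prime := ⟨q.2⟩

variable (K : IntermediateField ℚ Qbar) [NumberField K]

/-- the local degree at a prime, computed at any `(q, σ)` defining it -/
lemma finrank_localFieldAt_eq_of_primeAt_eq (q q' : Nat.Primes) (σ σ' : Γ)
    (h : primeAt (q' : ℕ) K σ' = primeAt (q : ℕ) K σ) :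
    Module.finrank ℚ_[(q' : ℕ)] (localFieldAt (q' : ℕ) K σ') =
      Module.finrank ℚ_[(q : ℕ)] (localFieldAt (q : ℕ) K σ) := by
  have hq : q' = q := by
    apply Subtype.ext
    refine eq_of_natCast_mem (primeAt (q : ℕ) K σ) q'.2 q.2 ?_ (natCast_mem_primeAt (q : ℕ) K σ)
    rw [← h]
    exact natCast_mem_primeAt (q' : ℕ) K σ'
  subst hq
  exact finrank_localFieldAt_of_samePlace (q' : ℕ) K ((primeAt_eq_iff (q' : ℕ) K).mp h.symm)

lemma finrank_completionAt_eq (v : HeightOneSpectrum (𝓞 K)) (q : Nat.Primes) (σ : Γ)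
    (h : primeAt (q : ℕ) K σ = v) :
    Module.finrank ℚ_[(ratPrime K v : ℕ)] (completionAt K v) =
      Module.finrank ℚ_[(q : ℕ)] (localFieldAt (q : ℕ) K σ) := by
  unfold completionAt
  exact finrank_localFieldAt_eq_of_primeAt_eq K q (ratPrime K v) σ (sigmaAt K v)
    ((primeAt_sigmaAt K v).trans h.symm)

lemma ratPrime_eq_of_mem (v : HeightOneSpectrum (𝓞 K)) (q : Nat.Primes)
    (h : ((q : ℕ) : 𝓞 K) ∈ v.asIdeal) : ratPrime K v = q :=
  Subtype.ext (eq_of_natCast_mem v (ratPrime K v).2 q.2 (natCast_ratPrime_mem K v) h)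

/-- `∑_{v ∣ p} [K_v : ℚ_p] = [K : ℚ]` -/
theorem sum_finrank_completionAt [DecidableEq (HeightOneSpectrum (𝓞 K))] (p : Nat.Primes)
    (S : Finset (HeightOneSpectrum (𝓞 K)))
    (hS : ∀ v : HeightOneSpectrum (𝓞 K), ((p : ℕ) : 𝓞 K) ∈ v.asIdeal → v ∈ S) :
    ∑ v ∈ S.filter (fun v => ((ratPrime K v : Nat.Primes) : ℕ) = (p : ℕ)),
        Module.finrank ℚ_[(ratPrime K v : ℕ)] (completionAt K v) =
      Module.finrank ℚ K := by
  rw [← sum_finrank_localField (p : ℕ) K]
  symm
  refine Finset.sum_bij (fun w _ => w.prime (p : ℕ)) ?_ ?_ ?_ ?_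
  · intro w _
    rw [Finset.mem_filter]
    refine ⟨hS _ (w.natCast_mem_prime (p : ℕ)), ?_⟩
    rw [ratPrime_eq_of_mem K _ p (w.natCast_mem_prime (p : ℕ))]
  · intro w _ w' _ h
    exact PlacesOver.prime_injective (p : ℕ) h
  · intro v hv
    rw [Finset.mem_filter] at hv
    have hpv : ((p : ℕ) : 𝓞 K) ∈ v.asIdeal := by
      have h1 := natCast_ratPrime_mem K v
      rwa [hv.2] at h1
    obtain ⟨w, hw⟩ := exists_prime_eq (p : ℕ) v hpv
    exact ⟨w, Finset.mem_univ _, hw⟩
  · intro w _
    exact (finrank_completionAt_eq K (w.prime (p : ℕ)) p (PlacesOver.rep (p : ℕ) w) rfl).symm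

/-- (hidx) -/
theorem prod_index_pow_completionAt [DecidableEq (HeightOneSpectrum (𝓞 K))] {p : ℕ} (hp : p.Prime)
    (hp2 : 2 < p) {ζ : K} (hζ : IsPrimitiveRoot ζ p) (S : Finset (HeightOneSpectrum (𝓞 K)))
    (hS : ∀ v : HeightOneSpectrum (𝓞 K), ((p : ℕ) : 𝓞 K) ∈ v.asIdeal → v ∈ S) :
    ∏ v ∈ S, (powMonoidHom p : (completionAt K v)ˣ →* (completionAt K v)ˣ).range.index =
      p ^ (2 * ((Units.rank K + 1) + S.card)) := by
  have h1 : ∀ v ∈ S, (powMonoidHom p : (completionAt K v)ˣ →* (completionAt K v)ˣ).range.index =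
      p ^ (2 + if ((ratPrime K v : Nat.Primes) : ℕ) = p then
        Module.finrank ℚ_[(ratPrime K v : ℕ)] (completionAt K v) else 0) := by
    intro v _
    exact LocalIndex.index_range_pow_units (ratPrime K v : ℕ) (completionAt K v) hp
      (hζ.map_of_injective (locAt K v).injective)
  rw [Finset.prod_congr rfl h1, Finset.prod_pow_eq_pow_sum]
  congr 1
  rw [Finset.sum_add_distrib, Finset.sum_const, smul_eq_mul, ← Finset.sum_filter,
    sum_finrank_completionAt K ⟨p, hp⟩ S hS,
    Fermat.Agent.S55.SUnitPow.finrank_eq_two_mul_rank_add_one hp2 hζ]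
  ring

/-- **The second inequality for `K` in the place model** (Chevalley), given the weak first
inequality: for all large finite sets `Sp` of primes, `diag(Sp-units) · ∏_{v ∈ Sp} N_v(a)` has
index dividing `p` in `∏_{v ∈ Sp} K_vˣ`. -/
theorem second_inequality_model {p : ℕ} (hp : p.Prime) (hp2 : 2 < p) {ζ : K}
    (hζ : IsPrimitiveRoot ζ p)
    (hfirst : ∀ b : Kˣ, (¬ ∃ c : Kˣ, c ^ p = b) →
      ∀ S₁ : Finset (HeightOneSpectrum (𝓞 K)), ∃ S'' : Finset (HeightOneSpectrum (𝓞 K)),
        S₁ ⊆ S'' ∧ ∃ x : ∀ v, (completionAt K v)ˣ, ¬ ∃ u ∈ sUnits K S'', ∀ v ∈ S'',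
          x v / Units.map (locAt K v : K →* completionAt K v) u ∈
            normGroup (completionAt K v) (betaAt K p b v))
    (a : Kˣ) (S₁ : Finset (HeightOneSpectrum (𝓞 K))) :
    ∃ S' : Finset (HeightOneSpectrum (𝓞 K)), S₁ ⊆ S' ∧
      ∀ Sp : Finset (HeightOneSpectrum (𝓞 K)), S' ⊆ Sp →
        ((diagHom (G := fun v => (completionAt K v)ˣ)
            (fun v => Units.map (locAt K v : K →* completionAt K v)) Sp).range ⊔
          Subgroup.pi Set.univ
            (fun v : ↥Sp => normGroup (completionAt K v) (betaAt K p a v))).index ∣ p := by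
  classical
  have D := isChevalleyDatum_model K hp hζ hfirst
  -- the primes above `p` and the primes dividing `a`
  have hfinp : {v : HeightOneSpectrum (𝓞 K) | ((p : ℕ) : 𝓞 K) ∈ v.asIdeal}.Finite :=
    finite_primes_over K ⟨p, hp⟩
  have hfina : {v : HeightOneSpectrum (𝓞 K) | v.valuation K ((a : Kˣ) : K) ≠ 1}.Finite := by
    have := HeightOneSpectrum.Support.finite (𝓞 K) (k := ((a : Kˣ) : K))
    refine (this.union (HeightOneSpectrum.Support.finite (𝓞 K)
      (k := ((a⁻¹ : Kˣ) : K)))).subset ?_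
    intro v hv
    simp only [Set.mem_ofPred_eq] at hv
    by_contra hcon
    simp only [Set.mem_union, HeightOneSpectrum.Support, Set.mem_ofPred_eq, not_or, not_lt] at hcon
    apply hv
    have h1 := hcon.1
    have h2 := hcon.2
    rw [Units.val_inv_eq_inv_val, map_inv₀] at h2
    have hne : v.valuation K ((a : Kˣ) : K) ≠ 0 := by simp
    have h3 : 1 ≤ v.valuation K ((a : Kˣ) : K) := (inv_le_one₀ (zero_lt_iff.mpr hne)).mp h2
    exact le_antisymm h1 h3
  obtain ⟨S, hS₀, hScl⟩ := Fermat.Agent.S55.SUnitClass.exists_finset_isClTrivial_of_subset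
    (S₁ ∪ hfinp.toFinset ∪ hfina.toFinset)
  have hSp : ∀ v : HeightOneSpectrum (𝓞 K), ((p : ℕ) : 𝓞 K) ∈ v.asIdeal → v ∈ S := by
    intro v hv
    apply hS₀
    simp [hv]
  have hSval : ∀ w ∉ S, w.valuation K ((p : ℕ) : K) = 1 := by
    intro w hw
    by_contra hne
    apply hw
    apply hSp
    have h1 : w.valuation K (algebraMap (𝓞 K) K ((p : ℕ) : 𝓞 K)) ≤ 1 :=
      HeightOneSpectrum.valuation_le_one _ _
    have h2 : w.valuation K (algebraMap (𝓞 K) K ((p : ℕ) : 𝓞 K)) < 1 := by
      refine lt_of_le_of_ne h1 ?_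
      rwa [map_natCast]
    exact (HeightOneSpectrum.valuation_lt_one_iff_mem _ _).mp h2
  have ha : a ∈ sUnits K S := by
    rw [mem_sUnits]
    intro v hv
    by_contra hne
    apply hv
    apply hS₀
    simp [hne]
  have hidx := prod_index_pow_completionAt K hp hp2 hζ S hSp
  have hcl := hcl_of_uniformizers (hScl S (Finset.Subset.refl S))
  have hV := relIndex_sUnitsPow (K := K) hp hζ
  have key := second_inequality_abstract_large
    (G := fun v => (completionAt K v)ˣ) hp hζ D (Units.rank K + 1) hV S hSval hidx hcl ha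
  refine Exists.elim key fun S' hS' => ⟨S', ?_, hS'.2⟩
  intro v hv
  apply hS'.1
  apply hS₀
  simp [hv]

end perPrime

end Fermat.Agent.S55.GL.SecondIneq
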