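/-
S55 / GLO7 (helper21): second inequality, Chevalley–Kummer proof.  File 6: the abstract second
inequality.

`K` a number field containing a primitive `p`-th root of unity.  The local theory enters through
an abstract *local datum* indexed by the finite primes `v` of `K`:
* `G v` a commutative group (think `(K_v)ˣ`), `loc v : Kˣ →* G v`;
* `U v ≤ G v` (local units), `N b v ≤ G v` (norm group of `K_v(b^{1/p}) / K_v`), `b : Kˣ`;
subject to the axioms of `IsChevalleyDatum` (all of them standard local facts, plus the weak form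
of the first inequality).  The conclusion (`second_inequality_abstract`): for every finite set `S`
of primes containing the primes above `p`, with `Cl_S(K) = 0`, and every `S`-unit `a`, there is a
finite `S' ⊇ S` such that in `∏_{v ∈ S'} G v` the subgroup generated by the diagonal image of the
`S'`-units and `∏_{v ∈ S'} N a v` has index dividing `p`.
-/
import Mathlib
import Fermat.Agent.S55.GL.SecondIneq.AuxPrimes

set_option autoImplicit false

namespace Fermat.Agent.S55.GL.SecondIneq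

open NumberField IsDedekindDomain HeightOneSpectrum

/-- index of a product subgroup in a dependent finite product -/
lemma index_pi_dep {ι : Type*} [Fintype ι] {β : ι → Type*} [∀ i, Group (β i)]
    (H : ∀ i, Subgroup (β i)) : (Subgroup.pi Set.univ H).index = ∏ i, (H i).index := by
  simp_rw [Subgroup.index, ← Nat.card_pi]
  refine Nat.card_congr
    ((Quotient.congrRight (fun x y ↦ ?_)).trans (Setoid.piQuotientEquiv _).symm)
  rw [QuotientGroup.leftRel_pi]

variable {K : Type*} [Field K] [NumberField K] {p : ℕ}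
  {G : HeightOneSpectrum (𝓞 K) → Type*} [∀ v, CommGroup (G v)]

/-- The axioms on the local datum `(G, loc, U, N)` used by Chevalley's proof of the second
inequality in degree `p`. -/
structure IsChevalleyDatum (p : ℕ) (loc : ∀ v, Kˣ →* G v) (U : ∀ v, Subgroup (G v))
    (N : Kˣ → ∀ v, Subgroup (G v)) : Prop where
  /-- global elements which are units at `v` are local units -/
  loc_mem_U : ∀ v (z : Kˣ), v.valuation K (z : K) = 1 → loc v z ∈ U v
  /-- `G v` is generated by the local units and the global elements -/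
  exists_div_mem_U : ∀ v (x : G v), ∃ y : Kˣ, x / loc v y ∈ U v
  /-- Hensel: away from `p`, a unit which is a `p`-th power residue is a local `p`-th power -/
  hensel : ∀ v, v.valuation K (p : K) = 1 → ∀ u : Kˣ, v.valuation K (u : K) = 1 →
    IsPowMod v p (u : K) → ∃ x : G v, x ^ p = loc v u
  /-- density: away from `p`, every local unit is a global `v`-unit times a `p`-th power -/
  dense : ∀ v, v.valuation K (p : K) = 1 → ∀ x ∈ U v,
    ∃ u : Kˣ, v.valuation K (u : K) = 1 ∧ ∃ y : G v, x = loc v u * y ^ p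
  /-- `p`-th powers are local norms -/
  pow_mem_N : ∀ (b : Kˣ) v (x : G v), x ^ p ∈ N b v
  /-- if `b` is a local `p`-th power, everything is a local norm -/
  N_eq_top : ∀ (b : Kˣ) v, (∃ x : G v, x ^ p = loc v b) → N b v = ⊤
  /-- unramified case: local units are norms -/
  U_le_N : ∀ (b : Kˣ) v, v.valuation K (p : K) = 1 → v.valuation K (b : K) = 1 → U v ≤ N b v
  /-- weak first inequality (cofinal form): if `b` is not a `p`-th power then there are
  arbitrarily large finite sets `S''` such that not every element of `∏_{v ∈ S''} G v` is an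
  `S''`-unit times a local norm -/
  first_ineq : ∀ b : Kˣ, (¬ ∃ c : Kˣ, c ^ p = b) →
    ∀ S₁ : Finset (HeightOneSpectrum (𝓞 K)), ∃ S'' : Finset (HeightOneSpectrum (𝓞 K)),
      S₁ ⊆ S'' ∧ ∃ x : ∀ v, G v, ¬ ∃ u ∈ sUnits K S'', ∀ v ∈ S'', x v / loc v u ∈ N b v

/-- the diagonal map from the `S'`-units to `∏_{v ∈ S'} G v` -/
noncomputable def diagHom (loc : ∀ v, Kˣ →* G v) (S' : Finset (HeightOneSpectrum (𝓞 K))) :
    ↥(sUnits K S') →* (∀ v : ↥S', G v) :=
  MonoidHom.pi (fun v => (loc v).comp (sUnits K S').subtype)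

@[simp] lemma diagHom_apply (loc : ∀ v, Kˣ →* G v) (S' : Finset (HeightOneSpectrum (𝓞 K)))
    (u : ↥(sUnits K S')) (v : ↥S') : diagHom loc S' u v = loc v (u : Kˣ) := rfl

lemma sUnits_mono {S S' : Finset (HeightOneSpectrum (𝓞 K))} (h : S ⊆ S') :
    sUnits K S ≤ sUnits K S' := fun _ hx v hv => hx v (fun hvS => hv (h hvS))

/-- The `Cl_S(K) = 0` hypothesis of `second_inequality_abstract` follows from the existence of
"uniformizers supported in `S ∪ {v}`". -/
lemma hcl_of_uniformizers {S : Finset (HeightOneSpectrum (𝓞 K))}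
    (h : ∀ v ∉ S, ∃ π : Kˣ, v.valuation K (π : K) = WithZero.exp (-1 : ℤ) ∧
      ∀ v' ∉ S, v' ≠ v → v'.valuation K (π : K) = 1) :
    ∀ v ∉ S, ∀ y : Kˣ, ∃ π : Kˣ, v.valuation K (π : K) = v.valuation K (y : K) ∧
      ∀ v' ∉ S, v' ≠ v → v'.valuation K (π : K) = 1 := by
  intro v hv y
  obtain ⟨π, h1, h2⟩ := h v hv
  have hy0 : v.valuation K (y : K) ≠ 0 := by simp
  refine ⟨π ^ (-(WithZero.log (v.valuation K (y : K)))), ?_, ?_⟩
  · rw [Units.val_zpow_eq_zpow_val, map_zpow₀, h1, ← WithZero.exp_zsmul, smul_eq_mul,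
      neg_mul_neg, mul_one, WithZero.exp_log hy0]
  · intro v' hv' hne
    rw [Units.val_zpow_eq_zpow_val, map_zpow₀, h2 v' hv' hne, one_zpow]

section claim3

variable {loc : ∀ v, Kˣ →* G v} {U : ∀ v, Subgroup (G v)} {N : Kˣ → ∀ v, Subgroup (G v)}

/-- adjusting a local element by a global element supported at `S ∪ {v}` into the local units -/
lemma exists_div_loc_mem_U (D : IsChevalleyDatum p loc U N)
    {S : Finset (HeightOneSpectrum (𝓞 K))}
    (hcl : ∀ v ∉ S, ∀ y : Kˣ, ∃ π : Kˣ, v.valuation K (π : K) = v.valuation K (y : K) ∧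
      ∀ v' ∉ S, v' ≠ v → v'.valuation K (π : K) = 1)
    {v : HeightOneSpectrum (𝓞 K)} (hv : v ∉ S) (x : G v) :
    ∃ π : Kˣ, (∀ v' ∉ S, v' ≠ v → v'.valuation K (π : K) = 1) ∧ x / loc v π ∈ U v := by
  obtain ⟨y, hy⟩ := D.exists_div_mem_U v x
  obtain ⟨π, hπ1, hπ2⟩ := hcl v hv y
  refine ⟨π, hπ2, ?_⟩
  have hz : loc v (y / π) ∈ U v := by
    apply D.loc_mem_U
    rw [Units.val_div_eq_div_val, map_div₀, hπ1]
    exact div_self (by simp)
  have e : x / loc v π = (x / loc v y) * loc v (y / π) := by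
    rw [map_div]
    rw [div_mul_div_cancel]
  rw [e]
  exact mul_mem hy hz

/-- Step 1 of Chevalley's Claim: a family `x` can be moved, by an `S''`-unit, into the local units
at all places of `S''` outside `S`. -/
lemma exists_sUnit_forall_div_mem_U (D : IsChevalleyDatum p loc U N)
    (S : Finset (HeightOneSpectrum (𝓞 K)))
    (hcl : ∀ v ∉ S, ∀ y : Kˣ, ∃ π : Kˣ, v.valuation K (π : K) = v.valuation K (y : K) ∧
      ∀ v' ∉ S, v' ≠ v → v'.valuation K (π : K) = 1)
    (S'' : Finset (HeightOneSpectrum (𝓞 K))) (hSS'' : S ⊆ S'') (x : ∀ v, G v) :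
    ∃ u₁ ∈ sUnits K S'', ∀ v ∈ S'', v ∉ S → x v / loc v u₁ ∈ U v := by
  classical
  have h1 : ∀ v, ∃ π : Kˣ, (v ∉ S → (∀ v' ∉ S, v' ≠ v → v'.valuation K (π : K) = 1) ∧
      x v / loc v π ∈ U v) := by
    intro v
    by_cases hv : v ∈ S
    · exact ⟨1, fun h => absurd hv h⟩
    · obtain ⟨π, h1, h2⟩ := exists_div_loc_mem_U D hcl hv (x v)
      exact ⟨π, fun _ => ⟨h1, h2⟩⟩
  choose π hπ using h1
  have hπS'' : ∀ v ∈ S'' \ S, π v ∈ sUnits K S'' := by
    intro v hv v' hv'
    have hv2 := Finset.mem_sdiff.mp hv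
    refine (hπ v hv2.2).1 v' (fun h => hv' (hSS'' h)) ?_
    rintro rfl
    exact hv' hv2.1
  refine ⟨∏ v ∈ S'' \ S, π v, Subgroup.prod_mem _ hπS'', ?_⟩
  intro v hv hvS
  have hmem : v ∈ S'' \ S := Finset.mem_sdiff.mpr ⟨hv, hvS⟩
  have e : loc v (∏ v ∈ S'' \ S, π v) =
      loc v (π v) * ∏ v' ∈ (S'' \ S).erase v, loc v (π v') := by
    rw [map_prod]
    exact (Finset.mul_prod_erase _ _ hmem).symm
  have hB : ∏ v' ∈ (S'' \ S).erase v, loc v (π v') ∈ U v := by
    refine Subgroup.prod_mem _ (fun v' hv' => ?_)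
    have hv'2 := Finset.mem_sdiff.mp (Finset.mem_of_mem_erase hv')
    exact D.loc_mem_U v _ ((hπ v' hv'2.2).1 v hvS (Finset.ne_of_mem_erase hv').symm)
  rw [e, ← div_div]
  exact div_mem (hπ v hvS).2 hB

/-- The heart of Chevalley's Claim: every family `x` is an `S''`-unit times local norms for
`K(b^{1/p})`, as soon as `b` is an `S ∪ T`-unit and a local `p`-th power on `S`. -/
lemma exists_sUnit_forall_div_mem (D : IsChevalleyDatum p loc U N)
    (S T : Finset (HeightOneSpectrum (𝓞 K))) (hS : ∀ w ∉ S, w.valuation K (p : K) = 1)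
    (hcl : ∀ v ∉ S, ∀ y : Kˣ, ∃ π : Kˣ, v.valuation K (π : K) = v.valuation K (y : K) ∧
      ∀ v' ∉ S, v' ≠ v → v'.valuation K (π : K) = 1)
    (hT1 : ∀ w ∈ T, w ∉ S)
    (hT3 : ∀ c : HeightOneSpectrum (𝓞 K) → K, (∀ w ∈ T, w.valuation K (c w) = 1) →
      ∃ u ∈ sUnits K S, ∀ w ∈ T, IsPowMod w p (((u : Kˣ) : K) * c w))
    {b : Kˣ} (hb : ∀ v, v ∉ S → v ∉ T → v.valuation K (b : K) = 1)
    (hbS : ∀ v ∈ S, ∃ x : G v, x ^ p = loc v b)
    (S'' : Finset (HeightOneSpectrum (𝓞 K))) (hSS'' : S ⊆ S'') (hTS'' : T ⊆ S'')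
    (x : ∀ v, G v) :
    ∃ u ∈ sUnits K S'', ∀ v ∈ S'', x v / loc v u ∈ N b v := by
  classical
  -- Step 1: adjust the valuations outside `S`
  obtain ⟨u₁, hu₁, hx'⟩ := exists_sUnit_forall_div_mem_U D S hcl S'' hSS'' x
  -- Step 2: the components in `T`
  have h2 : ∀ w, ∃ c : Kˣ, w ∈ T → (w.valuation K (c : K) = 1 ∧
      ∃ y : G w, x w / loc w u₁ = loc w c * y ^ p) := by
    intro w
    by_cases hw : w ∈ T
    · obtain ⟨c, hc, y, hy⟩ := D.dense w (hS w (hT1 w hw)) _ (hx' w (hTS'' hw) (hT1 w hw))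
      exact ⟨c, fun _ => ⟨hc, y, hy⟩⟩
    · exact ⟨1, fun h => absurd h hw⟩
  choose c hc using h2
  obtain ⟨u₂, hu₂, hu₂T⟩ := hT3 (fun w => (((c w)⁻¹ : Kˣ) : K)) (by
    intro w hw
    rw [Units.val_inv_eq_inv_val, map_inv₀, (hc w hw).1, inv_one])
  refine ⟨u₁ * u₂, mul_mem hu₁ (sUnits_mono hSS'' hu₂), ?_⟩
  intro v hv
  have ediv : x v / loc v (u₁ * u₂) = (x v / loc v u₁) / loc v u₂ := by
    rw [map_mul, div_div]
  rw [ediv]
  by_cases hvS : v ∈ S
  · rw [D.N_eq_top b v (hbS v hvS)]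
    exact Subgroup.mem_top _
  by_cases hvT : v ∈ T
  · -- `v ∈ T`: a `p`-th power
    obtain ⟨hcv, y, hy⟩ := hc v hvT
    have hres := hu₂T v hvT
    have hval : v.valuation K ((u₂ * (c v)⁻¹ : Kˣ) : K) = 1 := by
      rw [Units.val_mul, Units.val_inv_eq_inv_val, map_mul, map_inv₀, hcv, inv_one, mul_one]
      exact mem_sUnits.mp hu₂ v hvS
    obtain ⟨t, ht⟩ := D.hensel v (hS v hvS) (u₂ * (c v)⁻¹) hval (by
      rw [Units.val_mul]; exact hres)
    have e : (x v / loc v u₁) / loc v u₂ = (y / t) ^ p := by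
      rw [hy, div_pow, ht, map_mul, map_inv]
      rw [div_eq_mul_inv, div_eq_mul_inv, mul_inv, inv_inv]
      simp only [mul_comm, mul_assoc]
    rw [e]
    exact D.pow_mem_N b v _
  · -- `v ∉ S ∪ T`: a local unit
    have hvb : v.valuation K (b : K) = 1 := hb v hvS hvT
    refine D.U_le_N b v (hS v hvS) hvb ?_
    exact div_mem (hx' v hv hvS) (D.loc_mem_U v _ (mem_sUnits.mp hu₂ v hvS))

/-- **Chevalley's Claim**: an element of `K` which is a unit outside `S ∪ T` and a local `p`-th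
power on `S` is a global `p`-th power. -/
lemma exists_pow_eq_of_local_pow (D : IsChevalleyDatum p loc U N)
    (S T : Finset (HeightOneSpectrum (𝓞 K))) (hS : ∀ w ∉ S, w.valuation K (p : K) = 1)
    (hcl : ∀ v ∉ S, ∀ y : Kˣ, ∃ π : Kˣ, v.valuation K (π : K) = v.valuation K (y : K) ∧
      ∀ v' ∉ S, v' ≠ v → v'.valuation K (π : K) = 1)
    (hT1 : ∀ w ∈ T, w ∉ S)
    (hT3 : ∀ c : HeightOneSpectrum (𝓞 K) → K, (∀ w ∈ T, w.valuation K (c w) = 1) →
      ∃ u ∈ sUnits K S, ∀ w ∈ T, IsPowMod w p (((u : Kˣ) : K) * c w))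
    {b : Kˣ} (hb : ∀ v, v ∉ S → v ∉ T → v.valuation K (b : K) = 1)
    (hbS : ∀ v ∈ S, ∃ x : G v, x ^ p = loc v b) : ∃ c : Kˣ, c ^ p = b := by
  classical
  by_contra hcon
  obtain ⟨S'', hS'', x, hx⟩ := D.first_ineq b hcon (S ∪ T)
  refine hx (exists_sUnit_forall_div_mem D S T hS hcl hT1 hT3 hb hbS S'' ?_ ?_ x)
  · exact fun v hv => hS'' (Finset.mem_union_left _ hv)
  · exact fun v hv => hS'' (Finset.mem_union_right _ hv)

end claim3

section main

variable {loc : ∀ v, Kˣ →* G v} {U : ∀ v, Subgroup (G v)} {N : Kˣ → ∀ v, Subgroup (G v)}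

open Classical in
/-- **The abstract second inequality** (Chevalley's proof). -/
theorem second_inequality_abstract (hp : p.Prime) {ζ : K} (hζ : IsPrimitiveRoot ζ p)
    (D : IsChevalleyDatum p loc U N) (r : ℕ)
    (hV : ∀ T' : Finset (HeightOneSpectrum (𝓞 K)),
      (sUnitsPow K T' p).relIndex (sUnits K T') = p ^ (r + T'.card))
    (S : Finset (HeightOneSpectrum (𝓞 K))) (hS : ∀ w ∉ S, w.valuation K (p : K) = 1)
    (hidx : ∏ v ∈ S, (powMonoidHom p : G v →* G v).range.index = p ^ (2 * (r + S.card)))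
    (hcl : ∀ v ∉ S, ∀ y : Kˣ, ∃ π : Kˣ, v.valuation K (π : K) = v.valuation K (y : K) ∧
      ∀ v' ∉ S, v' ≠ v → v'.valuation K (π : K) = 1)
    {a : Kˣ} (ha : a ∈ sUnits K S) :
    ∃ S' : Finset (HeightOneSpectrum (𝓞 K)), S ⊆ S' ∧
      ((diagHom loc S').range ⊔ Subgroup.pi Set.univ (fun v : ↥S' => N a v)).index ∣ p := by
  have hfin : (sUnitsPow K S p).relIndex (sUnits K S) ≠ 0 := by
    rw [hV]; exact pow_ne_zero _ hp.ne_zero
  obtain ⟨T, hT1, -, hT3, hT4⟩ := exists_auxPrimes S hp hζ hS hfin ha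
  have hdisj : Disjoint S T := Finset.disjoint_right.mpr (fun w hw => (hT1 w hw).1)
  have hcard : (S ∪ T).card = S.card + T.card := Finset.card_union_of_disjoint hdisj
  refine ⟨S ∪ T, Finset.subset_union_left, ?_⟩
  -- the subgroups
  set P := (diagHom loc (S ∪ T)).range with hP
  set E : Subgroup (∀ v : ↥(S ∪ T), G v) := Subgroup.pi Set.univ
    (fun v : ↥(S ∪ T) => if (v : HeightOneSpectrum (𝓞 K)) ∈ S then
      (powMonoidHom p : G v →* G v).range else ⊤) with hE
  -- `E` consists of norms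
  have hEN : E ≤ Subgroup.pi Set.univ (fun v : ↥(S ∪ T) => N a v) := by
    intro x hx
    rw [Subgroup.mem_pi] at hx ⊢
    intro v _
    have hxv := hx v (Set.mem_univ v)
    by_cases hvS : (v : HeightOneSpectrum (𝓞 K)) ∈ S
    · rw [if_pos hvS] at hxv
      obtain ⟨y, hy⟩ := hxv
      rw [← hy]
      exact D.pow_mem_N a v y
    · have hvT : (v : HeightOneSpectrum (𝓞 K)) ∈ T := by
        have := v.2
        rw [Finset.mem_union] at this
        tauto
      have hN : N a v = ⊤ := D.N_eq_top a v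
        (D.hensel v (hS v hvS) a (mem_sUnits.mp ha v hvS) (hT1 v hvT).2)
      rw [hN]; exact Subgroup.mem_top _
  have h1 : (P ⊔ Subgroup.pi Set.univ (fun v : ↥(S ∪ T) => N a v)).index ∣ (P ⊔ E).index :=
    Subgroup.index_dvd_of_le (sup_le_sup_left hEN P)
  -- index of `E`
  have hEidx : E.index = p ^ (2 * (r + S.card)) := by
    rw [hE, index_pi_dep, ← hidx]
    have : ∀ v : ↥(S ∪ T), (if (v : HeightOneSpectrum (𝓞 K)) ∈ S then
        (powMonoidHom p : G v →* G v).range else ⊤).index =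
        (fun w : HeightOneSpectrum (𝓞 K) =>
          if w ∈ S then (powMonoidHom p : G w →* G w).range.index else 1) v := by
      intro v
      by_cases h : (v : HeightOneSpectrum (𝓞 K)) ∈ S <;> simp [h]
    simp_rw [this]
    rw [Finset.prod_coe_sort (S ∪ T) (fun w =>
      if w ∈ S then (powMonoidHom p : G w →* G w).range.index else 1)]
    rw [Finset.prod_ite_mem, Finset.union_inter_cancel_left]
  -- Chevalley's Claim: the global elements of `E` are the `p`-th powers
  have hcomap : E.comap (diagHom loc (S ∪ T)) =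
      (powMonoidHom p : ↥(sUnits K (S ∪ T)) →* ↥(sUnits K (S ∪ T))).range := by
    ext ⟨b, hb⟩
    rw [Subgroup.mem_comap, MonoidHom.mem_range]
    constructor
    · intro hbE
      rw [Subgroup.mem_pi] at hbE
      have hbS : ∀ v ∈ S, ∃ x : G v, x ^ p = loc v b := by
        intro v hv
        have h := hbE ⟨v, Finset.mem_union_left _ hv⟩ (Set.mem_univ _)
        rw [if_pos hv] at h
        obtain ⟨y, hy⟩ := h
        exact ⟨y, hy⟩
      obtain ⟨c, hc⟩ := exists_pow_eq_of_local_pow D S T hS hcl (fun w hw => (hT1 w hw).1) hT3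
        (b := b) (fun v hvS hvT => mem_sUnits.mp hb v (by
          rw [Finset.mem_union]; tauto)) hbS
      have hcS' : c ∈ sUnits K (S ∪ T) := by
        intro v hv
        have h := mem_sUnits.mp hb v hv
        rw [← hc, Units.val_pow_eq_pow_val, map_pow] at h
        exact (pow_eq_one_iff_of_nonneg zero_le hp.ne_zero).mp h
      exact ⟨⟨c, hcS'⟩, Subtype.ext hc⟩
    · rintro ⟨⟨c, hc⟩, hcb⟩
      have hcb' : c ^ p = b := congrArg Subtype.val hcb
      rw [Subgroup.mem_pi]
      intro v _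
      by_cases hvS : (v : HeightOneSpectrum (𝓞 K)) ∈ S
      · rw [if_pos hvS]
        exact ⟨loc v c, by simp [← hcb']⟩
      · rw [if_neg hvS]; exact Subgroup.mem_top _
  -- the index of the `p`-th powers of `S ∪ T`-units
  have hQ : (powMonoidHom p : ↥(sUnits K (S ∪ T)) →* ↥(sUnits K (S ∪ T))).range.index =
      p ^ (r + (S ∪ T).card) := by
    rw [← hV (S ∪ T)]
    change _ = ((sUnitsPow K (S ∪ T) p).subgroupOf (sUnits K (S ∪ T))).index
    congr 1
    ext x
    rw [Subgroup.mem_subgroupOf, mem_sUnitsPow, MonoidHom.mem_range]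
    constructor
    · rintro ⟨c, rfl⟩
      exact ⟨c, c.2, rfl⟩
    · rintro ⟨c, hc, hcx⟩
      exact ⟨⟨c, hc⟩, Subtype.ext hcx⟩
  -- index computation
  have h2 : E.relIndex (P ⊔ E) * (P ⊔ E).index = E.index :=
    Subgroup.relIndex_mul_index le_sup_right
  have h3 : E.relIndex (P ⊔ E) = E.relIndex P := Subgroup.relIndex_sup_right P E
  have h4 : E.relIndex P = (E.comap (diagHom loc (S ∪ T))).index := by
    rw [hP, MonoidHom.range_eq_map, ← Subgroup.relIndex_comap, Subgroup.relIndex_top_right]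
  rw [h3, h4, hcomap, hQ, hEidx, hcard] at h2
  rw [hV S] at hT4
  have hle : r + S.card ≤ T.card + 1 := (Nat.pow_le_pow_iff_right hp.one_lt).mp hT4
  have hdvd : (P ⊔ E).index ∣ p ^ (2 * (r + S.card)) := Dvd.intro_left _ h2
  obtain ⟨x, -, hxe⟩ := (Nat.dvd_prime_pow hp).mp hdvd
  rw [hxe, ← pow_add] at h2
  have h5 := Nat.pow_right_injective hp.two_le h2
  have hx1 : x ≤ 1 := by omega
  refine h1.trans ?_
  rw [hxe]
  calc p ^ x ∣ p ^ 1 := pow_dvd_pow p hx1
    _ = p := pow_one p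

end main

section monotone

variable {loc : ∀ v, Kˣ →* G v} {U : ∀ v, Subgroup (G v)} {N : Kˣ → ∀ v, Subgroup (G v)}

open Classical in
/-- extension by `1` from `∏_{v ∈ S'} G v` to `∏_{v ∈ S⁺} G v` -/
noncomputable def extendHom (G : HeightOneSpectrum (𝓞 K) → Type*) [∀ v, CommGroup (G v)]
    (S' Sp : Finset (HeightOneSpectrum (𝓞 K))) : (∀ v : ↥S', G v) →* (∀ v : ↥Sp, G v) where
  toFun x v := if h : (v : HeightOneSpectrum (𝓞 K)) ∈ S' then x ⟨v, h⟩ else 1
  map_one' := by
    ext v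
    by_cases h : (v : HeightOneSpectrum (𝓞 K)) ∈ S' <;> simp [h]
  map_mul' x y := by
    ext v
    by_cases h : (v : HeightOneSpectrum (𝓞 K)) ∈ S' <;> simp [h]

omit [NumberField K] in
lemma extendHom_apply_of_mem {S' Sp : Finset (HeightOneSpectrum (𝓞 K))} (x : ∀ v : ↥S', G v)
    (v : ↥Sp) (h : (v : HeightOneSpectrum (𝓞 K)) ∈ S') :
    extendHom G S' Sp x v = x ⟨v, h⟩ := by
  simp [extendHom, h]

omit [NumberField K] in
lemma extendHom_apply_of_notMem {S' Sp : Finset (HeightOneSpectrum (𝓞 K))}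
    (x : ∀ v : ↥S', G v) (v : ↥Sp) (h : (v : HeightOneSpectrum (𝓞 K)) ∉ S') :
    extendHom G S' Sp x v = 1 := by
  simp [extendHom, h]

omit [NumberField K] in
lemma mem_range_extendHom {S' Sp : Finset (HeightOneSpectrum (𝓞 K))} (hsub : S' ⊆ Sp)
    (z : ∀ v : ↥Sp, G v) (hz : ∀ v : ↥Sp, (v : HeightOneSpectrum (𝓞 K)) ∉ S' → z v = 1) :
    z ∈ (extendHom G S' Sp).range := by
  refine ⟨fun v => z ⟨v, hsub v.2⟩, ?_⟩
  ext v
  by_cases h : (v : HeightOneSpectrum (𝓞 K)) ∈ S'
  · rw [extendHom_apply_of_mem _ _ h]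
  · rw [extendHom_apply_of_notMem _ _ h, hz v h]

open Classical in
/-- **Monotonicity**: enlarging the set of places can only decrease the norm index, as soon as
`Cl_{S'}(K) = 0` and `K(a^{1/p})/K` is unramified outside `S'`. -/
theorem index_dvd_index_of_subset (D : IsChevalleyDatum p loc U N)
    {S' Sp : Finset (HeightOneSpectrum (𝓞 K))} (hsub : S' ⊆ Sp)
    (hS' : ∀ w ∉ S', w.valuation K (p : K) = 1)
    (hcl : ∀ v ∉ S', ∀ y : Kˣ, ∃ π : Kˣ, v.valuation K (π : K) = v.valuation K (y : K) ∧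
      ∀ v' ∉ S', v' ≠ v → v'.valuation K (π : K) = 1)
    {a : Kˣ} (ha : a ∈ sUnits K S') :
    ((diagHom loc Sp).range ⊔ Subgroup.pi Set.univ (fun v : ↥Sp => N a v)).index ∣
      ((diagHom loc S').range ⊔ Subgroup.pi Set.univ (fun v : ↥S' => N a v)).index := by
  set A' := (diagHom loc S').range ⊔ Subgroup.pi Set.univ (fun v : ↥S' => N a v) with hA'
  set Ap := (diagHom loc Sp).range ⊔ Subgroup.pi Set.univ (fun v : ↥Sp => N a v) with hAp
  -- local units outside `S'` are norms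
  have hUN : ∀ v, v ∉ S' → U v ≤ N a v := fun v hv =>
    D.U_le_N a v (hS' v hv) (mem_sUnits.mp ha v hv)
  -- (a) `A' ≤ Ap.comap ε`
  have ha' : A' ≤ Ap.comap (extendHom G S' Sp) := by
    rw [hA']
    refine sup_le ?_ ?_
    · rintro _ ⟨⟨u, hu⟩, rfl⟩
      rw [Subgroup.mem_comap]
      -- `ε (diag' u) = diag⁺ u * n`
      have huSp : u ∈ sUnits K Sp := sUnits_mono hsub hu
      have hn : extendHom G S' Sp (diagHom loc S' ⟨u, hu⟩) / diagHom loc Sp ⟨u, huSp⟩ ∈
          Subgroup.pi Set.univ (fun v : ↥Sp => N a v) := by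
        rw [Subgroup.mem_pi]
        intro v _
        by_cases h : (v : HeightOneSpectrum (𝓞 K)) ∈ S'
        · have : (extendHom G S' Sp (diagHom loc S' ⟨u, hu⟩) / diagHom loc Sp ⟨u, huSp⟩) v = 1 := by
            rw [Pi.div_apply, extendHom_apply_of_mem _ _ h]
            simp
          rw [this]; exact one_mem _
        · have : (extendHom G S' Sp (diagHom loc S' ⟨u, hu⟩) / diagHom loc Sp ⟨u, huSp⟩) v =
              (loc v u)⁻¹ := by
            rw [Pi.div_apply, extendHom_apply_of_notMem _ _ h]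
            simp
          rw [this]
          exact inv_mem (hUN v h (D.loc_mem_U v u (mem_sUnits.mp hu v h)))
      have e : extendHom G S' Sp (diagHom loc S' ⟨u, hu⟩) = diagHom loc Sp ⟨u, huSp⟩ *
          (extendHom G S' Sp (diagHom loc S' ⟨u, hu⟩) / diagHom loc Sp ⟨u, huSp⟩) := by
        rw [mul_div_cancel]
      rw [e]
      exact Subgroup.mul_mem_sup ⟨_, rfl⟩ hn
    · intro x hx
      rw [Subgroup.mem_comap]
      refine Subgroup.mem_sup_right ?_
      rw [Subgroup.mem_pi] at hx ⊢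
      intro v _
      by_cases h : (v : HeightOneSpectrum (𝓞 K)) ∈ S'
      · rw [extendHom_apply_of_mem _ _ h]; exact hx ⟨v, h⟩ (Set.mem_univ _)
      · rw [extendHom_apply_of_notMem _ _ h]; exact one_mem _
  -- (b) `ε.range ⊔ Ap = ⊤`
  have hb : (extendHom G S' Sp).range ⊔ Ap = ⊤ := by
    rw [eq_top_iff]
    intro x _
    -- total extension of `x`
    let xt : ∀ v, G v := fun v => if h : v ∈ Sp then x ⟨v, h⟩ else 1
    have hxt : ∀ v : ↥Sp, xt v = x v := fun v => by simp [xt, v.2]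
    obtain ⟨u₁, hu₁, hx'⟩ := exists_sUnit_forall_div_mem_U D S' hcl Sp hsub xt
    let n : ∀ v : ↥Sp, G v := fun v =>
      if (v : HeightOneSpectrum (𝓞 K)) ∈ S' then 1 else x v / loc v u₁
    have hn : n ∈ Subgroup.pi Set.univ (fun v : ↥Sp => N a v) := by
      rw [Subgroup.mem_pi]
      intro v _
      by_cases h : (v : HeightOneSpectrum (𝓞 K)) ∈ S'
      · simp only [n, if_pos h]; exact one_mem _
      · simp only [n, if_neg h]
        rw [← hxt v]
        exact hUN v h (hx' v v.2 h)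
    have hz : x / (diagHom loc Sp ⟨u₁, hu₁⟩ * n) ∈ (extendHom G S' Sp).range := by
      refine mem_range_extendHom hsub _ ?_
      intro v h
      rw [Pi.div_apply, Pi.mul_apply, diagHom_apply]
      simp only [n, if_neg h]
      rw [mul_div_cancel, div_self']
    have e : x = (x / (diagHom loc Sp ⟨u₁, hu₁⟩ * n)) * (diagHom loc Sp ⟨u₁, hu₁⟩ * n) := by
      rw [div_mul_cancel]
    rw [e]
    exact Subgroup.mul_mem_sup hz (Subgroup.mul_mem_sup ⟨_, rfl⟩ hn)
  -- (c) the index computation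
  have h1 : Ap.index = (Ap.comap (extendHom G S' Sp)).index := by
    rw [← Subgroup.relIndex_top_right, ← hb, Subgroup.relIndex_sup_right,
      MonoidHom.range_eq_map, ← Subgroup.relIndex_comap, Subgroup.relIndex_top_right]
  rw [h1]
  exact Subgroup.index_dvd_of_le ha'

/-- **The abstract second inequality, final form**: for all sufficiently large finite sets of
places `S⁺`, the norm index computed in `∏_{v ∈ S⁺} G v` divides `p`. -/
theorem second_inequality_abstract_large (hp : p.Prime) {ζ : K} (hζ : IsPrimitiveRoot ζ p)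
    (D : IsChevalleyDatum p loc U N) (r : ℕ)
    (hV : ∀ T' : Finset (HeightOneSpectrum (𝓞 K)),
      (sUnitsPow K T' p).relIndex (sUnits K T') = p ^ (r + T'.card))
    (S : Finset (HeightOneSpectrum (𝓞 K))) (hS : ∀ w ∉ S, w.valuation K (p : K) = 1)
    (hidx : ∏ v ∈ S, (powMonoidHom p : G v →* G v).range.index = p ^ (2 * (r + S.card)))
    (hcl : ∀ v ∉ S, ∀ y : Kˣ, ∃ π : Kˣ, v.valuation K (π : K) = v.valuation K (y : K) ∧
      ∀ v' ∉ S, v' ≠ v → v'.valuation K (π : K) = 1)
    {a : Kˣ} (ha : a ∈ sUnits K S) :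
    ∃ S' : Finset (HeightOneSpectrum (𝓞 K)), S ⊆ S' ∧
      ∀ Sp : Finset (HeightOneSpectrum (𝓞 K)), S' ⊆ Sp →
        ((diagHom loc Sp).range ⊔ Subgroup.pi Set.univ (fun v : ↥Sp => N a v)).index ∣ p := by
  obtain ⟨S', hSS', hS'idx⟩ := second_inequality_abstract hp hζ D r hV S hS hidx hcl ha
  refine ⟨S', hSS', fun Sp hsub => ?_⟩
  refine (index_dvd_index_of_subset D hsub (fun w hw => hS w (fun h => hw (hSS' h))) ?_
    (sUnits_mono hSS' ha)).trans hS'idx
  intro v hv y
  obtain ⟨π, h1, h2⟩ := hcl v (fun h => hv (hSS' h)) y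
  exact ⟨π, h1, fun v' hv' hne => h2 v' (fun h => hv' (hSS' h)) hne⟩

end monotone

end Fermat.Agent.S55.GL.SecondIneq
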