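/-
S55 / GLO7 (helper21): second inequality.  File 11: the abstract second inequality re-indexed.

In the place model the local fields are naturally indexed by `I = Σ q, PlacesOver q K` (not by
the primes `v` of `𝓞 K` themselves).  This file transports `IsChevalleyDatum` and
`second_inequality_abstract_large` along an equivalence `e : I ≃ HeightOneSpectrum (𝓞 K)`:
* `IsChevalleyDatumOn p e loc U N` : the axioms for a datum `(G' i, loc i, U i, N b i)`, `i : I`;
* `piReindex`, `index_reindex` : the index of `diag · ∏ N` is insensitive to re-indexing;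
* `second_inequality_indexed` : the conclusion for every injective family `ψ : J → I` enumerating a
  large enough finite set of places: the index of `diag(S-units) · ∏_j N a (ψ j)` in
  `∏_j G' (ψ j)` divides `p`.
All dependent-type transports are confined to this file.
-/
import Mathlib
import Fermat.Agent.S55.GL.SecondIneq.Chevalley

set_option autoImplicit false

namespace Fermat.Agent.S55.GL.SecondIneq

open NumberField IsDedekindDomain HeightOneSpectrum

section reindex

/-- reindexing a product of groups along an equivalence of index types -/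
def piReindex {A₀ B₀ : Type*} (P : B₀ → Type*) [∀ b, CommGroup (P b)] (θ : A₀ ≃ B₀) :
    (∀ b, P b) ≃* (∀ a, P (θ a)) :=
  { (Equiv.piCongrLeft' P θ.symm : (∀ b, P b) ≃ ∀ a, P (θ a)) with
    map_mul' := fun _ _ => rfl }

@[simp] lemma piReindex_apply {A₀ B₀ : Type*} (P : B₀ → Type*) [∀ b, CommGroup (P b)]
    (θ : A₀ ≃ B₀) (y : ∀ b, P b) (a : A₀) : piReindex P θ y a = y (θ a) := rfl

/-- The index of `(range d) ⊔ ∏ N` is invariant under re-indexing. -/
lemma index_reindex {A₀ B₀ Uo : Type*} [Group Uo] (P : B₀ → Type*) [∀ b, CommGroup (P b)]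
    (θ : A₀ ≃ B₀) (d : Uo →* ∀ b, P b) (NB : ∀ b, Subgroup (P b)) :
    ((MonoidHom.pi fun a => (Pi.evalMonoidHom P (θ a)).comp d).range ⊔
        Subgroup.pi Set.univ (fun a => NB (θ a))).index =
      (d.range ⊔ Subgroup.pi Set.univ NB).index := by
  rw [← Subgroup.index_map_equiv (d.range ⊔ Subgroup.pi Set.univ NB) (piReindex P θ),
    Subgroup.map_sup, MonoidHom.map_range]
  congr 2
  ext x
  simp only [Subgroup.mem_pi, Set.mem_univ, forall_true_left, Subgroup.mem_map]
  constructor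
  · intro hx
    refine ⟨(piReindex P θ).symm x, fun b => ?_, (piReindex P θ).apply_symm_apply x⟩
    obtain ⟨a, rfl⟩ := θ.surjective b
    have h1 : (piReindex P θ) ((piReindex P θ).symm x) a = x a := by
      rw [MulEquiv.apply_symm_apply]
    rw [piReindex_apply] at h1
    rw [h1]
    exact hx a
  · rintro ⟨y, hy, rfl⟩ a
    exact hy (θ a)

end reindex

variable {K : Type*} [Field K] [NumberField K] {p : ℕ}
  {I : Type*} (e : I ≃ HeightOneSpectrum (𝓞 K))
  {G' : I → Type*} [∀ i, CommGroup (G' i)]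

/-- The axioms of `IsChevalleyDatum` for a local datum indexed by `I ≃ {finite primes of K}`. -/
structure IsChevalleyDatumOn (p : ℕ) (e : I ≃ HeightOneSpectrum (𝓞 K))
    (loc : ∀ i, Kˣ →* G' i) (U : ∀ i, Subgroup (G' i)) (N : Kˣ → ∀ i, Subgroup (G' i)) :
    Prop where
  loc_mem_U : ∀ i (z : Kˣ), (e i).valuation K (z : K) = 1 → loc i z ∈ U i
  exists_div_mem_U : ∀ i (x : G' i), ∃ y : Kˣ, x / loc i y ∈ U i
  hensel : ∀ i, (e i).valuation K (p : K) = 1 → ∀ u : Kˣ, (e i).valuation K (u : K) = 1 →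
    IsPowMod (e i) p (u : K) → ∃ x : G' i, x ^ p = loc i u
  dense : ∀ i, (e i).valuation K (p : K) = 1 → ∀ x ∈ U i,
    ∃ u : Kˣ, (e i).valuation K (u : K) = 1 ∧ ∃ y : G' i, x = loc i u * y ^ p
  pow_mem_N : ∀ (b : Kˣ) i (x : G' i), x ^ p ∈ N b i
  N_eq_top : ∀ (b : Kˣ) i, (∃ x : G' i, x ^ p = loc i b) → N b i = ⊤
  U_le_N : ∀ (b : Kˣ) i, (e i).valuation K (p : K) = 1 → (e i).valuation K (b : K) = 1 →
    U i ≤ N b i
  first_ineq : ∀ b : Kˣ, (¬ ∃ c : Kˣ, c ^ p = b) →
    ∀ S₁ : Finset I, ∃ S'' : Finset I, S₁ ⊆ S'' ∧ ∃ x : ∀ i, G' i,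
      ¬ ∃ u ∈ sUnits K (S''.map e.toEmbedding), ∀ i ∈ S'', x i / loc i u ∈ N b i

variable {e} {loc : ∀ i, Kˣ →* G' i} {U : ∀ i, Subgroup (G' i)} {N : Kˣ → ∀ i, Subgroup (G' i)}

/-- an indexed datum gives a datum indexed by the primes -/
theorem IsChevalleyDatumOn.toDatum (D : IsChevalleyDatumOn p e loc U N) :
    IsChevalleyDatum (G := fun v => G' (e.symm v)) p (fun v => loc (e.symm v))
      (fun v => U (e.symm v)) (fun b v => N b (e.symm v)) where
  loc_mem_U v z hz := D.loc_mem_U (e.symm v) z (by rwa [e.apply_symm_apply])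
  exists_div_mem_U v x := D.exists_div_mem_U (e.symm v) x
  hensel v hv u hu hres := D.hensel (e.symm v) (by rwa [e.apply_symm_apply]) u
    (by rwa [e.apply_symm_apply]) (by rwa [e.apply_symm_apply])
  dense v hv x hx := by
    obtain ⟨u, hu, y, hy⟩ := D.dense (e.symm v) (by rwa [e.apply_symm_apply]) x hx
    exact ⟨u, by rwa [e.apply_symm_apply] at hu, y, hy⟩
  pow_mem_N b v x := D.pow_mem_N b (e.symm v) x
  N_eq_top b v hx := D.N_eq_top b (e.symm v) hx
  U_le_N b v hv hb := D.U_le_N b (e.symm v) (by rwa [e.apply_symm_apply])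
    (by rwa [e.apply_symm_apply])
  first_ineq b hb S₁ := by
    obtain ⟨S'', hS'', x, hx⟩ := D.first_ineq b hb (S₁.map e.symm.toEmbedding)
    refine ⟨S''.map e.toEmbedding, ?_, fun v => x (e.symm v), ?_⟩
    · intro v hv
      rw [Finset.mem_map]
      refine ⟨e.symm v, hS'' (Finset.mem_map_of_mem _ hv), ?_⟩
      simp
    · rintro ⟨u, hu, hall⟩
      refine hx ⟨u, hu, fun i hi => ?_⟩
      have : x (e.symm (e i)) / (loc (e.symm (e i))) u ∈ N b (e.symm (e i)) :=
        hall (e i) (Finset.mem_map_of_mem _ hi)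
      rwa [e.symm_apply_apply] at this

/-- the diagonal map from the `S'`-units to `∏_j G' (ψ j)` -/
noncomputable def diagHomOn (loc : ∀ i, Kˣ →* G' i) {J : Type*} (ψ : J → I)
    (S' : Finset (HeightOneSpectrum (𝓞 K))) : ↥(sUnits K S') →* (∀ j : J, G' (ψ j)) :=
  MonoidHom.pi (fun j => (loc (ψ j)).comp (sUnits K S').subtype)

@[simp] lemma diagHomOn_apply (loc : ∀ i, Kˣ →* G' i) {J : Type*} (ψ : J → I)
    (S' : Finset (HeightOneSpectrum (𝓞 K))) (u : ↥(sUnits K S')) (j : J) :
    diagHomOn loc ψ S' u j = loc (ψ j) (u : Kˣ) := rfl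

/-- **The abstract second inequality, indexed form.** -/
theorem second_inequality_indexed (hp : p.Prime) {ζ : K} (hζ : IsPrimitiveRoot ζ p)
    (D : IsChevalleyDatumOn p e loc U N) (r : ℕ)
    (hV : ∀ T' : Finset (HeightOneSpectrum (𝓞 K)),
      (sUnitsPow K T' p).relIndex (sUnits K T') = p ^ (r + T'.card))
    (S : Finset I) (hS : ∀ i ∉ S, (e i).valuation K (p : K) = 1)
    (hidx : ∏ i ∈ S, (powMonoidHom p : G' i →* G' i).range.index = p ^ (2 * (r + S.card)))
    (hcl : ∀ i ∉ S, ∀ y : Kˣ, ∃ π : Kˣ, (e i).valuation K (π : K) = (e i).valuation K (y : K) ∧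
      ∀ i' ∉ S, i' ≠ i → (e i').valuation K (π : K) = 1)
    {a : Kˣ} (ha : a ∈ sUnits K (S.map e.toEmbedding)) :
    ∃ S' : Finset I, S ⊆ S' ∧
      ∀ (Sp : Finset (HeightOneSpectrum (𝓞 K))) {J : Type*} (ψ : J → I),
        Function.Injective ψ → (∀ v, v ∈ Sp ↔ ∃ j, e (ψ j) = v) → (∀ i ∈ S', ∃ j, ψ j = i) →
        ((diagHomOn loc ψ Sp).range ⊔ Subgroup.pi Set.univ (fun j : J => N a (ψ j))).index ∣ p := by
  classical
  have hS' : ∀ w ∉ S.map e.toEmbedding, w.valuation K (p : K) = 1 := by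
    intro w hw
    have := hS (e.symm w) (fun h => hw (by
      rw [Finset.mem_map]
      exact ⟨e.symm w, h, by simp⟩))
    rwa [e.apply_symm_apply] at this
  have hidx' : ∏ v ∈ S.map e.toEmbedding,
      (powMonoidHom p : G' (e.symm v) →* G' (e.symm v)).range.index =
        p ^ (2 * (r + (S.map e.toEmbedding).card)) := by
    rw [Finset.prod_map, Finset.card_map, ← hidx]
    refine Finset.prod_congr rfl fun i _ => ?_
    show (powMonoidHom p : G' (e.symm (e i)) →* G' (e.symm (e i))).range.index = _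
    rw [e.symm_apply_apply]
  have hcl' : ∀ v ∉ S.map e.toEmbedding, ∀ y : Kˣ, ∃ π : Kˣ,
      v.valuation K (π : K) = v.valuation K (y : K) ∧
        ∀ v' ∉ S.map e.toEmbedding, v' ≠ v → v'.valuation K (π : K) = 1 := by
    intro v hv y
    have hv' : e.symm v ∉ S := fun h => hv (by
      rw [Finset.mem_map]
      exact ⟨e.symm v, h, by simp⟩)
    obtain ⟨π, h1, h2⟩ := hcl (e.symm v) hv' y
    rw [e.apply_symm_apply] at h1
    refine ⟨π, h1, fun v' hv'S hne => ?_⟩
    have hv'' : e.symm v' ∉ S := fun h => hv'S (by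
      rw [Finset.mem_map]
      exact ⟨e.symm v', h, by simp⟩)
    have := h2 (e.symm v') hv'' (fun h => hne (e.symm.injective h))
    rwa [e.apply_symm_apply] at this
  obtain ⟨S'₀, hSS', h⟩ := second_inequality_abstract_large hp hζ D.toDatum r hV
    (S.map e.toEmbedding) hS' hidx' hcl' ha
  refine ⟨S'₀.map e.symm.toEmbedding, ?_, ?_⟩
  · intro i hi
    rw [Finset.mem_map]
    exact ⟨e i, hSS' (Finset.mem_map_of_mem _ hi), by simp⟩
  · intro Sp J ψ hψ hSp hcov
    have hsub : S'₀ ⊆ Sp := by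
      intro v hv
      obtain ⟨j, hj⟩ := hcov (e.symm v) (Finset.mem_map_of_mem _ hv)
      rw [hSp]
      exact ⟨j, by rw [hj, e.apply_symm_apply]⟩
    have key := h Sp hsub
    -- the intermediate index type
    let B₀ := {i : I // e i ∈ Sp}
    let P : B₀ → Type _ := fun i => G' i.1
    -- `θ₁ : ↥Sp ≃ B₀`
    let θ₁ : ↥Sp ≃ B₀ :=
      { toFun := fun v => ⟨e.symm v.1, by rw [e.apply_symm_apply]; exact v.2⟩
        invFun := fun i => ⟨e i.1, i.2⟩
        left_inv := fun v => Subtype.ext (e.apply_symm_apply _)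
        right_inv := fun i => Subtype.ext (e.symm_apply_apply _) }
    -- `θ₂ : J ≃ B₀`
    have hψmem : ∀ j, e (ψ j) ∈ Sp := fun j => (hSp _).mpr ⟨j, rfl⟩
    let θ₂ : J ≃ B₀ := Equiv.ofBijective (fun j => ⟨ψ j, hψmem j⟩) ⟨fun j j' hjj' =>
      hψ (congrArg Subtype.val hjj'), fun i => by
        obtain ⟨j, hj⟩ := (hSp _).mp i.2
        exact ⟨j, Subtype.ext (e.injective hj)⟩⟩
    -- the diagonal map into `∏_{B₀}`
    let d : ↥(sUnits K Sp) →* ∀ b : B₀, P b :=
      MonoidHom.pi (fun b => (loc b.1).comp (sUnits K Sp).subtype)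
    let NB : ∀ b : B₀, Subgroup (P b) := fun b => N a b.1
    have e1 := index_reindex P θ₁ d NB
    have e2 := index_reindex P θ₂ d NB
    have key' : ((MonoidHom.pi fun v => (Pi.evalMonoidHom P (θ₁ v)).comp d).range ⊔
        Subgroup.pi Set.univ (fun v => NB (θ₁ v))).index ∣ p := key
    rw [e1, ← e2] at key'
    exact key'

end Fermat.Agent.S55.GL.SecondIneq
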