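/-
S55 / GLO7 (helper21): second inequality.  File 17: systems of places for a finite product of
coinduced function modules (abstract; on helper3's `CoindFun`/`CoindInv`/`CoindInvRep`).

`φ q : D q →* G` (`q : ι`), `Ω q` with an action of `D q`, `J = ∏_q coindFun (φ q)`, `H ≤ G`.
A *system of places* (`IsPlaceSys φ H qq gg`) is a family `(q_i, g_i)_{i : I}` such that every
`(q, g)` lies in exactly one `(q_i, φ(D_{q_i}) g_i H)`.  Then
* `IsPlaceSys.ext` : an `H`-invariant family is determined by its values at the `(q_i, g_i)`;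
* `liftHom hP : ∏_i (Ω q_i)^{Δ_i} →* J` (`Δ_i = deltaAt (φ q_i) H g_i`) with `H`-invariant values,
  `liftHom_apply`, `liftHom_injective`, `exists_liftHom_eq` (so `J^H ≃ ∏_i (Ω q_i)^{Δ_i}`);
* `IsPlaceSys.exists_relNorm_eq` : if the values at the places are local relative norms
  (`relNorm Δ_i^H Δ_i^{N'}`) then the family is componentwise `relNorm H N'` of an `N'`-invariant
  family (local norms are global norms).
All indices are dependent (`Ω (qq i)`): no transport along equalities of indices is ever needed.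
-/
import Mathlib
import Fermat.Agent.S55.GL.CoindInvRep

set_option autoImplicit false
set_option linter.unusedSectionVars false

namespace Fermat.Agent.S55.GL.SecondIneq

open Fermat.Agent.S55.GL.CoindFun Fermat.Agent.S55.GL.CoindInv

section PlaceSys

variable {G : Type*} [Group G] {ι : Type*} {D : ι → Type*} [∀ q, Group (D q)]
  {Ω : ι → Type*} [∀ q, CommGroup (Ω q)] [∀ q, MulDistribMulAction (D q) (Ω q)]
  (φ : ∀ q, D q →* G) (H : Subgroup G)

/-- A *system of places* for the product `∏_q coindFun (φ q)` relative to `H ≤ G`: a family of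
pairs `(q_i, g_i)` such that every `(q, g)` lies in exactly one `(q_i, φ(D_{q_i}) g_i H)`. -/
structure IsPlaceSys {I : Type*} (qq : I → ι) (gg : I → G) : Prop where
  cov : ∀ (q : ι) (g : G), ∃ i, qq i = q ∧ ∃ d : D (qq i), ∃ η ∈ H, g = φ (qq i) d * gg i * η
  disj : ∀ i i', qq i = qq i' →
    (∃ d : D (qq i), ∃ η ∈ H, gg i' = φ (qq i) d * gg i * η) → i = i'

variable {φ H} {I : Type*} {qq : I → ι} {gg : I → G}

/-- An `H`-invariant family is determined by its values at the places. -/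
theorem IsPlaceSys.ext (hP : IsPlaceSys φ H qq gg) {f f' : ∀ q, coindFun (Ω := Ω q) (φ q)}
    (hf : ∀ q, f q ∈ coindInv (φ q) H) (hf' : ∀ q, f' q ∈ coindInv (φ q) H)
    (h : ∀ i, (f (qq i)).1 (gg i) = (f' (qq i)).1 (gg i)) : f = f' := by
  funext q
  apply Subtype.ext
  funext g
  obtain ⟨i, rfl, d, η, hη, rfl⟩ := hP.cov q g
  rw [mul_assoc, (f (qq i)).2 d, (f' (qq i)).2 d, hf _ η hη, hf' _ η hη, h]

variable (φ H qq gg)

/-- the function supported on the double coset `φ(D) g_i H` with value `y` at `g_i` -/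
noncomputable def sgl (i : I) (y : fixedSub (X := Ω (qq i)) (deltaAt (φ (qq i)) H (gg i))) :
    coindFun (Ω := Ω (qq i)) (φ (qq i)) :=
  ofBase (φ := φ (qq i)) (N := H) (𝒢 := {gg i}) (b := fun _ => (y : Ω (qq i)))
    (by
      rintro g hg g' hg' _
      rw [Set.mem_singleton_iff] at hg hg'
      rw [hg, hg'])
    (by
      rintro g hg
      rw [Set.mem_singleton_iff] at hg
      subst hg
      exact y.2)

variable {φ H qq gg}

lemma sgl_mem (i : I) (y : fixedSub (X := Ω (qq i)) (deltaAt (φ (qq i)) H (gg i))) :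
    sgl φ H qq gg i y ∈ coindInv (φ (qq i)) H :=
  ofBase_mem_coindInv _ _

lemma sgl_apply (i : I) (y : fixedSub (X := Ω (qq i)) (deltaAt (φ (qq i)) H (gg i)))
    (d : D (qq i)) {η : G} (hη : η ∈ H) :
    (sgl φ H qq gg i y).1 (φ (qq i) d * gg i * η) = d • (y : Ω (qq i)) :=
  ofBase_apply _ _ (Set.mem_singleton _) d hη

lemma sgl_apply_self (i : I) (y : fixedSub (X := Ω (qq i)) (deltaAt (φ (qq i)) H (gg i))) :
    (sgl φ H qq gg i y).1 (gg i) = (y : Ω (qq i)) :=
  ofBase_apply_self _ _ (Set.mem_singleton _)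

lemma sgl_apply_of_not (i : I) (y : fixedSub (X := Ω (qq i)) (deltaAt (φ (qq i)) H (gg i)))
    {x : G} (h : ¬ ∃ d : D (qq i), ∃ η ∈ H, x = φ (qq i) d * gg i * η) :
    (sgl φ H qq gg i y).1 x = 1 := by
  apply ofBase_apply_of_not
  rintro ⟨g, hg, d, η, hη, he⟩
  rw [Set.mem_singleton_iff] at hg
  subst hg
  exact h ⟨d, η, hη, he⟩

section Lift

open scoped Classical in
/-- the family with `sgl i y` in the component `q_i` and `1` elsewhere -/
noncomputable def sglPi (i : I) (y : fixedSub (X := Ω (qq i)) (deltaAt (φ (qq i)) H (gg i))) :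
    ∀ q, coindFun (Ω := Ω q) (φ q) :=
  Pi.mulSingle (qq i) (sgl φ H qq gg i y)

lemma sglPi_same (i : I) (y : fixedSub (X := Ω (qq i)) (deltaAt (φ (qq i)) H (gg i))) :
    sglPi i y (qq i) = sgl φ H qq gg i y := by
  classical
  unfold sglPi
  exact Pi.mulSingle_eq_same _ _

lemma sglPi_mem (i : I) (y : fixedSub (X := Ω (qq i)) (deltaAt (φ (qq i)) H (gg i))) (q : ι) :
    sglPi i y q ∈ coindInv (φ q) H := by
  classical
  by_cases hq : qq i = q
  · subst hq
    rw [sglPi_same]
    exact sgl_mem i y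
  · unfold sglPi
    rw [Pi.mulSingle_eq_of_ne (Ne.symm hq)]
    exact (coindInv (φ q) H).one_mem

lemma sglPi_apply_of_not (i : I) (y : fixedSub (X := Ω (qq i)) (deltaAt (φ (qq i)) H (gg i)))
    (q : ι) (g : G)
    (h : ¬ (qq i = q ∧ ∃ d : D (qq i), ∃ η ∈ H, g = φ (qq i) d * gg i * η)) :
    (sglPi i y q).1 g = 1 := by
  classical
  by_cases hq : qq i = q
  · subst hq
    rw [sglPi_same]
    exact sgl_apply_of_not i y (fun h' => h ⟨rfl, h'⟩)
  · unfold sglPi
    rw [Pi.mulSingle_eq_of_ne (Ne.symm hq)]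
    rfl

variable [Fintype I]

/-- the `H`-invariant family with prescribed values `y i` at the places -/
noncomputable def liftFun (y : ∀ i, fixedSub (X := Ω (qq i)) (deltaAt (φ (qq i)) H (gg i))) :
    ∀ q, coindFun (Ω := Ω q) (φ q) :=
  ∏ i, sglPi i (y i)

lemma liftFun_mem (y : ∀ i, fixedSub (X := Ω (qq i)) (deltaAt (φ (qq i)) H (gg i))) (q : ι) :
    liftFun y q ∈ coindInv (φ q) H := by
  unfold liftFun
  rw [Finset.prod_apply]
  exact Subgroup.prod_mem _ (fun i _ => sglPi_mem i (y i) q)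

/-- evaluation at `(q, g)` as a monoid hom -/
def evalHom (φ : ∀ q, D q →* G) (q : ι) (g : G) : (∀ q, coindFun (Ω := Ω q) (φ q)) →* Ω q where
  toFun f := (f q).1 g
  map_one' := rfl
  map_mul' _ _ := rfl

lemma liftFun_apply (hP : IsPlaceSys φ H qq gg)
    (y : ∀ i, fixedSub (X := Ω (qq i)) (deltaAt (φ (qq i)) H (gg i))) (i : I) :
    (liftFun y (qq i)).1 (gg i) = (y i : Ω (qq i)) := by
  show evalHom φ (qq i) (gg i) (liftFun y) = _
  unfold liftFun
  rw [map_prod, Finset.prod_eq_single i]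
  · show (sglPi i (y i) (qq i)).1 (gg i) = _
    rw [sglPi_same, sgl_apply_self]
  · intro i' _ hne
    show (sglPi i' (y i') (qq i)).1 (gg i) = 1
    apply sglPi_apply_of_not
    rintro ⟨hq, hd⟩
    exact hne (hP.disj i' i hq hd)
  · intro h
    exact absurd (Finset.mem_univ i) h

/-- the `H`-invariant family with prescribed values at the places, as a monoid hom -/
noncomputable def liftHom (hP : IsPlaceSys φ H qq gg) :
    (∀ i, fixedSub (X := Ω (qq i)) (deltaAt (φ (qq i)) H (gg i))) →*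
      (∀ q, coindFun (Ω := Ω q) (φ q)) where
  toFun := liftFun
  map_one' := hP.ext (liftFun_mem 1) (fun q => (coindInv (φ q) H).one_mem)
    (fun i => by rw [liftFun_apply hP]; rfl)
  map_mul' y y' := hP.ext (liftFun_mem _)
    (fun q => Subgroup.mul_mem _ (liftFun_mem y q) (liftFun_mem y' q))
    (fun i => by
      rw [liftFun_apply hP]
      show _ = (liftFun y (qq i)).1 (gg i) * (liftFun y' (qq i)).1 (gg i)
      rw [liftFun_apply hP, liftFun_apply hP]
      rfl)

lemma liftHom_mem (hP : IsPlaceSys φ H qq gg)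
    (y : ∀ i, fixedSub (X := Ω (qq i)) (deltaAt (φ (qq i)) H (gg i))) (q : ι) :
    liftHom hP y q ∈ coindInv (φ q) H := liftFun_mem y q

lemma liftHom_apply (hP : IsPlaceSys φ H qq gg)
    (y : ∀ i, fixedSub (X := Ω (qq i)) (deltaAt (φ (qq i)) H (gg i))) (i : I) :
    (liftHom hP y (qq i)).1 (gg i) = (y i : Ω (qq i)) := liftFun_apply hP y i

lemma liftHom_injective (hP : IsPlaceSys φ H qq gg) :
    Function.Injective (liftHom (Ω := Ω) hP) := by
  intro y y' h
  funext i
  apply Subtype.ext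
  rw [← liftHom_apply hP y i, ← liftHom_apply hP y' i, h]

/-- every `H`-invariant family is a lift -/
lemma exists_liftHom_eq (hP : IsPlaceSys φ H qq gg) (f : ∀ q, coindFun (Ω := Ω q) (φ q))
    (hf : ∀ q, f q ∈ coindInv (φ q) H) : ∃ y, liftHom hP y = f := by
  refine ⟨fun i => ⟨(f (qq i)).1 (gg i), apply_mem_fixedSub (hf (qq i)) (gg i)⟩, ?_⟩
  refine hP.ext (liftHom_mem hP _) hf (fun i => ?_)
  rw [liftHom_apply]

end Lift

section Norm

/-- **Local norms at the places are global norms.** -/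
theorem IsPlaceSys.exists_relNorm_eq (hP : IsPlaceSys φ H qq gg) (N' : Subgroup G) (hN'H : N' ≤ H)
    [Finite (H ⧸ N'.subgroupOf H)] (f : ∀ q, coindFun (Ω := Ω q) (φ q))
    (hf : ∀ q, f q ∈ coindInv (φ q) H)
    (hloc : ∀ i, ∃ z ∈ fixedSub (X := Ω (qq i)) (deltaAt (φ (qq i)) N' (gg i)),
      (f (qq i)).1 (gg i) =
        relNorm (deltaAt (φ (qq i)) H (gg i)) (deltaAt (φ (qq i)) N' (gg i)) z) :
    ∃ f' : ∀ q, coindFun (Ω := Ω q) (φ q), (∀ q, f' q ∈ coindInv (φ q) N') ∧
      ∀ q, f q = relNorm (X := coindFun (Ω := Ω q) (φ q)) H N' (f' q) := by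
  have aux : ∀ (i : I) (q : ι), qq i = q →
      ∃ b ∈ fixedSub (X := Ω q) (deltaAt (φ q) N' (gg i)),
        (f q).1 (gg i) = relNorm (deltaAt (φ q) H (gg i)) (deltaAt (φ q) N' (gg i)) b := by
    intro i q hq
    subst hq
    exact hloc i
  have key : ∀ q, ∃ f'q ∈ coindInv (Ω := Ω q) (φ q) N',
      f q = relNorm (X := coindFun (Ω := Ω q) (φ q)) H N' f'q := by
    intro q
    have hex : ∀ c : DoubleCoset.Quotient ((φ q).range : Set G) (H : Set G),
        ∃ i, qq i = q ∧ DoubleCoset.mk (φ q).range H (gg i) = c := by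
      intro c
      obtain ⟨g, rfl⟩ : ∃ g, DoubleCoset.mk (φ q).range H g = c :=
        ⟨_, DoubleCoset.out_eq' _ _ c⟩
      obtain ⟨i, hq, d, η, hη, hg⟩ := hP.cov q g
      refine ⟨i, hq, ?_⟩
      subst hq
      rw [DoubleCoset.eq]
      exact ⟨_, ⟨d, rfl⟩, η, hη, hg⟩
    choose ic hic1 hic2 using hex
    have hr : IsRepSystem (φ q) H (fun c => gg (ic c)) := hic2
    exact exists_relNorm_eq_of hr N' hN'H (hf q) (fun c => aux (ic c) q (hic1 c))
  choose f' hf' hff' using key
  exact ⟨f', hf', hff'⟩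

end Norm

end PlaceSys

end Fermat.Agent.S55.GL.SecondIneq
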