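/-
S55 / GLO7 (helper21): second inequality.  File 18: the idèle model of `K = L^H` inside helper3's
coinduced idèles `J_{L,T}` of `L`.

`L/ℚ` finite Galois in `ℚ̄`, `H ≤ G = Gal(L/ℚ)`, `K = fixedLift L H`, `T` a finite set of rational
primes.  For a prime `v` of `K` over `T`: `q_v = ratPrime K v`, `g_v = σ_v|_L` (`σ_v = sigmaAt K v`).
* `isPlaceSys_primesOver` : `(q_v, g_v)_v` is a system of places (`CoindPlaces.IsPlaceSys`) for
  `∏_{q ∈ T} coindFun (resLoc q L)` relative to `H`;
* `kappa v : K_vˣ ≃ (L_{q_v}ˣ)^{Δ_v}` (`kappa_bijective`);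
* `jHom : ∏_{v ∈ primesOver K T} K_vˣ →* J_{L,T}`, injective, with image the `H`-invariants
  (`jHom_mem`, `jHom_injective`, `exists_jHom_eq`), `jHom_apply` (value at `(q_v, g_v)`);
* `jHom_diag` : `jHom (loc_v u)_v = diag u` for `u ∈ Kˣ`; `mem_sUnits_iff_mem_tUnits`;
* `exists_jHom_eq_relNorm` : a family of local norms from `K_v(ι σ_v b)` (`L^{N'} = K(b)`) is
  componentwise `relNorm H N'` of an `N'`-invariant idèle.
-/
import Mathlib
import Fermat.Agent.S55.GL.IdelePlaces
import Fermat.Agent.S55.GL.PlacesDVR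
import Fermat.Agent.S55.GL.PlacesPrimeUnits
import Fermat.Agent.S55.GL.SecondIneq.CoindPlaces
import Fermat.Agent.S55.GL.SecondIneq.NormCompare
import Fermat.Agent.S55.GL.SecondIneq.Chevalley

set_option autoImplicit false
set_option linter.unusedSectionVars false

namespace Fermat.Agent.S55.GL.SecondIneq

open IntermediateField NumberField IsDedekindDomain
open Fermat.Agent.S55.LocalDict Fermat.Agent.S55.GL.LocalFieldAt Fermat.Agent.S55.GL.CoindFun
  Fermat.Agent.S55.GL.CoindInv Fermat.Agent.S55.GL.Places Fermat.Agent.S55.GL.IdelePlaces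
  Fermat.Agent.S55.GL.PlacesDVR Fermat.Agent.S55.GL.PlacesUnits Fermat.Agent.S55.GL.Ideles

local notation "Qbar" => AlgebraicClosure ℚ
local notation "Γ" => (AlgebraicClosure ℚ ≃ₐ[ℚ] AlgebraicClosure ℚ)

/-- primes as `Fact`s -/
local instance factPrime_im (q : Nat.Primes) : Fact (q : ℕ).Prime := ⟨q.2⟩

section Generic
variable {k Ω : Type*} [Field k] [Field Ω] [Algebra k Ω] {E F : IntermediateField k Ω} (h : E ≤ F)

/-- inclusion of unit groups of intermediate fields -/
noncomputable def unitsInclusion : Eˣ →* Fˣ :=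
  Units.map ((IntermediateField.inclusion h : E →ₐ[k] F) : E →+* F).toMonoidHom

lemma coe_unitsInclusion (x : Eˣ) : (((unitsInclusion h x : Fˣ) : F) : Ω) = ((x : E) : Ω) := rfl

lemma unitsInclusion_injective : Function.Injective (unitsInclusion h) := by
  intro x y hxy
  apply Units.ext
  apply Subtype.ext
  rw [← coe_unitsInclusion h, ← coe_unitsInclusion h, hxy]

lemma exists_unitsInclusion_eq (y : Fˣ) (hy : ((y : F) : Ω) ∈ E) : ∃ x : Eˣ, unitsInclusion h x = y := by
  have h0 : (⟨_, hy⟩ : E) ≠ 0 := by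
    intro h1
    have h2 := congrArg Subtype.val h1
    exact y.ne_zero (Subtype.ext h2)
  refine ⟨Units.mk0 _ h0, ?_⟩
  apply Units.ext
  apply Subtype.ext
  rw [coe_unitsInclusion]
  rfl

end Generic

section Transport

variable (K : IntermediateField ℚ Qbar) [NumberField K]

lemma ratPrime_eq_of_natCast_mem (v : HeightOneSpectrum (𝓞 K)) (q : Nat.Primes)
    (h : ((q : ℕ) : 𝓞 K) ∈ v.asIdeal) : ratPrime K v = q :=
  Subtype.ext (eq_of_natCast_mem v (ratPrime K v).2 q.2 (natCast_ratPrime_mem K v) h)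

lemma primeAt_sigmaAt_of_eq (v : HeightOneSpectrum (𝓞 K)) (q : Nat.Primes)
    (hq : ratPrime K v = q) : primeAt (q : ℕ) K (sigmaAt K v) = v := by
  subst hq
  exact primeAt_sigmaAt K v

lemma ratPrime_mem_of_mem_primesOver {T : Finset Nat.Primes} {v : HeightOneSpectrum (𝓞 K)}
    (hv : v ∈ primesOver K T) : ratPrime K v ∈ T := by
  obtain ⟨q, hq, hqv⟩ := mem_primesOver.mp hv
  rw [ratPrime_eq_of_natCast_mem K v q hqv]
  exact hq

end Transport

section PlaceSystem

variable (L : IntermediateField ℚ Qbar) [NumberField L] [Normal ℚ L] (T : Finset Nat.Primes)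
  (H : Subgroup (L ≃ₐ[ℚ] L)) [NumberField (fixedLift L H)]

/-- the local Galois groups `Gal(L_q/ℚ_q)`, `q ∈ T` -/
abbrev DT (q : ↥T) : Type :=
  localField ((q : Nat.Primes) : ℕ) L ≃ₐ[ℚ_[((q : Nat.Primes) : ℕ)]] localField ((q : Nat.Primes) : ℕ) L

/-- the local unit groups `L_qˣ`, `q ∈ T` -/
abbrev ΩT (q : ↥T) : Type := (localField ((q : Nat.Primes) : ℕ) L)ˣ

/-- `resLoc`, `q ∈ T` -/
noncomputable abbrev φT (q : ↥T) : DT L T q →* (L ≃ₐ[ℚ] L) := resLoc ((q : Nat.Primes) : ℕ) L

/-- the rational prime (as an element of `T`) below a prime of `K = L^H` over `T` -/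
noncomputable abbrev qOf (v : ↥(primesOver (fixedLift L H) T)) : ↥T :=
  ⟨ratPrime (fixedLift L H) v.1, ratPrime_mem_of_mem_primesOver (fixedLift L H) v.2⟩

/-- the representative `σ_v|_L` of the double coset of `v` -/
noncomputable abbrev gOf (v : ↥(primesOver (fixedLift L H) T)) : L ≃ₐ[ℚ] L :=
  resΓ L (sigmaAt (fixedLift L H) v.1)

lemma cov_aux (v : HeightOneSpectrum (𝓞 (fixedLift L H))) (q : Nat.Primes)
    (hq : ratPrime (fixedLift L H) v = q) (σ : Γ) (hσ : primeAt (q : ℕ) (fixedLift L H) σ = v) :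
    ∃ d : localField ((ratPrime (fixedLift L H) v : Nat.Primes) : ℕ) L ≃ₐ[ℚ_[((ratPrime (fixedLift L H) v : Nat.Primes) : ℕ)]]
        localField ((ratPrime (fixedLift L H) v : Nat.Primes) : ℕ) L,
      ∃ η ∈ H, resΓ L σ =
        resLoc ((ratPrime (fixedLift L H) v : Nat.Primes) : ℕ) L d *
          resΓ L (sigmaAt (fixedLift L H) v) * η := by
  subst hq
  have h1 : SamePlace ((ratPrime (fixedLift L H) v : Nat.Primes) : ℕ) (fixedLift L H)
      (sigmaAt (fixedLift L H) v) σ := by
    rw [← primeAt_eq_iff, primeAt_sigmaAt, hσ]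
  rw [samePlace_iff_mk_eq, DoubleCoset.eq] at h1
  obtain ⟨_, ⟨d, rfl⟩, η, hη, he⟩ := h1
  exact ⟨d, η, hη, he⟩

theorem isPlaceSys_primesOver :
    IsPlaceSys (ι := ↥T) (D := DT L T) (φT L T) H (qOf L T H) (gOf L T H) where
  cov := by
    intro q g
    have hv : primeAt ((q : Nat.Primes) : ℕ) (fixedLift L H) (liftΓ L g) ∈
        primesOver (fixedLift L H) T := (primeAt_mem_primesOver_iff (q : Nat.Primes) _).mpr q.2
    have hq : ratPrime (fixedLift L H)
        (primeAt ((q : Nat.Primes) : ℕ) (fixedLift L H) (liftΓ L g)) = (q : Nat.Primes) :=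
      ratPrime_eq_of_natCast_mem _ _ _ (natCast_mem_primeAt _ _ _)
    refine ⟨⟨_, hv⟩, Subtype.ext hq, ?_⟩
    obtain ⟨d, η, hη, he⟩ := cov_aux L H _ (q : Nat.Primes) hq (liftΓ L g) rfl
    rw [resΓ_liftΓ] at he
    exact ⟨d, η, hη, he⟩
  disj := by
    intro v v' hqq hd
    obtain ⟨d, η, hη, he⟩ := hd
    have hq : ratPrime (fixedLift L H) v'.1 = ratPrime (fixedLift L H) v.1 :=
      (congrArg Subtype.val hqq).symm
    have h1 : SamePlace ((ratPrime (fixedLift L H) v.1 : Nat.Primes) : ℕ) (fixedLift L H)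
        (sigmaAt (fixedLift L H) v.1) (sigmaAt (fixedLift L H) v'.1) := by
      rw [samePlace_iff_mk_eq, DoubleCoset.eq]
      exact ⟨_, ⟨d, rfl⟩, η, hη, he⟩
    rw [← primeAt_eq_iff, primeAt_sigmaAt, primeAt_sigmaAt_of_eq _ _ _ hq] at h1
    exact Subtype.ext h1

/-- `K_v ≤ L_q` -/
lemma completionAt_le (v : ↥(primesOver (fixedLift L H) T)) :
    completionAt (fixedLift L H) v.1 ≤ localField ((qOf L T H v : Nat.Primes) : ℕ) L :=
  localFieldAt_fixedLift_le _ H (sigmaAt (fixedLift L H) v.1)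

lemma kappa_mem (v : ↥(primesOver (fixedLift L H) T)) (x : (completionAt (fixedLift L H) v.1)ˣ) :
    unitsInclusion (completionAt_le L T H v) x ∈
      fixedSub (X := (localField ((qOf L T H v : Nat.Primes) : ℕ) L)ˣ)
        (deltaAt (resLoc ((qOf L T H v : Nat.Primes) : ℕ) L) H (gOf L T H v)) := by
  rw [mem_fixedSub_deltaAt_iff, coe_unitsInclusion]
  exact (x : completionAt (fixedLift L H) v.1).2

/-- `K_vˣ → (L_qˣ)^{Δ_v}` -/
noncomputable def kappa (v : ↥(primesOver (fixedLift L H) T)) :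
    (completionAt (fixedLift L H) v.1)ˣ →*
      fixedSub (X := (localField ((qOf L T H v : Nat.Primes) : ℕ) L)ˣ)
        (deltaAt (resLoc ((qOf L T H v : Nat.Primes) : ℕ) L) H (gOf L T H v)) where
  toFun x := ⟨unitsInclusion (completionAt_le L T H v) x, kappa_mem L T H v x⟩
  map_one' := by
    apply Subtype.ext
    exact map_one _
  map_mul' x y := by
    apply Subtype.ext
    exact map_mul _ x y

lemma coe_kappa (v : ↥(primesOver (fixedLift L H) T)) (x : (completionAt (fixedLift L H) v.1)ˣ) :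
    ((kappa L T H v x : fixedSub (X := (localField ((qOf L T H v : Nat.Primes) : ℕ) L)ˣ) _) :
      (localField ((qOf L T H v : Nat.Primes) : ℕ) L)ˣ) =
      unitsInclusion (completionAt_le L T H v) x := rfl

lemma kappa_bijective (v : ↥(primesOver (fixedLift L H) T)) :
    Function.Bijective (kappa L T H v) := by
  constructor
  · intro x y h
    exact unitsInclusion_injective (completionAt_le L T H v) (congrArg Subtype.val h)
  · intro y
    have hy := (mem_fixedSub_deltaAt_iff ((qOf L T H v : Nat.Primes) : ℕ) H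
      (sigmaAt (fixedLift L H) v.1) y.1).1 y.2
    obtain ⟨x, hx⟩ := exists_unitsInclusion_eq (completionAt_le L T H v) y.1 hy
    refine ⟨x, ?_⟩
    apply Subtype.ext
    rw [coe_kappa, hx]

/-- the product of the `kappa v` -/
noncomputable def kappaPi :
    (∀ v : ↥(primesOver (fixedLift L H) T), (completionAt (fixedLift L H) v.1)ˣ) →*
      (∀ v : ↥(primesOver (fixedLift L H) T),
        fixedSub (X := ΩT L T (qOf L T H v))
          (deltaAt (φT L T (qOf L T H v)) H (gOf L T H v))) :=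
  MonoidHom.pi (fun v => (kappa L T H v).comp (Pi.evalMonoidHom _ v))

lemma kappaPi_apply (x : ∀ v : ↥(primesOver (fixedLift L H) T), (completionAt (fixedLift L H) v.1)ˣ)
    (v : ↥(primesOver (fixedLift L H) T)) : kappaPi L T H x v = kappa L T H v (x v) := rfl

lemma kappaPi_bijective : Function.Bijective (kappaPi L T H) := by
  constructor
  · intro x y h
    funext v
    exact (kappa_bijective L T H v).1 (congrFun h v)
  · intro y
    choose x hx using fun v => (kappa_bijective L T H v).2 (y v)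
    exact ⟨x, funext hx⟩

/-- **The idèle of `L` attached to a family of local units of `K = L^H`**:
`∏_{v ∈ primesOver K T} K_vˣ → J_{L,T}` (with image the `H`-invariants). -/
noncomputable def jHom :
    (∀ v : ↥(primesOver (fixedLift L H) T), (completionAt (fixedLift L H) v.1)ˣ) →*
      (∀ q : ↥T, coindFun (Ω := ΩT L T q) (φT L T q)) :=
  (liftHom (Ω := ΩT L T) (isPlaceSys_primesOver L T H)).comp (kappaPi L T H)

lemma jHom_eq (x : ∀ v : ↥(primesOver (fixedLift L H) T), (completionAt (fixedLift L H) v.1)ˣ) :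
    jHom L T H x = liftHom (Ω := ΩT L T) (isPlaceSys_primesOver L T H) (kappaPi L T H x) := rfl

lemma jHom_mem (x : ∀ v : ↥(primesOver (fixedLift L H) T), (completionAt (fixedLift L H) v.1)ˣ)
    (q : ↥T) : jHom L T H x q ∈ coindInv (φT L T q) H := by
  exact liftHom_mem (Ω := ΩT L T) (isPlaceSys_primesOver L T H) (kappaPi L T H x) q

lemma jHom_apply (x : ∀ v : ↥(primesOver (fixedLift L H) T), (completionAt (fixedLift L H) v.1)ˣ)
    (v : ↥(primesOver (fixedLift L H) T)) :
    (jHom L T H x (qOf L T H v)).1 (gOf L T H v) =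
      unitsInclusion (completionAt_le L T H v) (x v) := by
  have h := liftHom_apply (Ω := ΩT L T) (isPlaceSys_primesOver L T H) (kappaPi L T H x) v
  rw [kappaPi_apply, coe_kappa] at h
  exact (congrArg (fun f : ∀ q : ↥T, coindFun (Ω := ΩT L T q) (φT L T q) =>
    (f (qOf L T H v)).1 (gOf L T H v)) (jHom_eq L T H x)).trans h

lemma jHom_injective : Function.Injective (jHom L T H) :=
  (liftHom_injective (Ω := ΩT L T) (isPlaceSys_primesOver L T H)).comp (kappaPi_bijective L T H).1

lemma exists_jHom_eq (f : ∀ q : ↥T, coindFun (Ω := ΩT L T q) (φT L T q))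
    (hf : ∀ q : ↥T, f q ∈ coindInv (φT L T q) H) :
    ∃ x, jHom L T H x = f := by
  obtain ⟨y, hy⟩ := exists_liftHom_eq (Ω := ΩT L T) (isPlaceSys_primesOver L T H) f hf
  obtain ⟨x, rfl⟩ := (kappaPi_bijective L T H).2 y
  exact ⟨x, hy⟩

/-! ### The diagonal -/

lemma diagAt_mem_coindInv (q : ↥T) (u : (fixedLift L H)ˣ) :
    diagAt ((q : Nat.Primes) : ℕ) L (unitsInclusion (fixedLift_le L H) u) ∈
      coindInv (φT L T q) H := by
  rw [mem_coindInv]
  intro η hη g
  apply Units.ext
  rw [coe_diagAt_apply, coe_diagAt_apply, AlgEquiv.mul_apply]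
  congr 2
  refine (coe_mem_fixedLift_iff _).1 ?_ η hη
  rw [coe_unitsInclusion]
  exact (u : fixedLift L H).2

lemma coe_inclusion_loc (v : ↥(primesOver (fixedLift L H) T)) (u : (fixedLift L H)ˣ) :
    (((unitsInclusion (completionAt_le L T H v) (Units.map
      (locAt (fixedLift L H) v.1 : fixedLift L H →* completionAt (fixedLift L H) v.1) u) :
        (localField ((qOf L T H v : Nat.Primes) : ℕ) L)ˣ) :
          localField ((qOf L T H v : Nat.Primes) : ℕ) L) :
            PadicAlgCl ((qOf L T H v : Nat.Primes) : ℕ)) =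
      padicEmbedding ((qOf L T H v : Nat.Primes) : ℕ)
        (sigmaAt (fixedLift L H) v.1 (((u : (fixedLift L H)ˣ) : fixedLift L H) : Qbar)) :=
  (coe_unitsInclusion (completionAt_le L T H v) _).trans rfl

lemma coe_diagAt_gOf (v : ↥(primesOver (fixedLift L H) T)) (u' : (↥L)ˣ) :
    ((((diagAt ((qOf L T H v : Nat.Primes) : ℕ) L u').1 (gOf L T H v) :
        (localField ((qOf L T H v : Nat.Primes) : ℕ) L)ˣ) :
          localField ((qOf L T H v : Nat.Primes) : ℕ) L) :
            PadicAlgCl ((qOf L T H v : Nat.Primes) : ℕ)) =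
      padicEmbedding ((qOf L T H v : Nat.Primes) : ℕ)
        (sigmaAt (fixedLift L H) v.1 (((u' : (↥L)ˣ) : L) : Qbar)) := by
  rw [coe_diagAt_apply, coe_emb, coe_resΓ]

/-- **`j` of the diagonal image of `u ∈ Kˣ` is the diagonal idèle of `u`.** -/
theorem jHom_diag (u : (fixedLift L H)ˣ) :
    jHom L T H (fun v => Units.map
      (locAt (fixedLift L H) v.1 : fixedLift L H →* completionAt (fixedLift L H) v.1) u) =
      fun q : ↥T => diagAt ((q : Nat.Primes) : ℕ) L (unitsInclusion (fixedLift_le L H) u) := by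
  refine (isPlaceSys_primesOver L T H).ext (Ω := ΩT L T) (jHom_mem L T H _)
    (fun q => diagAt_mem_coindInv L T H q u) (fun v => ?_)
  refine (jHom_apply L T H _ v).trans ?_
  apply Units.ext
  apply Subtype.ext
  refine (coe_inclusion_loc L T H v u).trans ?_
  refine Eq.trans ?_ (coe_diagAt_gOf L T H v _).symm
  rw [coe_unitsInclusion]

/-- the `S`-units of `K = L^H` (`S` = primes over `T`) are the `T`-units of `L` lying in `K` -/
theorem mem_sUnits_iff_mem_tUnits (u : (fixedLift L H)ˣ) :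
    u ∈ sUnits (fixedLift L H) (primesOver (fixedLift L H) T) ↔
      unitsInclusion (fixedLift_le L H) u ∈ tUnits L T := by
  have h1 : u ∈ sUnits (fixedLift L H) (primesOver (fixedLift L H) T) ↔
      u ∈ Fermat.Agent.S55.SUnit.TUnit (fixedLift L H) (primesOver (fixedLift L H) T) := Iff.rfl
  rw [h1, mem_TUnit_primesOver_iff, mem_tUnits]
  refine forall_congr' fun q => forall_congr' fun _ => ?_
  rw [isUnitAt_iff_forall_absAt, coe_unitsInclusion]

/-! ### Local norms are global norms -/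

/-- **Families of local norms from `K_v(β_v)` are relative norms from `J^{N'}`.** -/
theorem exists_jHom_eq_relNorm (N' : Subgroup (L ≃ₐ[ℚ] L)) (hN'H : N' ≤ H)
    [Finite (H ⧸ N'.subgroupOf H)] (b : Qbar) (hM : fixedLift L N' = fixedLift L H ⊔ ℚ⟮b⟯)
    (x : ∀ v : ↥(primesOver (fixedLift L H) T), (completionAt (fixedLift L H) v.1)ˣ)
    (hx : ∀ v : ↥(primesOver (fixedLift L H) T), x v ∈ normGroup (completionAt (fixedLift L H) v.1)
      (padicEmbedding ((ratPrime (fixedLift L H) v.1 : Nat.Primes) : ℕ)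
        (sigmaAt (fixedLift L H) v.1 b))) :
    ∃ f' : ∀ q : ↥T, coindFun (Ω := ΩT L T q) (φT L T q),
      (∀ q : ↥T, f' q ∈ coindInv (φT L T q) N') ∧
      ∀ q : ↥T, jHom L T H x q =
        relNorm (X := coindFun (Ω := ΩT L T q) (φT L T q)) H N' (f' q) := by
  refine (isPlaceSys_primesOver L T H).exists_relNorm_eq (Ω := ΩT L T) N' hN'H
    (jHom L T H x) (jHom_mem L T H x) (fun v => ?_)
  have h := exists_relNorm_eq_of_mem_normGroup ((qOf L T H v : Nat.Primes) : ℕ) H N' hN'H b hM
    (sigmaAt (fixedLift L H) v.1) (x v) (hx v) (unitsInclusion (completionAt_le L T H v) (x v))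
    (coe_unitsInclusion _ _)
  obtain ⟨z, hz, he⟩ := h
  exact ⟨z, hz, (jHom_apply L T H x v).trans he⟩

end PlaceSystem

end Fermat.Agent.S55.GL.SecondIneq
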