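/-
S55 / GLO7 (helper21): **the comparison hypothesis `HdvdHyp` is a theorem.**

For a cyclic layer `N ◁ H ≤ Gal(L/ℚ)` of index `p` with `K = L^H`, `L^N = K(pRoot p b)` we build
the map `jLayer : ∏_{v ∈ primesOver K T} K_vˣ → (J_{L,T})^N` (from `IdeleModel.jHom`), show that it
is injective with range the `H/N`-invariants, that it maps `diag(S-units of K)` onto
`E^N ∩ (J^N)^{H/N}` (`map_jLayer_diag`) and the product of the local norm groups `N_v(b)` into the
norm group of the layer (`map_jLayer_norm`, via `NormCompare`/`CoindPlaces`), and feed this into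
helper29's `layer_hIdx_dvd_index'`.  Result: `normIndexDvd_fixedLift`, `hdvdHyp`, and the
unconditional forms of the GLO8 finals of `SecondIneqFinal`
(`exists_secondIneqHyp_final`, `exists_finset_layerHyp_C_final`, `exists_finset_pgroup_C_final`,
`hasse_units_pPrimary_final`).
-/
import Mathlib
import Fermat.Agent.S55.GL.SecondIneq.IdeleModel
import Fermat.Agent.S55.GL.LayerRelNorm
import Fermat.Agent.S55.GL.SecondIneqFinal

set_option autoImplicit false
set_option linter.unusedSectionVars false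

namespace Fermat.Agent.S55.GL.SecondIneq

open IntermediateField NumberField IsDedekindDomain CategoryTheory
open Fermat.Agent.S14.Herbrand
open Fermat.Agent.S55.LocalDict Fermat.Agent.S55.GL.LocalFieldAt Fermat.Agent.S55.GL.CoindFun
  Fermat.Agent.S55.GL.CoindInv Fermat.Agent.S55.GL.Places Fermat.Agent.S55.GL.IdelePlaces
  Fermat.Agent.S55.GL.PlacesDVR Fermat.Agent.S55.GL.PlacesUnits Fermat.Agent.S55.GL.Ideles
  Fermat.Agent.S55.GL.IdeleInvHerbrand Fermat.Agent.S55.GL.LayerQuotIndex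
  Fermat.Agent.S55.GL.LayerRelNorm Fermat.Agent.S55.GL.CF1 Fermat.Agent.S55.GC.HerbrandBridge

local notation "Qbar" => AlgebraicClosure ℚ
local notation "Γ" => (AlgebraicClosure ℚ ≃ₐ[ℚ] AlgebraicClosure ℚ)

/-- primes as `Fact`s -/
local instance factPrime_hf (q : Nat.Primes) : Fact (q : ℕ).Prime := ⟨q.2⟩

variable (L : IntermediateField ℚ Qbar) [NumberField L] [Normal ℚ L] [IsGalois ℚ L]
  (T : Finset Nat.Primes) (H : Subgroup (L ≃ₐ[ℚ] L)) (N : Subgroup H) [N.Normal]
  [NumberField (fixedLift L H)]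

/-- `jHom` with values in `Idele L T` -/
noncomputable def jIdele :
    (∀ v : ↥(primesOver (fixedLift L H) T), (completionAt (fixedLift L H) v.1)ˣ) →* Idele L T :=
  jHom L T H

lemma jIdele_smul (x : ∀ v : ↥(primesOver (fixedLift L H) T), (completionAt (fixedLift L H) v.1)ˣ)
    (g : L ≃ₐ[ℚ] L) (hg : g ∈ H) : g • jIdele L T H x = jIdele L T H x := by
  funext q
  exact (mem_coindInv_iff_smul.1 (jHom_mem L T H x q)) g hg

/-- the map `j : ∏_{v ∈ primesOver K T} K_vˣ → J_{L,T}^N` -/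
noncomputable def jLayer :
    Additive (∀ v : ↥(primesOver (fixedLift L H) T), (completionAt (fixedLift L H) v.1)ˣ) →+
      (layerSC (seq L T) H N).X₂ where
  toFun x := mkX₂ L T H N (jIdele L T H (Additive.toMul x))
    (fun ν _ => jIdele_smul L T H _ _ ν.2)
  map_zero' := by
    apply ideleOf_injective
    exact (ideleOf_mkX₂ L T H N _ _).trans ((map_one (jIdele L T H)).trans
      (ideleOf_zero L T H N).symm)
  map_add' x y := by
    apply ideleOf_injective
    refine (ideleOf_mkX₂ L T H N _ _).trans ?_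
    refine Eq.trans ?_ (ideleOf_add L T H N _ _).symm
    exact map_mul (jIdele L T H) (Additive.toMul x) (Additive.toMul y)

lemma ideleOf_jLayer
    (x : Additive (∀ v : ↥(primesOver (fixedLift L H) T), (completionAt (fixedLift L H) v.1)ˣ)) :
    ideleOf L T H N (jLayer L T H N x) = jIdele L T H (Additive.toMul x) := rfl

lemma jLayer_injective : Function.Injective (jLayer L T H N) := by
  intro x y h
  have h1 := congrArg (ideleOf L T H N) h
  have h2 : jIdele L T H (Additive.toMul x) = jIdele L T H (Additive.toMul y) :=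
    (ideleOf_jLayer L T H N x).symm.trans (h1.trans (ideleOf_jLayer L T H N y))
  exact jHom_injective L T H h2

lemma range_jLayer (h : H) {n : ℕ} (hn0 : 0 < n) (hidx : N.index = n)
    (hn : ∀ i : ℕ, h ^ i ∈ N ↔ n ∣ i) :
    (jLayer L T H N).range =
      (dlt (sigma (layerSC (seq L T) H N).X₂ (QuotientGroup.mk h))).ker := by
  ext m
  rw [mem_ker_dlt_iff' L T H N h hn0 hidx hn]
  constructor
  · rintro ⟨x, rfl⟩ g hg
    exact jIdele_smul L T H _ g hg
  · intro hm
    obtain ⟨x, hx⟩ := exists_jHom_eq L T H (ideleOf L T H N m)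
      (comp_mem_coindInv L T H (ideleOf L T H N m) hm)
    refine ⟨Additive.ofMul x, ?_⟩
    apply ideleOf_injective
    exact (ideleOf_jLayer L T H N _).trans hx

/-- the diagonal family of `u ∈ Kˣ` -/
noncomputable def locFamily (u : (fixedLift L H)ˣ) :
    ∀ v : ↥(primesOver (fixedLift L H) T), (completionAt (fixedLift L H) v.1)ˣ :=
  fun v => Units.map (locAt (fixedLift L H) v.1 :
    fixedLift L H →* completionAt (fixedLift L H) v.1) u

lemma ideleOf_jLayer_locFamily (u : (fixedLift L H)ˣ) :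
    ideleOf L T H N (jLayer L T H N (Additive.ofMul (locFamily L T H u))) =
      diag L T (unitsInclusion (fixedLift_le L H) u) :=
  (ideleOf_jLayer L T H N _).trans (jHom_diag L T H u)

lemma smul_unitsInclusion (u : (fixedLift L H)ˣ) (g : L ≃ₐ[ℚ] L) (hg : g ∈ H) :
    g • unitsInclusion (fixedLift_le L H) u = unitsInclusion (fixedLift_le L H) u := by
  apply Units.ext
  refine (coe_mem_fixedLift_iff _).1 ?_ g hg
  rw [coe_unitsInclusion]
  exact (u : fixedLift L H).2

lemma jLayer_locFamily_mem_range_f (u : (fixedLift L H)ˣ)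
    (hu : u ∈ sUnits (fixedLift L H) (primesOver (fixedLift L H) T)) :
    jLayer L T H N (Additive.ofMul (locFamily L T H u)) ∈
      ((layerSC (seq L T) H N).f.hom.toLinearMap.toAddMonoidHom).range :=
  (mem_range_f_iff L T H N _).2 ⟨unitsInclusion (fixedLift_le L H) u,
    (mem_sUnits_iff_mem_tUnits L T H u).1 hu,
    fun ν _ => smul_unitsInclusion L H u (ν : L ≃ₐ[ℚ] L) ν.2,
    ideleOf_jLayer_locFamily L T H N u⟩

set_option maxHeartbeats 1600000 in
lemma exists_locFamily_of_mem (hT : T.Nonempty)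
    (m : (layerSC (seq L T) H N).X₂)
    (hmf : m ∈ ((layerSC (seq L T) H N).f.hom.toLinearMap.toAddMonoidHom).range)
    (hH : ∀ g : L ≃ₐ[ℚ] L, g ∈ H → g • ideleOf L T H N m = ideleOf L T H N m) :
    ∃ u : (fixedLift L H)ˣ, u ∈ sUnits (fixedLift L H) (primesOver (fixedLift L H) T) ∧
      jLayer L T H N (Additive.ofMul (locFamily L T H u)) = m := by
  obtain ⟨u₀, hu₀T, -, hdiag⟩ := (mem_range_f_iff L T H N m).1 hmf
  have hfix : ∀ g : L ≃ₐ[ℚ] L, g ∈ H → g • u₀ = u₀ := by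
    intro g hg
    apply diag_injective L T hT
    exact (diag_smul L T g u₀).trans ((congrArg (g • ·) hdiag.symm).trans
      ((hH g hg).trans hdiag))
  have hmem : (((u₀ : (↥L)ˣ) : L) : Qbar) ∈ fixedLift L H :=
    (coe_mem_fixedLift_iff _).2 (fun s hs => congrArg Units.val (hfix s hs))
  obtain ⟨u, hu⟩ := exists_unitsInclusion_eq (fixedLift_le L H) u₀ hmem
  have huT : unitsInclusion (fixedLift_le L H) u ∈ tUnits L T := hu.symm ▸ hu₀T
  have huS : u ∈ sUnits (fixedLift L H) (primesOver (fixedLift L H) T) :=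
    (mem_sUnits_iff_mem_tUnits L T H u).2 huT
  refine ⟨u, huS, ?_⟩
  apply ideleOf_injective
  exact (ideleOf_jLayer_locFamily L T H N u).trans
    ((congrArg (diag L T) hu).trans hdiag.symm)

set_option maxHeartbeats 1600000 in
/-- (hP) `j(diag(S-units of K)) = E^N ∩ (J^N)^{H/N}` -/
lemma map_jLayer_diag (hT : T.Nonempty) (h : H) {n : ℕ} (hn0 : 0 < n) (hidx : N.index = n)
    (hn : ∀ i : ℕ, h ^ i ∈ N ↔ n ∣ i) :
    ((diagHom (G := fun v => (completionAt (fixedLift L H) v)ˣ)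
        (fun v => Units.map (locAt (fixedLift L H) v :
          fixedLift L H →* completionAt (fixedLift L H) v))
        (primesOver (fixedLift L H) T)).range).toAddSubgroup.map (jLayer L T H N) =
      ((layerSC (seq L T) H N).f.hom.toLinearMap.toAddMonoidHom).range ⊓
        (dlt (sigma (layerSC (seq L T) H N).X₂ (QuotientGroup.mk h))).ker := by
  have hr := range_jLayer L T H N h hn0 hidx hn
  ext m
  constructor
  · rintro ⟨x, ⟨u, hu⟩, rfl⟩
    have hux : x = Additive.ofMul (locFamily L T H (u : (fixedLift L H)ˣ)) := hu.symm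
    refine AddSubgroup.mem_inf.2 ⟨?_, ?_⟩
    · rw [hux]
      exact jLayer_locFamily_mem_range_f L T H N u.1 u.2
    · exact (SetLike.ext_iff.1 hr _).1 ⟨x, rfl⟩
  · intro hm
    obtain ⟨hmf, hmk⟩ := AddSubgroup.mem_inf.1 hm
    have hH := (mem_ker_dlt_iff' L T H N h hn0 hidx hn m).1 hmk
    obtain ⟨u, huS, hu⟩ := exists_locFamily_of_mem L T H N hT m hmf hH
    exact ⟨Additive.ofMul (locFamily L T H u), ⟨⟨u, huS⟩, rfl⟩, hu⟩

set_option maxHeartbeats 1600000 in
/-- (hN) `j(∏_v N_v) ⊆ N_{H/N}(J^N)`: local norms are norms of the layer -/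
lemma map_jLayer_norm {p : ℕ} (b : (fixedLift L H)ˣ)
    (hM : fixedLift L (subG H N) =
      fixedLift L H ⊔ ℚ⟮pRoot p (((b : (fixedLift L H)ˣ) : fixedLift L H) : Qbar)⟯)
    (h : H) (hn0 : 0 < p) (hidx : N.index = p) (hn : ∀ i : ℕ, h ^ i ∈ N ↔ p ∣ i) :
    (Subgroup.pi Set.univ (fun v : ↥(primesOver (fixedLift L H) T) =>
        normGroup (completionAt (fixedLift L H) v)
          (betaAt (fixedLift L H) p b v))).toAddSubgroup.map (jLayer L T H N) ≤
      (nrm (sigma (layerSC (seq L T) H N).X₂ (QuotientGroup.mk h)) p).range := by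
  rintro _ ⟨y, hy, rfl⟩
  have hNH : subG H N ≤ H := by
    rintro _ ⟨ν, -, rfl⟩
    exact ν.2
  have hfin : Finite (H ⧸ (subG H N).subgroupOf H) := inferInstance
  obtain ⟨F', hF', hx⟩ := exists_jHom_eq_relNorm L T H (subG H N) hNH
    (pRoot p (((b : (fixedLift L H)ˣ) : fixedLift L H) : Qbar)) hM (Additive.toMul y)
    (fun v => hy v (Set.mem_univ v))
  exact mem_range_nrm_of_relNorm L T H N h hn0 hidx hn (jLayer L T H N y) F'
    (fun ν hν => funext fun q => (mem_coindInv_iff_smul.1 (hF' q)) (ν : L ≃ₐ[ℚ] L)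
      (coe_mem_subG hν)) (fun q => hx q)

open Fermat.Agent.S55.GL.FirstIneqKummer Fermat.Agent.S55.GL.SecondIneqFinal in
/-- **The comparison `NormIndexDvd`** for `K = L^H`. -/
theorem normIndexDvd_fixedLift {p : ℕ} (b : (fixedLift L H)ˣ)
    (hM : fixedLift L (subG H N) =
      fixedLift L H ⊔ ℚ⟮pRoot p (((b : (fixedLift L H)ˣ) : fixedLift L H) : Qbar)⟯)
    (h : H) (hn0 : 0 < p) (hidx : N.index = p) (hn : ∀ i : ℕ, h ^ i ∈ N ↔ p ∣ i)
    (hT : T.Nonempty)
    (hall : ∀ N' : Subgroup (L ≃ₐ[ℚ] L),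
      Limits.IsZero (groupCohomology (Rep.res N'.subtype (E L T)) 1)) :
    NormIndexDvd (fixedLift L H) p b L H N h T := by
  unfold NormIndexDvd
  exact layer_hIdx_dvd_index' L T H N hT h hn0 hidx hn hall (jLayer L T H N)
    (jLayer_injective L T H N) (range_jLayer L T H N h hn0 hidx hn) _ _
    (map_jLayer_diag L T H N hT h hn0 hidx hn) (map_jLayer_norm L T H N b hM h hn0 hidx hn)

open Fermat.Agent.S55.GL.FirstIneqKummer Fermat.Agent.S55.GL.SecondIneqFinal in
/-- **`HdvdHyp p` holds**: the Herbrand index `h⁰(H/N, C_{L,T}^N)` divides the index of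
`diag(S-units) · ∏ N_v(b)` in `∏_{v ∈ S} K_vˣ` — the last input of the second inequality chain
(`SecondIneqFinal.exists_secondIneqHyp`, `exists_finset_pgroup_C_of_hdvd`,
`hasse_units_pPrimary_of_hdvd`). -/
theorem hdvdHyp (p : ℕ) : HdvdHyp p := by
  intro K _ b L _ _ _ H N _ h hK hM hidx hn
  subst hK
  have hn0 : 0 < p := by
    rw [← hidx]
    exact Nat.pos_of_ne_zero Subgroup.index_ne_zero_of_finite
  exact ⟨∅, fun T _ hT hall => normIndexDvd_fixedLift L T H N b hM h hn0 hidx hn hT hall⟩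

section finals

open Fermat.Agent.S55.GL.FirstIneqKummer Fermat.Agent.S55.GL.SecondIneqFinal
open groupCohomology Rep Fermat.Agent.S55.GC

variable (L : IntermediateField ℚ Qbar) [NumberField L] [Normal ℚ L] [IsGalois ℚ L]

/-- **`SecondIneqHyp` for `T` large**, unconditional (`p` odd, `ζ_p ∈ L^{G₀}`). -/
theorem exists_secondIneqHyp_final {p : ℕ} [hp : Fact p.Prime] (hp2 : p ≠ 2)
    (G₀ : Subgroup (L ≃ₐ[ℚ] L)) {ζ : L} (hζ : IsPrimitiveRoot ζ p)
    (hζG : (ζ : Qbar) ∈ fixedLift L G₀) :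
    ∃ T₃ : Finset Nat.Primes, ∀ T : Finset Nat.Primes, T₃ ⊆ T →
      CFFinal.SecondIneqHyp L p G₀ T :=
  exists_secondIneqHyp L hp2 (hdvdHyp p) G₀ hζ hζG

/-- **GLO8-FINAL, unconditional**: for `T` large, `C_{L,T}` satisfies the cyclic layer hypothesis
at `p` over `G₀` (`p` odd, `ζ_p ∈ L^{G₀}`). -/
theorem exists_finset_layerHyp_C_final {p : ℕ} [hp : Fact p.Prime] (hp2 : p ≠ 2)
    (G₀ : Subgroup (L ≃ₐ[ℚ] L)) {ζ : L} (hζ : IsPrimitiveRoot ζ p)
    (hζG : (ζ : Qbar) ∈ fixedLift L G₀) (T₁ : Finset Nat.Primes) :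
    ∃ T₀ : Finset Nat.Primes, T₁ ⊆ T₀ ∧ ∀ T : Finset Nat.Primes, T₀ ⊆ T →
      T.Nonempty ∧ LayerHyp p (Rep.res G₀.subtype (C L T)) :=
  exists_finset_layerHyp_C_of_hdvd L hp2 (hdvdHyp p) G₀ hζ hζG T₁

/-- **CF1 for `p`-subgroups of `G₀`, unconditional** (`p` odd, `ζ_p ∈ L^{G₀}`). -/
theorem exists_finset_pgroup_C_final {p : ℕ} [hp : Fact p.Prime] (hp2 : p ≠ 2)
    (G₀ : Subgroup (L ≃ₐ[ℚ] L)) {ζ : L} (hζ : IsPrimitiveRoot ζ p)
    (hζG : (ζ : Qbar) ∈ fixedLift L G₀) (T₁ : Finset Nat.Primes) :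
    ∃ T₀ : Finset Nat.Primes, T₁ ⊆ T₀ ∧ ∀ T : Finset Nat.Primes, T₀ ⊆ T →
      T.Nonempty ∧ ∀ (H : Subgroup (L ≃ₐ[ℚ] L)), H ≤ G₀ → ∀ n : ℕ, Nat.card H = p ^ n →
        Limits.IsZero (groupCohomology (Rep.res H.subtype (C L T)) 1) ∧
        Finite (groupCohomology (Rep.res H.subtype (C L T)) 2) ∧
        Nat.card (groupCohomology (Rep.res H.subtype (C L T)) 2) ∣ Nat.card H :=
  exists_finset_pgroup_C_of_hdvd L hp2 (hdvdHyp p) G₀ hζ hζG T₁

/-- **Hasse principle for `H²(H, Lˣ)`, `p`-part, finite level, unconditional**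
(`p` odd, `ζ_p ∈ L^{G₀}`, `H ≤ G₀`). -/
theorem hasse_units_pPrimary_final {p : ℕ} [hp : Fact p.Prime] (hp2 : p ≠ 2)
    (G₀ : Subgroup (L ≃ₐ[ℚ] L)) {ζ : L} (hζ : IsPrimitiveRoot ζ p)
    (hζG : (ζ : Qbar) ∈ fixedLift L G₀)
    (H : Subgroup (L ≃ₐ[ℚ] L)) (hH : H ≤ G₀)
    (x : groupCohomology (Rep.res H.subtype (unitsRep L)) 2)
    (hx : x ∈ CF1.pPrimary p (groupCohomology (Rep.res H.subtype (unitsRep L)) 2))
    (hloc : ∀ (T : Finset Nat.Primes) (q : T) (g : L ≃ₐ[ℚ] L),
      (groupCohomology.map (IdeleSemiLocal.decomp L T H q g).subtype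
          (IdeleSemiLocal.locHom L T H q g) 2).hom
        ((groupCohomology.map (MonoidHom.id H)
          ((Rep.resFunctor H.subtype).map (diagRep L T)) 2).hom x) = 0) :
    x = 0 :=
  hasse_units_pPrimary_of_hdvd L hp2 (hdvdHyp p) G₀ hζ hζG H hH x hx hloc

end finals

end Fermat.Agent.S55.GL.SecondIneq
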