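/-
S55 / GLO7 (helper21): second inequality, Chevalley–Kummer proof.  File 2: Kummer descent.
Mathlib only.

If `K` contains a primitive `p`-th root of unity (`p` prime), `L = K(α)` with `α ^ p = a ∈ K`, and
`u ∈ K` is a `p`-th power in `L`, then `u = a ^ k * c ^ p` with `c ∈ K`
(`K^× ∩ L^{×p} = a^ℤ · K^{×p}`).
-/
import Mathlib

set_option autoImplicit false

namespace Fermat.Agent.S55.GL.SecondIneq

open Polynomial IntermediateField

variable {K L : Type*} [Field K] [Field L] [Algebra K L]

/-- Kummer descent, splitting-field form (`X ^ p - a` irreducible). -/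
theorem kummer_descent_of_isSplittingField {p : ℕ} (hp : p.Prime) {ζ : K}
    (hζ : IsPrimitiveRoot ζ p) {a u : K} (H : Irreducible (X ^ p - C a))
    [IsSplittingField K L (X ^ p - C a)] {y : L} (hy : y ^ p = algebraMap K L u) :
    ∃ (k : ℕ) (c : K), u = a ^ k * c ^ p := by
  have : NeZero p := ⟨hp.ne_zero⟩
  have hζ' : (primitiveRoots p K).Nonempty := ⟨ζ, (mem_primitiveRoots hp.pos).mpr hζ⟩
  have : IsGalois K L := isGalois_of_isSplittingField_X_pow_sub_C hζ' H L
  have : FiniteDimensional K L := IsSplittingField.finiteDimensional L (X ^ p - C a)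
  by_cases hu : u = 0
  · exact ⟨0, 0, by simp [hu, hp.ne_zero]⟩
  have ha : a ≠ 0 := by
    rintro rfl
    rw [map_zero, sub_zero] at H
    exact not_irreducible_pow hp.ne_one H
  set α : L := rootOfSplitsXPowSubC hp.pos a L with hαdef
  have hα : α ^ p = algebraMap K L a := rootOfSplitsXPowSubC_pow a L
  have hα0 : α ≠ 0 := by
    intro h0
    rw [h0, zero_pow hp.ne_zero] at hα
    exact ha ((map_eq_zero _).mp hα.symm)
  have hy0 : y ≠ 0 := by
    intro h0
    rw [h0, zero_pow hp.ne_zero] at hy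
    exact hu ((map_eq_zero _).mp hy.symm)
  have hζL : IsPrimitiveRoot (algebraMap K L ζ) p :=
    hζ.map_of_injective (algebraMap K L).injective
  -- the generator of the Galois group
  set σ₀ : Gal(L/K) := (autEquivZmod H L hζ).symm (Multiplicative.ofAdd (1 : ZMod p)) with hσ₀
  have hσα : σ₀ α = algebraMap K L ζ * α := by
    have := autEquivZmod_symm_apply_natCast H L hα hζ 1
    rw [Nat.cast_one, pow_one, Algebra.smul_def] at this
    exact this
  -- `σ₀ y = ζ ^ k * y`
  have hpow : (σ₀ y * y⁻¹) ^ p = 1 := by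
    rw [mul_pow, inv_pow, ← map_pow, hy, AlgEquiv.commutes, ← hy, mul_inv_cancel₀]
    exact pow_ne_zero _ hy0
  obtain ⟨k, hk, hkζ⟩ := hζL.eq_pow_of_pow_eq_one hpow
  have hσy : σ₀ y = algebraMap K L ζ ^ k * y := by
    rw [hkζ, mul_assoc, inv_mul_cancel₀ hy0, mul_one]
  -- `z := y * α ^ (p - k)` is fixed by `σ₀`
  set z : L := y * α ^ (p - k) with hz
  have hσz : σ₀ z = z := by
    rw [hz, map_mul, map_pow, hσy, hσα, mul_pow]
    have : algebraMap K L ζ ^ k * y * (algebraMap K L ζ ^ (p - k) * α ^ (p - k)) =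
        (algebraMap K L ζ ^ k * algebraMap K L ζ ^ (p - k)) * (y * α ^ (p - k)) := by ring
    rw [this, ← pow_add, Nat.add_sub_cancel' hk.le, hζL.pow_eq_one, one_mul]
  -- hence by every element of the Galois group
  have hfix : ∀ σ : Gal(L/K), σ z = z := by
    intro σ
    have hmem : σ₀ ∈ MulAction.stabilizer Gal(L/K) z := by
      rw [MulAction.mem_stabilizer_iff]; exact hσz
    have hσ : σ = σ₀ ^ (Multiplicative.toAdd (autEquivZmod H L hζ σ)).val := by
      apply (autEquivZmod H L hζ).injective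
      rw [map_pow, hσ₀, MulEquiv.apply_symm_apply]
      apply Multiplicative.toAdd.injective
      rw [toAdd_pow, toAdd_ofAdd, nsmul_eq_mul, mul_one, ZMod.natCast_val, ZMod.cast_id', id_eq]
    have := Subgroup.pow_mem _ hmem (Multiplicative.toAdd (autEquivZmod H L hζ σ)).val
    rw [← hσ, MulAction.mem_stabilizer_iff] at this
    exact this
  obtain ⟨c, hc⟩ := (IsGalois.mem_range_algebraMap_iff_fixed z).mpr hfix
  -- compute
  have h1 : c ^ p = u * a ^ (p - k) := by
    apply (algebraMap K L).injective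
    rw [map_pow, hc, hz, mul_pow, hy, ← pow_mul, mul_comm (p - k) p, pow_mul, hα, map_mul,
      map_pow]
  refine ⟨k, c / a, ?_⟩
  have hap : a ^ p = a ^ k * a ^ (p - k) := by rw [← pow_add, Nat.add_sub_cancel' hk.le]
  rw [div_pow, h1, hap]
  field_simp

/-- **Kummer descent.**  `K ∋ ζ_p`, `L = K(α)`, `α ^ p = a ∈ K`; if `u ∈ K` is a `p`-th power
in `L` then `u = a ^ k * c ^ p` for some `c ∈ K`. -/
theorem kummer_descent {p : ℕ} (hp : p.Prime) {ζ : K} (hζ : IsPrimitiveRoot ζ p) {a u : K}
    {α y : L} (hα : α ^ p = algebraMap K L a) (htop : K⟮α⟯ = ⊤)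
    (hy : y ^ p = algebraMap K L u) : ∃ (k : ℕ) (c : K), u = a ^ k * c ^ p := by
  have : NeZero p := ⟨hp.ne_zero⟩
  have hζL : IsPrimitiveRoot (algebraMap K L ζ) p :=
    hζ.map_of_injective (algebraMap K L).injective
  by_cases h : ∃ b : K, b ^ p = a
  · obtain ⟨b, rfl⟩ := h
    -- then `α ∈ K`, so `L = K`
    have hαmem : α ∈ (⊥ : IntermediateField K L) := by
      rw [IntermediateField.mem_bot]
      by_cases hb : b = 0
      · refine ⟨0, ?_⟩
        rw [hb, zero_pow hp.ne_zero, map_zero] at hα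
        rw [map_zero]; exact (pow_eq_zero_iff hp.ne_zero).mp hα |>.symm
      · have hbL : algebraMap K L b ≠ 0 := (_root_.map_ne_zero _).mpr hb
        have hpow : (α * (algebraMap K L b)⁻¹) ^ p = 1 := by
          rw [mul_pow, inv_pow, hα, map_pow, mul_inv_cancel₀ (pow_ne_zero _ hbL)]
        obtain ⟨i, -, hi⟩ := hζL.eq_pow_of_pow_eq_one hpow
        refine ⟨ζ ^ i * b, ?_⟩
        rw [map_mul, map_pow, hi, mul_assoc, inv_mul_cancel₀ hbL, mul_one]
    have hbot : (⊥ : IntermediateField K L) = ⊤ := by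
      rw [← htop]; exact (IntermediateField.adjoin_simple_eq_bot_iff.mpr hαmem).symm
    have hymem : y ∈ (⊥ : IntermediateField K L) := by rw [hbot]; trivial
    obtain ⟨c, rfl⟩ := IntermediateField.mem_bot.mp hymem
    refine ⟨0, c, ?_⟩
    apply (algebraMap K L).injective
    rw [pow_zero, one_mul, map_pow, hy]
  · have H : Irreducible (X ^ p - C a) :=
      X_pow_sub_C_irreducible_of_prime hp (fun b hb => h ⟨b, hb⟩)
    have hαint : IsIntegral K α := by
      refine ⟨X ^ p - C a, monic_X_pow_sub_C a hp.ne_zero, ?_⟩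
      simp [hα]
    have : IsSplittingField K L (X ^ p - C a) := by
      constructor
      · rw [Polynomial.map_sub, Polynomial.map_pow, Polynomial.map_C, Polynomial.map_X]
        exact X_pow_sub_C_splits_of_isPrimitiveRoot hζL hα
      · rw [eq_top_iff, ← IntermediateField.top_toSubalgebra, ← htop,
          IntermediateField.adjoin_simple_toSubalgebra_of_isAlgebraic hαint.isAlgebraic]
        apply Algebra.adjoin_mono
        rw [Set.singleton_subset_iff, mem_rootSet_of_ne (X_pow_sub_C_ne_zero hp.pos a),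
          aeval_def, eval₂_sub, eval₂_X_pow, eval₂_C, hα, sub_self]
    exact kummer_descent_of_isSplittingField hp hζ H hy

end Fermat.Agent.S55.GL.SecondIneq
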