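/-
S55 / GLO7 (helper21): second inequality, Chevalley–Kummer proof.  File 1: `p`-th power residues
at a height-one prime of a Dedekind domain, in valuation language (no residue fields in the
statements).  Mathlib only.

`IsPowMod w p u` : `u ∈ K` is congruent to a `p`-th power modulo `w`
(`∃ y, w.valuation K (u - y ^ p) < 1`).

Main results (namespace `Fermat.Agent.S55.GL.SecondIneq`):
* `IsPowMod.mul`, `IsPowMod.inv`, `IsPowMod.pow`, `isPowMod_pow_self`, `isPowMod_congr`;
* `exists_primitive_root_mod` : if `R ⧸ w` is finite there is `g : R` such that every `w`-unit of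
  `K` is congruent to a power of `g` modulo `w`;
* `exists_isPowMod_mul_pow` : (`p` prime, `R ⧸ w` finite) if the `w`-unit `a` is NOT a `p`-th
  power mod `w`, then for every `w`-unit `u` some `u * a ^ i` is a `p`-th power mod `w`
  (the group of `w`-units modulo `p`-th power residues is cyclic of order dividing `p`).
-/
import Mathlib

set_option autoImplicit false

namespace Fermat.Agent.S55.GL.SecondIneq

open IsDedekindDomain HeightOneSpectrum

variable {R : Type*} [CommRing R] [IsDedekindDomain R] {K : Type*} [Field K] [Algebra R K]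
  [IsFractionRing R K]

/-- `u` is congruent to a `p`-th power modulo the prime `w`. -/
def IsPowMod (w : HeightOneSpectrum R) (p : ℕ) (u : K) : Prop :=
  ∃ y : K, w.valuation K (u - y ^ p) < 1

variable {w : HeightOneSpectrum R} {p : ℕ}

lemma isPowMod_pow_self (y : K) : IsPowMod w p (y ^ p) := ⟨y, by simp⟩

lemma isPowMod_one : IsPowMod w p (1 : K) := ⟨1, by simp⟩

/-- congruent elements have the same power-residue behaviour -/
lemma IsPowMod.of_sub_lt {u u' : K} (h : IsPowMod w p u) (huu' : w.valuation K (u - u') < 1) :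
    IsPowMod w p u' := by
  obtain ⟨y, hy⟩ := h
  refine ⟨y, ?_⟩
  have : u' - y ^ p = (u - y ^ p) - (u - u') := by ring
  rw [this]
  exact lt_of_le_of_lt (Valuation.map_sub _ _ _) (max_lt hy huu')

lemma isPowMod_congr {u u' : K} (huu' : w.valuation K (u - u') < 1) :
    IsPowMod w p u ↔ IsPowMod w p u' := by
  refine ⟨fun h => h.of_sub_lt huu', fun h => h.of_sub_lt ?_⟩
  rwa [Valuation.map_sub_swap]

/-- the witness of a power residue of an integral element is integral -/
lemma valuation_witness_le_one {u y : K} (hp : p ≠ 0) (hu : w.valuation K u ≤ 1)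
    (hy : w.valuation K (u - y ^ p) < 1) : w.valuation K y ≤ 1 := by
  have h1 : w.valuation K (y ^ p) ≤ 1 := by
    have : y ^ p = u - (u - y ^ p) := by ring
    rw [this]
    exact le_trans (Valuation.map_sub _ _ _) (max_le hu hy.le)
  rw [map_pow] at h1
  exact (pow_le_one_iff hp).mp h1

/-- the witness of a power residue of a unit is a unit -/
lemma valuation_witness_eq_one {u y : K} (hp : p ≠ 0) (hu : w.valuation K u = 1)
    (hy : w.valuation K (u - y ^ p) < 1) : w.valuation K y = 1 := by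
  have h1 : w.valuation K (y ^ p) = 1 := by
    have : y ^ p = u - (u - y ^ p) := by ring
    rw [this, ← hu]
    apply Valuation.map_sub_eq_of_lt_left
    rw [hu]; exact hy
  rw [map_pow] at h1
  exact (pow_eq_one_iff_of_nonneg zero_le hp).mp h1

lemma IsPowMod.mul {u u' : K} (hp : p ≠ 0) (hu : w.valuation K u ≤ 1)
    (hu' : w.valuation K u' ≤ 1) (h : IsPowMod w p u) (h' : IsPowMod w p u') :
    IsPowMod w p (u * u') := by
  obtain ⟨y, hy⟩ := h
  obtain ⟨y', hy'⟩ := h'
  have hy'1 := valuation_witness_le_one hp hu' hy'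
  refine ⟨y * y', ?_⟩
  have : u * u' - (y * y') ^ p = u * (u' - y' ^ p) + y' ^ p * (u - y ^ p) := by ring
  rw [this]
  refine lt_of_le_of_lt (Valuation.map_add _ _ _) (max_lt ?_ ?_)
  · rw [map_mul]
    calc w.valuation K u * w.valuation K (u' - y' ^ p)
        ≤ 1 * w.valuation K (u' - y' ^ p) := mul_le_mul_left hu _
      _ < 1 := by rwa [one_mul]
  · rw [map_mul, map_pow]
    calc w.valuation K y' ^ p * w.valuation K (u - y ^ p)
        ≤ 1 * w.valuation K (u - y ^ p) := mul_le_mul_left (pow_le_one' hy'1 p) _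
      _ < 1 := by rwa [one_mul]

lemma IsPowMod.pow {u : K} (hp : p ≠ 0) (hu : w.valuation K u ≤ 1) (h : IsPowMod w p u)
    (n : ℕ) : IsPowMod w p (u ^ n) := by
  induction n with
  | zero => simpa using isPowMod_one
  | succ n ih =>
    rw [pow_succ]
    refine IsPowMod.mul hp ?_ hu ih h
    rw [map_pow]; exact pow_le_one' hu n

lemma IsPowMod.inv {u : K} (hp : p ≠ 0) (hu : w.valuation K u = 1) (h : IsPowMod w p u) :
    IsPowMod w p u⁻¹ := by
  obtain ⟨y, hy⟩ := h
  have hy1 := valuation_witness_eq_one hp hu hy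
  have hu0 : u ≠ 0 := by
    rintro rfl; simp at hu
  have hy0 : y ≠ 0 := by
    rintro rfl; simp at hy1
  refine ⟨y⁻¹, ?_⟩
  have : u⁻¹ - y⁻¹ ^ p = (y ^ p - u) * (u⁻¹ * (y ^ p)⁻¹) := by
    have hyp : y ^ p ≠ 0 := pow_ne_zero _ hy0
    rw [inv_pow]
    field_simp
  rw [this, map_mul, map_mul, map_inv₀, map_inv₀, map_pow, hu, hy1, one_pow, inv_one, mul_one,
    mul_one, Valuation.map_sub_swap]
  exact hy

/-- congruent integral elements have congruent powers -/
lemma valuation_pow_sub_pow_lt {a b : K} (ha : w.valuation K a ≤ 1) (hb : w.valuation K b ≤ 1)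
    (h : w.valuation K (a - b) < 1) (i : ℕ) : w.valuation K (a ^ i - b ^ i) < 1 := by
  induction i with
  | zero => simp
  | succ i ih =>
    have e : a ^ (i + 1) - b ^ (i + 1) = a ^ i * (a - b) + (a ^ i - b ^ i) * b := by ring
    rw [e]
    refine lt_of_le_of_lt (Valuation.map_add _ _ _) (max_lt ?_ ?_)
    · rw [map_mul, map_pow]
      calc w.valuation K a ^ i * w.valuation K (a - b)
          ≤ 1 * w.valuation K (a - b) := mul_le_mul_left (pow_le_one' ha i) _
        _ < 1 := by rwa [one_mul]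
    · rw [map_mul]
      calc w.valuation K (a ^ i - b ^ i) * w.valuation K b
          ≤ w.valuation K (a ^ i - b ^ i) * 1 := mul_le_mul_right hb _
        _ < 1 := by rwa [mul_one]

variable (w) in
/-- If the residue ring `R ⧸ w` is finite, there is `g : R` whose powers represent all `w`-units
of `K` modulo `w`. -/
theorem exists_primitive_root_mod [Finite (R ⧸ w.asIdeal)] :
    ∃ g : R, w.valuation K (algebraMap R K g) = 1 ∧
      ∀ u : K, w.valuation K u = 1 → ∃ i : ℕ, w.valuation K (u - algebraMap R K g ^ i) < 1 := by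
  classical
  have : w.asIdeal.IsMaximal := w.isMaximal
  let _ : Field (R ⧸ w.asIdeal) := Ideal.Quotient.field w.asIdeal
  obtain ⟨γ, hγ⟩ := IsCyclic.exists_generator (α := (R ⧸ w.asIdeal)ˣ)
  obtain ⟨g, hg⟩ := Ideal.Quotient.mk_surjective (γ : R ⧸ w.asIdeal)
  have hgw : g ∉ w.asIdeal := by
    intro hmem
    have : (γ : R ⧸ w.asIdeal) = 0 := by
      rw [← hg]; exact Ideal.Quotient.eq_zero_iff_mem.mpr hmem
    exact γ.ne_zero this
  refine ⟨g, (valuation_eq_one_iff_notMem (K := K) (v := w)).mpr hgw, fun u hu => ?_⟩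
  obtain ⟨r, hr⟩ := exists_valuation_sub_lt_of_integer (K := K) w hu.le 1
  have hr' : w.valuation K (algebraMap R K r - u) < 1 := by simpa using hr
  have hrw : r ∉ w.asIdeal := by
    intro hmem
    have h1 : w.valuation K (algebraMap R K r) < 1 := (valuation_lt_one_iff_mem w r).mpr hmem
    have : w.valuation K u < 1 := by
      have e : u = algebraMap R K r - (algebraMap R K r - u) := by ring
      rw [e]
      exact lt_of_le_of_lt (Valuation.map_sub _ _ _) (max_lt h1 hr')
    rw [hu] at this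
    exact lt_irrefl _ this
  have hr0 : Ideal.Quotient.mk w.asIdeal r ≠ 0 := by
    rwa [Ne, Ideal.Quotient.eq_zero_iff_mem]
  obtain ⟨i, hi⟩ : ∃ i : ℕ, γ ^ i = Units.mk0 _ hr0 := by
    have hmem := hγ (Units.mk0 _ hr0)
    obtain ⟨k, hk⟩ := (Subgroup.mem_zpowers_iff).mp hmem
    refine ⟨(k % (orderOf γ : ℤ)).toNat, ?_⟩
    have hord : (0 : ℤ) < orderOf γ := by exact_mod_cast orderOf_pos γ
    have hnn : 0 ≤ k % (orderOf γ : ℤ) := Int.emod_nonneg _ hord.ne'
    rw [← hk, ← zpow_natCast, Int.toNat_of_nonneg hnn, zpow_mod_orderOf]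
  refine ⟨i, ?_⟩
  have hmem : r - g ^ i ∈ w.asIdeal := by
    rw [← Ideal.Quotient.eq_zero_iff_mem, map_sub, map_pow, hg, sub_eq_zero]
    have := congrArg (fun x : (R ⧸ w.asIdeal)ˣ => (x : R ⧸ w.asIdeal)) hi
    simpa using this.symm
  have h2 : w.valuation K (algebraMap R K (r - g ^ i)) < 1 :=
    (valuation_lt_one_iff_mem w _).mpr hmem
  rw [map_sub, map_pow] at h2
  have e : u - algebraMap R K g ^ i =
      (algebraMap R K r - algebraMap R K g ^ i) - (algebraMap R K r - u) := by ring
  rw [e]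
  exact lt_of_le_of_lt (Valuation.map_sub _ _ _) (max_lt h2 hr')

/-- **Cyclicity of the group of power-residue classes.**  If `a` is a `w`-unit which is not a
`p`-th power modulo `w` (`p` prime, finite residue ring), then every `w`-unit `u` becomes a
`p`-th power modulo `w` after multiplication by a suitable power of `a`. -/
theorem exists_isPowMod_mul_pow [Finite (R ⧸ w.asIdeal)] (hp : p.Prime) {a : K}
    (ha : w.valuation K a = 1) (hna : ¬ IsPowMod w p a) {u : K} (hu : w.valuation K u = 1) :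
    ∃ i : ℕ, IsPowMod w p (u * a ^ i) := by
  obtain ⟨g, hg1, hg⟩ := exists_primitive_root_mod (K := K) w
  set G : K := algebraMap R K g with hG
  obtain ⟨n, hn⟩ := hg a ha
  obtain ⟨m, hm⟩ := hg u hu
  -- `p ∤ n`
  have hpn : ¬ p ∣ n := by
    rintro ⟨k, rfl⟩
    apply hna
    have : IsPowMod w p (G ^ (p * k)) := by
      rw [mul_comm, pow_mul]; exact isPowMod_pow_self _
    exact this.of_sub_lt (by rwa [Valuation.map_sub_swap])
  -- solve `m + n * i ≡ 0 mod p`
  have hcop : Nat.Coprime n p := (Nat.Coprime.symm ((Nat.Prime.coprime_iff_not_dvd hp).mpr hpn))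
  obtain ⟨i, hi⟩ : ∃ i : ℕ, p ∣ m + n * i := by
    have : Fact p.Prime := ⟨hp⟩
    have hn0 : (n : ZMod p) ≠ 0 := by
      rwa [Ne, ZMod.natCast_eq_zero_iff]
    refine ⟨(-(m : ZMod p) * (n : ZMod p)⁻¹).val, ?_⟩
    rw [← ZMod.natCast_eq_zero_iff]
    push_cast
    rw [ZMod.natCast_val, ZMod.cast_id', id_eq]
    field_simp
    ring
  obtain ⟨k, hk⟩ := hi
  -- `u * a ^ i ≡ G ^ (m + n i) = (G ^ k) ^ p`
  have hGle : w.valuation K G ≤ 1 := hg1.le
  have h1 : w.valuation K (u * a ^ i - G ^ m * (G ^ n) ^ i) < 1 := by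
    have e : u * a ^ i - G ^ m * (G ^ n) ^ i =
        (u - G ^ m) * a ^ i + G ^ m * (a ^ i - (G ^ n) ^ i) := by ring
    rw [e]
    refine lt_of_le_of_lt (Valuation.map_add _ _ _) (max_lt ?_ ?_)
    · rw [map_mul, map_pow, ha, one_pow, mul_one]; exact hm
    · rw [map_mul, map_pow, hg1, one_pow, one_mul]
      exact valuation_pow_sub_pow_lt ha.le (by rw [map_pow]; exact pow_le_one' hGle n) hn i
  have h2 : G ^ m * (G ^ n) ^ i = (G ^ k) ^ p := by
    rw [← pow_mul, ← pow_add, hk, mul_comm p k, pow_mul]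
  rw [h2] at h1
  exact ⟨i, G ^ k, h1⟩

end Fermat.Agent.S55.GL.SecondIneq
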