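/-
S55 / GLO7 (helper21): second inequality.  File 9: the local hypotheses (U1), (U2), (H1), (H2) of
`IsChevalleyDatum` for an abstract *local model* of a prime `v` of a Dedekind domain `R` with
fraction field `K`:

`O` a complete DVR with finite residue field, `F = Frac O`, `ι : K →+* F` such that
* `int_iff` : `v(x) ≤ 1 ↔ ι x ∈ O`;
* `dense` : every `y ∈ F` is congruent to some `ι x` modulo any nonzero principal ideal `c O`.

Results (`IsLocalModel`):
* `lt_iff`, `unit_iff` : `v(x) < 1 ↔ ι x ∈ 𝔪`, `v(x) = 1 ↔ ι x ∈ Oˣ`;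
* (U2) `exists_eq_mul_unit` : every `y ∈ Fˣ` is `ι x * u` with `x ∈ Kˣ`, `u ∈ Oˣ`;
* (H1) `exists_pow_eq_of_isPowMod` : `p` invertible in `O`, `v(u) = 1`, `u` a `p`-th power residue
  at `v` ⟹ `ι u` is a `p`-th power in `F` (Hensel; helper8's `exists_pow_eq_iff_of_isUnit`);
* (H2) `exists_eq_mul_pow` : every `x ∈ Oˣ` is `ι u * y ^ p` with `v(u) = 1` (density + Hensel).
-/
import Mathlib
import Fermat.Agent.S55.GL.SecondIneq.PowMod
import Fermat.Agent.S55.Local.PowerIndex2
import Fermat.Agent.S55.Local.ValZ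

set_option autoImplicit false
set_option linter.unusedSectionVars false

namespace Fermat.Agent.S55.GL.SecondIneq

open IsDedekindDomain HeightOneSpectrum IsLocalRing Fermat.Agent.S55.Local

variable {R : Type*} [CommRing R] [IsDedekindDomain R] {K : Type*} [Field K] [Algebra R K]
  [IsFractionRing R K]
  {O : Type*} [CommRing O] [IsDomain O] [IsDiscreteValuationRing O]
  {F : Type*} [Field F] [Algebra O F] [IsFractionRing O F]

/-- `(O, F, ι)` is a local model of the prime `v`. -/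
structure IsLocalModel (v : HeightOneSpectrum R) (O : Type*) [CommRing O] [IsDomain O]
    [IsDiscreteValuationRing O] {F : Type*} [Field F] [Algebra O F] [IsFractionRing O F]
    (ι : K →+* F) : Prop where
  int_iff : ∀ x : K, v.valuation K x ≤ 1 ↔ ∃ a : O, algebraMap O F a = ι x
  dense : ∀ (y : F) (c : O), c ≠ 0 → ∃ (x : K) (a : O), y - ι x = algebraMap O F (c * a)

namespace IsLocalModel

variable {v : HeightOneSpectrum R} {ι : K →+* F}

omit [IsDomain O] [IsDiscreteValuationRing O] [IsFractionRing O F] in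
lemma algebraMap_units_zpow (t : Oˣ) (n : ℤ) :
    algebraMap O F ((t ^ n : Oˣ) : O) = algebraMap O F (t : O) ^ n := by
  calc algebraMap O F ((t ^ n : Oˣ) : O)
      = ((Units.map (algebraMap O F : O →* F) (t ^ n) : Fˣ) : F) := rfl
    _ = (((Units.map (algebraMap O F : O →* F) t) ^ n : Fˣ) : F) := by rw [map_zpow]
    _ = ((Units.map (algebraMap O F : O →* F) t : Fˣ) : F) ^ n := Units.val_zpow_eq_zpow_val _ _
    _ = algebraMap O F (t : O) ^ n := rfl

/-- `v(x) = 1 ↔ ι x ∈ Oˣ` -/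
theorem unit_iff (h : IsLocalModel v O ι) (x : K) :
    v.valuation K x = 1 ↔ ∃ u : Oˣ, algebraMap O F (u : O) = ι x := by
  constructor
  · intro hx
    have hx0 : x ≠ 0 := by
      rintro rfl; simp at hx
    obtain ⟨a, ha⟩ := (h.int_iff x).mp hx.le
    obtain ⟨b, hb⟩ := (h.int_iff x⁻¹).mp (by rw [map_inv₀, hx, inv_one])
    have hab : a * b = 1 := by
      apply IsFractionRing.injective O F
      rw [map_mul, ha, hb, ← map_mul, mul_inv_cancel₀ hx0, map_one, map_one]
    exact ⟨⟨a, b, hab, by rw [mul_comm, hab]⟩, ha⟩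
  · rintro ⟨u, hu⟩
    have hx0 : x ≠ 0 := by
      rintro rfl
      rw [map_zero] at hu
      exact u.ne_zero ((map_eq_zero_iff _ (IsFractionRing.injective O F)).mp hu)
    have h1 : v.valuation K x ≤ 1 := (h.int_iff x).mpr ⟨u, hu⟩
    have h2 : v.valuation K x⁻¹ ≤ 1 := by
      refine (h.int_iff x⁻¹).mpr ⟨((u⁻¹ : Oˣ) : O), ?_⟩
      rw [map_inv₀, ← hu]
      exact (eq_inv_of_mul_eq_one_left (by rw [← map_mul, Units.inv_mul, map_one]))
    rw [map_inv₀] at h2
    have h3 : 1 ≤ v.valuation K x := by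
      have hne : v.valuation K x ≠ 0 := (Valuation.ne_zero_iff _).mpr hx0
      exact (inv_le_one₀ (zero_lt_iff.mpr hne)).mp h2
    exact le_antisymm h1 h3

/-- `v(x) < 1 ↔ ι x ∈ 𝔪` -/
theorem lt_iff (h : IsLocalModel v O ι) (x : K) :
    v.valuation K x < 1 ↔ ∃ a ∈ maximalIdeal O, algebraMap O F a = ι x := by
  constructor
  · intro hx
    obtain ⟨a, ha⟩ := (h.int_iff x).mp hx.le
    refine ⟨a, ?_, ha⟩
    rw [mem_maximalIdeal, mem_nonunits_iff]
    intro hau
    have : v.valuation K x = 1 := (h.unit_iff x).mpr ⟨hau.unit, ha⟩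
    exact hx.ne this
  · rintro ⟨a, ha, hax⟩
    refine lt_of_le_of_ne ((h.int_iff x).mpr ⟨a, hax⟩) ?_
    intro h1
    obtain ⟨u, hu⟩ := (h.unit_iff x).mp h1
    have : a = u := IsFractionRing.injective O F (hax.trans hu.symm)
    rw [mem_maximalIdeal, mem_nonunits_iff] at ha
    exact ha (this ▸ u.isUnit)

/-- (U2): `Fˣ = ι(Kˣ) · Oˣ` -/
theorem exists_eq_mul_unit (h : IsLocalModel v O ι) (y : Fˣ) :
    ∃ (x : Kˣ) (u : Oˣ), (y : F) = ι (x : K) * algebraMap O F (u : O) := by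
  obtain ⟨ϖ, hϖ⟩ := IsDiscreteValuationRing.exists_irreducible O
  have hϖ0 : ϖ ≠ 0 := hϖ.ne_zero
  -- a global element `π` with `ι π = ϖ * unit`
  obtain ⟨π, a, hπa⟩ := h.dense (algebraMap O F ϖ) (ϖ * ϖ) (mul_ne_zero hϖ0 hϖ0)
  have hw : IsUnit (1 - ϖ * a) := by
    have hm : ϖ * a ∈ maximalIdeal O :=
      Ideal.mul_mem_right _ _ ((mem_maximalIdeal _).mpr hϖ.not_isUnit)
    have := IsLocalRing.isUnit_one_sub_self_of_mem_nonunits _ hm
    exact this
  obtain ⟨w, hw⟩ := hw
  have hιπ : ι π = algebraMap O F ϖ * algebraMap O F (w : O) := by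
    have : ι π = algebraMap O F ϖ - algebraMap O F (ϖ * ϖ * a) := by rw [← hπa]; ring
    rw [this, hw, ← map_mul, ← map_sub]
    congr 1
    ring
  have hπ0 : π ≠ 0 := by
    rintro rfl
    rw [map_zero] at hιπ
    have h1 : algebraMap O F ϖ ≠ 0 := (map_ne_zero_iff _ (IsFractionRing.injective O F)).mpr hϖ0
    have h2 : algebraMap O F (w : O) ≠ 0 :=
      (map_ne_zero_iff _ (IsFractionRing.injective O F)).mpr w.ne_zero
    exact mul_ne_zero h1 h2 hιπ.symm
  obtain ⟨n, u, hy⟩ := exists_eq_unit_mul_zpow (O := O) (F := F) hϖ y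
  refine ⟨(Units.mk0 π hπ0) ^ n, u * (w⁻¹) ^ n, ?_⟩
  have hϖF : algebraMap O F ϖ = ι π * algebraMap O F ((w⁻¹ : Oˣ) : O) := by
    rw [hιπ, mul_assoc, ← map_mul, Units.mul_inv, map_one, mul_one]
  rw [hy, hϖF, mul_zpow, Units.val_zpow_eq_zpow_val, Units.val_mk0, map_zpow₀, Units.val_mul,
    map_mul]
  rw [algebraMap_units_zpow]
  ring

variable [IsAdicComplete (maximalIdeal O) O] [Finite (ResidueField O)]

/-- (H1): Hensel — a power residue at `v` becomes a `p`-th power in the local model. -/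
theorem exists_pow_eq_of_isPowMod (h : IsLocalModel v O ι) {p : ℕ} (hp : p.Prime)
    (hpu : IsUnit (p : O)) {u : K} (hu : v.valuation K u = 1) (hres : IsPowMod v p u) :
    ∃ x : Oˣ, algebraMap O F ((x : O) ^ p) = ι u := by
  obtain ⟨y, hy⟩ := hres
  have hy1 : v.valuation K y = 1 := valuation_witness_eq_one hp.ne_zero hu hy
  obtain ⟨u', hu'⟩ := (h.unit_iff u).mp hu
  obtain ⟨y', hy'⟩ := (h.unit_iff y).mp hy1
  obtain ⟨a, ha, haa⟩ := (h.lt_iff (u - y ^ p)).mp hy
  have hmem : (u' : O) - (y' : O) ^ p ∈ maximalIdeal O := by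
    have : (u' : O) - (y' : O) ^ p = a := by
      apply IsFractionRing.injective O F
      rw [map_sub, map_pow, hu', hy', haa, map_sub, map_pow]
    rw [this]; exact ha
  obtain ⟨x, hx⟩ := (exists_pow_eq_iff_of_isUnit hp hpu u').mpr ⟨y', hmem⟩
  refine ⟨x, ?_⟩
  rw [← Units.val_pow_eq_pow_val, hx, hu']

/-- (H2): every local unit is a global `v`-unit times a `p`-th power. -/
theorem exists_eq_mul_pow (h : IsLocalModel v O ι) {p : ℕ} (hp : p.Prime)
    (hpu : IsUnit (p : O)) (x : Oˣ) :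
    ∃ (u : K) (y : Oˣ), v.valuation K u = 1 ∧
      algebraMap O F (x : O) = ι u * algebraMap O F ((y : O) ^ p) := by
  obtain ⟨ϖ, hϖ⟩ := IsDiscreteValuationRing.exists_irreducible O
  obtain ⟨u, a, hua⟩ := h.dense (algebraMap O F (x : O)) ϖ hϖ.ne_zero
  -- `ι u = x - ϖ a` is a unit of `O`
  have hm : ϖ * a ∈ maximalIdeal O :=
    Ideal.mul_mem_right _ _ ((mem_maximalIdeal _).mpr hϖ.not_isUnit)
  have hunit : IsUnit ((x : O) - ϖ * a) := by
    by_contra hnu
    have h1 : (x : O) - ϖ * a ∈ maximalIdeal O := (mem_maximalIdeal _).mpr hnu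
    have h2 : (x : O) ∈ maximalIdeal O := by
      have := Ideal.add_mem _ h1 hm
      rwa [sub_add_cancel] at this
    exact (mem_maximalIdeal _).mp h2 x.isUnit
  obtain ⟨t, ht⟩ := hunit
  have hιu : ι u = algebraMap O F (t : O) := by
    have : ι u = algebraMap O F (x : O) - algebraMap O F (ϖ * a) := by rw [← hua]; ring
    rw [this, ht, map_sub]
  have hu1 : v.valuation K u = 1 := (h.unit_iff u).mpr ⟨t, hιu.symm⟩
  -- `x / t ∈ 1 + 𝔪`
  have hfil : x / t ∈ unitFil O 1 := by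
    rw [mem_unitFil, pow_one]
    have : ((x / t : Oˣ) : O) - 1 = ((t⁻¹ : Oˣ) : O) * (ϖ * a) := by
      rw [div_eq_mul_inv, Units.val_mul]
      have hx : (x : O) = (t : O) + ϖ * a := by rw [ht]; ring
      rw [hx]
      have := Units.mul_inv t
      linear_combination this
    rw [this]
    exact Ideal.mul_mem_left _ _ hm
  obtain ⟨y, -, hy⟩ := exists_pow_eq_of_isUnit hp hpu hfil
  refine ⟨u, y, hu1, ?_⟩
  rw [hιu, ← map_mul, ← Units.val_pow_eq_pow_val, hy, ← Units.val_mul, mul_div_cancel]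

end IsLocalModel

end Fermat.Agent.S55.GL.SecondIneq
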