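/-
S55 / GLO7 (helper21): second inequality.  File 10: the Chevalley datum of a family of local models.

Per place (`IsLocalModel v O ι`, `O` a complete DVR with finite residue field, `F = Frac O`,
`Ω ⊇ F` a field containing a chosen `p`-th root `β` of `ι b`): the fields of `IsChevalleyDatum`
in their exact shapes, for
* `G v := Fˣ`, `loc v := Units.map ι`, `U v := localUnits O F` (image of `Oˣ`),
* `N b v := normGroup F β`.
Then `isChevalleyDatum_of_localModels`: a family of local models (one for each finite prime of the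
number field `K ∋ ζ_p`) and the (cofinal) weak first inequality give an `IsChevalleyDatum`.
-/
import Mathlib
import Fermat.Agent.S55.GL.SecondIneq.Chevalley
import Fermat.Agent.S55.GL.SecondIneq.LocalKummer
import Fermat.Agent.S55.GL.SecondIneq.LocalApprox

set_option autoImplicit false
set_option linter.unusedSectionVars false

namespace Fermat.Agent.S55.GL.SecondIneq

open NumberField IsDedekindDomain HeightOneSpectrum IsLocalRing

/-- the local units `Oˣ ⊆ Fˣ` -/
def localUnits (O F : Type*) [CommRing O] [Field F] [Algebra O F] : Subgroup Fˣ :=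
  (Units.map (algebraMap O F : O →* F)).range

lemma mem_localUnits {O F : Type*} [CommRing O] [Field F] [Algebra O F] {x : Fˣ} :
    x ∈ localUnits O F ↔ ∃ u : Oˣ, algebraMap O F (u : O) = (x : F) := by
  unfold localUnits
  rw [MonoidHom.mem_range]
  constructor
  · rintro ⟨u, rfl⟩
    exact ⟨u, rfl⟩
  · rintro ⟨u, hu⟩
    exact ⟨u, Units.ext hu⟩

section single

variable {R : Type*} [CommRing R] [IsDedekindDomain R] {K : Type*} [Field K] [Algebra R K]
  [IsFractionRing R K] {p : ℕ} {v : HeightOneSpectrum R}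
  {O : Type*} [CommRing O] [IsDomain O] [IsDiscreteValuationRing O]
  {F : Type*} [Field F] [Algebra O F] [IsFractionRing O F] {ι : K →+* F}

namespace IsLocalModel

/-- `v ∤ p ⟹ p ∈ Oˣ` -/
lemma isUnit_natCast (h : IsLocalModel v O ι) (hv : v.valuation K (p : K) = 1) :
    IsUnit (p : O) := by
  obtain ⟨u, hu⟩ := (h.unit_iff (p : K)).mp hv
  have : (u : O) = (p : O) := by
    apply IsFractionRing.injective O F
    rw [hu, map_natCast, map_natCast]
  rw [← this]
  exact u.isUnit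

/-- (U1) -/
lemma loc_mem_localUnits (h : IsLocalModel v O ι) (z : Kˣ) (hz : v.valuation K (z : K) = 1) :
    Units.map (ι : K →* F) z ∈ localUnits O F := by
  rw [mem_localUnits]
  obtain ⟨u, hu⟩ := (h.unit_iff (z : K)).mp hz
  exact ⟨u, hu⟩

/-- (U2) -/
lemma exists_div_mem_localUnits (h : IsLocalModel v O ι) (x : Fˣ) :
    ∃ y : Kˣ, x / Units.map (ι : K →* F) y ∈ localUnits O F := by
  obtain ⟨y, u, hyu⟩ := h.exists_eq_mul_unit x
  refine ⟨y, ?_⟩
  rw [mem_localUnits]
  refine ⟨u, ?_⟩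
  rw [Units.val_div_eq_div_val, hyu]
  have hy0 : ι (y : K) ≠ 0 := (map_ne_zero ι).mpr y.ne_zero
  show _ = ι (y : K) * _ / ι (y : K)
  field_simp

variable [IsAdicComplete (maximalIdeal O) O] [Finite (ResidueField O)]

/-- (H1) -/
lemma hensel_units (h : IsLocalModel v O ι) (hp : p.Prime) (hv : v.valuation K (p : K) = 1)
    (u : Kˣ) (hu : v.valuation K (u : K) = 1) (hres : IsPowMod v p (u : K)) :
    ∃ x : Fˣ, x ^ p = Units.map (ι : K →* F) u := by
  obtain ⟨x, hx⟩ := h.exists_pow_eq_of_isPowMod hp (h.isUnit_natCast hv) hu hres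
  refine ⟨Units.map (algebraMap O F : O →* F) x, Units.ext ?_⟩
  rw [Units.val_pow_eq_pow_val]
  show algebraMap O F (x : O) ^ p = ι (u : K)
  rw [← hx, map_pow]

/-- (H2) -/
lemma dense_units (h : IsLocalModel v O ι) (hp : p.Prime) (hv : v.valuation K (p : K) = 1)
    (x : Fˣ) (hx : x ∈ localUnits O F) :
    ∃ u : Kˣ, v.valuation K (u : K) = 1 ∧ ∃ y : Fˣ, x = Units.map (ι : K →* F) u * y ^ p := by
  obtain ⟨x₀, hx₀⟩ := mem_localUnits.mp hx
  obtain ⟨u, y, hu1, huy⟩ := h.exists_eq_mul_pow hp (h.isUnit_natCast hv) x₀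
  have hu0 : u ≠ 0 := by
    rintro rfl
    simp at hu1
  refine ⟨Units.mk0 u hu0, hu1, Units.map (algebraMap O F : O →* F) y, Units.ext ?_⟩
  rw [← hx₀, huy, Units.val_mul, Units.val_pow_eq_pow_val, map_pow]
  rfl

section norm

variable {Ω : Type*} [Field Ω] [Algebra F Ω] [Algebra O Ω] [IsScalarTower O F Ω]

/-- (N1) -/
lemma pow_mem_normGroup (hp : p.Prime) {ζ : K} (hζ : IsPrimitiveRoot ζ p) (b : Kˣ) {β : Ω}
    (hβ : β ^ p = algebraMap F Ω (ι (b : K))) (x : Fˣ) : x ^ p ∈ normGroup F β :=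
  SecondIneq.pow_mem_normGroup hp (hζ.map_of_injective ι.injective)
    ((map_ne_zero ι).mpr b.ne_zero) hβ x

/-- (N2) -/
lemma normGroup_eq_top (hp : p.Prime) {ζ : K} (hζ : IsPrimitiveRoot ζ p) (b : Kˣ) {β : Ω}
    (hβ : β ^ p = algebraMap F Ω (ι (b : K)))
    (hx : ∃ x : Fˣ, x ^ p = Units.map (ι : K →* F) b) : normGroup F β = ⊤ := by
  obtain ⟨x, hx⟩ := hx
  refine SecondIneq.normGroup_eq_top hp (hζ.map_of_injective ι.injective)
    ((map_ne_zero ι).mpr b.ne_zero) hβ ⟨(x : F), ?_⟩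
  rw [← Units.val_pow_eq_pow_val, hx]
  rfl

/-- (N3) -/
lemma localUnits_le_normGroup (h : IsLocalModel v O ι) (hp : p.Prime) {ζ : K}
    (hζ : IsPrimitiveRoot ζ p) (b : Kˣ) {β : Ω} (hβ : β ^ p = algebraMap F Ω (ι (b : K)))
    (hv : v.valuation K (p : K) = 1) (hb : v.valuation K (b : K) = 1) :
    localUnits O F ≤ normGroup F β := by
  obtain ⟨b₀, hb₀⟩ := (h.unit_iff (b : K)).mp hb
  have hβ' : β ^ p = algebraMap O Ω (b₀ : O) := by
    rw [hβ, ← hb₀, ← IsScalarTower.algebraMap_apply]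
  rintro x ⟨u, rfl⟩
  exact units_mem_normGroup O F hp (hζ.map_of_injective ι.injective) (h.isUnit_natCast hv) b₀ hβ' u

end norm

end IsLocalModel

end single

section family

variable {K : Type*} [Field K] [NumberField K] {p : ℕ}
  (O : HeightOneSpectrum (𝓞 K) → Type*) [∀ v, CommRing (O v)] [∀ v, IsDomain (O v)]
  [∀ v, IsDiscreteValuationRing (O v)] [∀ v, IsAdicComplete (maximalIdeal (O v)) (O v)]
  [∀ v, Finite (ResidueField (O v))]
  (F : HeightOneSpectrum (𝓞 K) → Type*) [∀ v, Field (F v)] [∀ v, Algebra (O v) (F v)]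
  [∀ v, IsFractionRing (O v) (F v)]
  (Ω : HeightOneSpectrum (𝓞 K) → Type*) [∀ v, Field (Ω v)] [∀ v, Algebra (F v) (Ω v)]
  [∀ v, Algebra (O v) (Ω v)] [∀ v, IsScalarTower (O v) (F v) (Ω v)]
  (ι : ∀ v, K →+* F v) (β : Kˣ → ∀ v, Ω v)

/-- **The Chevalley datum of a family of local models.** -/
theorem isChevalleyDatum_of_localModels (hp : p.Prime) {ζ : K} (hζ : IsPrimitiveRoot ζ p)
    (hι : ∀ v, IsLocalModel v (O v) (ι v))
    (hβ : ∀ (b : Kˣ) v, β b v ^ p = algebraMap (F v) (Ω v) (ι v (b : K)))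
    (hfirst : ∀ b : Kˣ, (¬ ∃ c : Kˣ, c ^ p = b) →
      ∀ S₁ : Finset (HeightOneSpectrum (𝓞 K)), ∃ S'' : Finset (HeightOneSpectrum (𝓞 K)),
        S₁ ⊆ S'' ∧ ∃ x : ∀ v, (F v)ˣ, ¬ ∃ u ∈ sUnits K S'', ∀ v ∈ S'',
          x v / Units.map (ι v : K →* F v) u ∈ normGroup (F v) (β b v)) :
    IsChevalleyDatum (G := fun v => (F v)ˣ) p (fun v => Units.map (ι v : K →* F v))
      (fun v => localUnits (O v) (F v)) (fun b v => normGroup (F v) (β b v)) where
  loc_mem_U v z hz := (hι v).loc_mem_localUnits z hz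
  exists_div_mem_U v x := (hι v).exists_div_mem_localUnits x
  hensel v hv u hu hres := (hι v).hensel_units hp hv u hu hres
  dense v hv x hx := (hι v).dense_units hp hv x hx
  pow_mem_N b v x := IsLocalModel.pow_mem_normGroup hp hζ b (hβ b v) x
  N_eq_top b v hx := IsLocalModel.normGroup_eq_top hp hζ b (hβ b v) hx
  U_le_N b v hv hb := (hι v).localUnits_le_normGroup hp hζ b (hβ b v) hv hb
  first_ineq := hfirst

end family

end Fermat.Agent.S55.GL.SecondIneq
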