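/-
S55 / GLO7 (helper21): second inequality, Chevalley–Kummer proof.  File 3: splitting of primes in
Kummer extensions of prime degree and the local-global principle for `p`-th powers.
Imports Mathlib + S14/GalDivisors (helper16) + S14/NonSplit (helper3) + PowMod.

Main results (namespace `Fermat.Agent.S55.GL.SecondIneq`), `L` a number field containing a
primitive `p`-th root of unity `ζ`, `p` prime:
* `stabilizer_eq_bot_of_isPowMod` : `L'` the splitting field of the irreducible `X ^ p - u`; if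
  `𝔚 ∤ p`, `u` is a `𝔚`-unit and a `p`-th power residue mod `𝔚`, then the decomposition group
  of every prime `𝔔 | 𝔚` of `L'` is trivial;
* `ramificationIdx_inertiaDeg_eq_one_of_isPowMod` : hence `e(𝔔|𝔚) = f(𝔔|𝔚) = 1`;
* `exists_pow_eq_of_forall_isPowMod` : **local-global principle**: if `u ≠ 0` is a `p`-th power
  residue at all primes outside a finite set `B` (where `u`, `p` are units), then `u` is a
  `p`-th power in `L`.
-/
import Mathlib
import Fermat.Agent.S14.GalDivisors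
import Fermat.Agent.S14.NonSplit
import Fermat.Agent.S55.GL.SecondIneq.PowMod

set_option autoImplicit false

namespace Fermat.Agent.S55.GL.SecondIneq

open NumberField IsDedekindDomain HeightOneSpectrum Polynomial WithZero
open Fermat.Agent.S14.GalDiv

section transfer

variable {L L' : Type*} [Field L] [Field L'] [NumberField L] [NumberField L'] [Algebra L L']
variable (𝔚 : HeightOneSpectrum (𝓞 L)) (𝔔 : HeightOneSpectrum (𝓞 L'))
  [𝔔.asIdeal.LiesOver 𝔚.asIdeal]

lemma valuation_algebraMap_lt_one {x : L} (h : 𝔚.valuation L x < 1) :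
    𝔔.valuation L' (algebraMap L L' x) < 1 := by
  rw [← valuation_liesOver L' 𝔚 𝔔 x]
  exact pow_lt_one₀ zero_le h
    (Ideal.IsDedekindDomain.ramificationIdx'_ne_zero_of_liesOver 𝔔.asIdeal 𝔚.ne_bot)

lemma valuation_algebraMap_le_one {x : L} (h : 𝔚.valuation L x ≤ 1) :
    𝔔.valuation L' (algebraMap L L' x) ≤ 1 := by
  rw [← valuation_liesOver L' 𝔚 𝔔 x]
  exact pow_le_one' h _

lemma valuation_algebraMap_eq_one {x : L} (h : 𝔚.valuation L x = 1) :
    𝔔.valuation L' (algebraMap L L' x) = 1 := by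
  rw [← valuation_liesOver L' 𝔚 𝔔 x, h, one_pow]

lemma IsPowMod.baseChange {p : ℕ} {x : L} (h : IsPowMod 𝔚 p x) :
    IsPowMod 𝔔 p (algebraMap L L' x) := by
  obtain ⟨y, hy⟩ := h
  refine ⟨algebraMap L L' y, ?_⟩
  rw [← map_pow, ← map_sub]
  exact valuation_algebraMap_lt_one 𝔚 𝔔 hy

end transfer

section roots

variable {F : Type*} [Field F] [NumberField F]

/-- roots of unity are units at every finite place -/
lemma valuation_eq_one_of_pow_eq_one (v : HeightOneSpectrum (𝓞 F)) {ξ : F} {n : ℕ} (hn : n ≠ 0)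
    (hξ : ξ ^ n = 1) : v.valuation F ξ = 1 := by
  have : v.valuation F ξ ^ n = 1 := by rw [← map_pow, hξ, map_one]
  exact (pow_eq_one_iff_of_nonneg zero_le hn).mp this

/-- If `η ≠ 1` is a `p`-th root of unity (`p` prime) and `v(η - 1) < 1`, then `v(p) < 1`. -/
lemma valuation_prime_lt_one_of_root (v : HeightOneSpectrum (𝓞 F)) {p : ℕ} (hp : p.Prime)
    {η : F} (hη : η ^ p = 1) (hη1 : η ≠ 1) (hv : v.valuation F (η - 1) < 1) :
    v.valuation F (p : F) < 1 := by
  have hprim : IsPrimitiveRoot η p := by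
    have hdvd : orderOf η ∣ p := orderOf_dvd_of_pow_eq_one hη
    rcases (Nat.dvd_prime hp).mp hdvd with h1 | h1
    · exact absurd (orderOf_eq_one_iff.mp h1) hη1
    · rw [← h1]; exact IsPrimitiveRoot.orderOf η
  obtain ⟨n, rfl⟩ : ∃ n, p = n + 1 := ⟨p - 1, (Nat.sub_add_cancel hp.pos).symm⟩
  have hprod := hprim.prod_one_sub_pow_eq_order
  have hn : 0 < n := by
    have := hp.two_le; omega
  have hcast : ((n + 1 : ℕ) : F) = (n : F) + 1 := by push_cast; ring
  rw [hcast, ← hprod, map_prod]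
  have hle : ∀ k ∈ Finset.range n, v.valuation F (1 - η ^ (k + 1)) ≤ 1 := by
    intro k _
    refine le_trans (Valuation.map_sub _ _ _) (max_le (by simp) ?_)
    rw [map_pow, valuation_eq_one_of_pow_eq_one v (Nat.succ_ne_zero n) hη, one_pow]
  have h0 : (0 : ℕ) ∈ Finset.range n := Finset.mem_range.mpr hn
  rw [← Finset.mul_prod_erase _ _ h0]
  have h1 : v.valuation F (1 - η ^ (0 + 1)) < 1 := by
    rw [zero_add, pow_one, Valuation.map_sub_swap]; exact hv
  calc v.valuation F (1 - η ^ (0 + 1)) *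
        ∏ k ∈ (Finset.range n).erase 0, v.valuation F (1 - η ^ (k + 1))
      ≤ v.valuation F (1 - η ^ (0 + 1)) * 1 := by
        refine mul_le_mul_right ?_ _
        exact Finset.prod_le_one' (fun k hk => hle k (Finset.mem_of_mem_erase hk))
    _ < 1 := by rwa [mul_one]

end roots

section split

variable {L L' : Type*} [Field L] [Field L'] [NumberField L] [NumberField L'] [Algebra L L']

/-- **Trivial decomposition groups.**  `L ∋ ζ_p`, `L'` the splitting field of the irreducible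
polynomial `X ^ p - u`; let `𝔚 ∤ p` be a prime of `L` at which `u` is a unit and a `p`-th power
residue.  Then every prime `𝔔` of `L'` over `𝔚` has trivial decomposition group. -/
theorem stabilizer_eq_bot_of_isPowMod {p : ℕ} (hp : p.Prime) {ζ : L} (hζ : IsPrimitiveRoot ζ p)
    {u : L} (H : Irreducible (X ^ p - C u)) [IsSplittingField L L' (X ^ p - C u)]
    [IsGalois L L'] (𝔚 : HeightOneSpectrum (𝓞 L)) (𝔔 : HeightOneSpectrum (𝓞 L'))
    [𝔔.asIdeal.LiesOver 𝔚.asIdeal] (hu : 𝔚.valuation L u = 1)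
    (hpv : 𝔚.valuation L (p : L) = 1) (hpow : IsPowMod 𝔚 p u) :
    MulAction.stabilizer (L' ≃ₐ[L] L') 𝔔 = ⊥ := by
  have : NeZero p := ⟨hp.ne_zero⟩
  have hζ' : (primitiveRoots p L).Nonempty := ⟨ζ, (mem_primitiveRoots hp.pos).mpr hζ⟩
  set v := 𝔔.valuation L' with hv
  set β : L' := rootOfSplitsXPowSubC hp.pos u L' with hβdef
  have hβ : β ^ p = algebraMap L L' u := rootOfSplitsXPowSubC_pow u L'
  have hvβ : v β = 1 := by
    have h1 : v β ^ p = 1 := by
      rw [← map_pow, hβ]; exact valuation_algebraMap_eq_one 𝔚 𝔔 hu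
    exact (pow_eq_one_iff_of_nonneg zero_le hp.ne_zero).mp h1
  have hζL' : IsPrimitiveRoot (algebraMap L L' ζ) p :=
    hζ.map_of_injective (algebraMap L L').injective
  -- `β ≡ d` modulo `𝔔` for some `d ∈ L`
  obtain ⟨c, hc⟩ := hpow
  have hcle : 𝔚.valuation L c ≤ 1 := valuation_witness_le_one hp.ne_zero hu.le hc
  have hc' : v (β ^ p - algebraMap L L' c ^ p) < 1 := by
    rw [hβ, ← map_pow, ← map_sub]
    exact valuation_algebraMap_lt_one 𝔚 𝔔 hc
  rw [hζL'.pow_sub_pow_eq_prod_sub_mul _ _ hp.pos, map_prod] at hc'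
  obtain ⟨ξ, hξmem, hξ⟩ : ∃ ξ ∈ nthRootsFinset p (1 : L'),
      v (β - ξ * algebraMap L L' c) < 1 := by
    by_contra hcon
    push Not at hcon
    have hall : ∀ ξ ∈ nthRootsFinset p (1 : L'), v (β - ξ * algebraMap L L' c) = 1 := by
      intro ξ hξ
      refine le_antisymm ?_ (hcon ξ hξ)
      refine le_trans (Valuation.map_sub _ _ _) (max_le hvβ.le ?_)
      rw [map_mul]
      have h1 : v ξ = 1 :=
        valuation_eq_one_of_pow_eq_one 𝔔 hp.ne_zero ((mem_nthRootsFinset hp.pos 1).mp hξ)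
      rw [h1, one_mul]
      exact valuation_algebraMap_le_one 𝔚 𝔔 hcle
    rw [Finset.prod_eq_one hall] at hc'
    exact lt_irrefl _ hc'
  have hξp : ξ ^ p = 1 := (mem_nthRootsFinset hp.pos 1).mp hξmem
  obtain ⟨i, -, hi⟩ := hζL'.eq_pow_of_pow_eq_one hξp
  set d : L := ζ ^ i * c with hd
  have hβd : v (β - algebraMap L L' d) < 1 := by
    rw [hd, map_mul, map_pow, hi]; exact hξ
  -- now take `σ` in the stabilizer
  rw [Subgroup.eq_bot_iff_forall]
  intro σ hσ
  rw [MulAction.mem_stabilizer_iff] at hσ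
  have hσv : ∀ x : L', v (σ x) = v x := by
    intro x
    have := valuation_smul σ 𝔔 x
    rwa [hσ] at this
  have hσβd : v (σ β - algebraMap L L' d) < 1 := by
    have := hσv (β - algebraMap L L' d)
    rw [map_sub, AlgEquiv.commutes] at this
    rw [this]; exact hβd
  -- `σ β = η β`
  set η : rootsOfUnity p L := autEquivRootsOfUnity hζ' H L' σ with hη
  have hσβ : σ β = algebraMap L L' ((η : Lˣ) : L) * β := by
    have := autEquivRootsOfUnity_smul hζ' H L' hβ σ
    rw [← this, hη, Subgroup.smul_def, Units.smul_def, Algebra.smul_def]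
  have hηp : ((η : Lˣ) : L) ^ p = 1 := by
    have := η.2
    rw [mem_rootsOfUnity] at this
    have h2 := congrArg (fun x : Lˣ => (x : L)) this
    simpa using h2
  have hlt : v (algebraMap L L' (((η : Lˣ) : L) - 1)) < 1 := by
    have e : algebraMap L L' (((η : Lˣ) : L) - 1) * β =
        (σ β - algebraMap L L' d) - (β - algebraMap L L' d) := by
      rw [hσβ, map_sub, map_one]; ring
    have h1 : v (algebraMap L L' (((η : Lˣ) : L) - 1) * β) < 1 := by
      rw [e]
      exact lt_of_le_of_lt (Valuation.map_sub _ _ _) (max_lt hσβd hβd)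
    rwa [map_mul, hvβ, mul_one] at h1
  -- hence `η = 1`
  have hη1 : ((η : Lˣ) : L) = 1 := by
    by_contra hne
    have hne' : algebraMap L L' ((η : Lˣ) : L) ≠ 1 := by
      intro h
      apply hne
      apply (algebraMap L L').injective
      rw [h, map_one]
    have hpow' : algebraMap L L' ((η : Lˣ) : L) ^ p = 1 := by
      rw [← map_pow, hηp, map_one]
    have hlt' : v (algebraMap L L' ((η : Lˣ) : L) - 1) < 1 := by
      rw [map_sub, map_one] at hlt; exact hlt
    have h3 := valuation_prime_lt_one_of_root 𝔔 hp hpow' hne' hlt'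
    have h4 : v ((p : L')) = 1 := by
      have := valuation_algebraMap_eq_one 𝔚 𝔔 hpv
      rwa [map_natCast] at this
    rw [h4] at h3
    exact lt_irrefl _ h3
  have hηone : η = 1 := by
    apply Subtype.ext
    apply Units.ext
    rw [hη1]; rfl
  rw [hη] at hηone
  exact (MulEquiv.map_eq_one_iff _).mp hηone

/-- Under the hypotheses of `stabilizer_eq_bot_of_isPowMod`, `e(𝔔|𝔚) = f(𝔔|𝔚) = 1`. -/
theorem ramificationIdx_inertiaDeg_eq_one_of_isPowMod {p : ℕ} (hp : p.Prime) {ζ : L}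
    (hζ : IsPrimitiveRoot ζ p) {u : L} (H : Irreducible (X ^ p - C u))
    [IsSplittingField L L' (X ^ p - C u)] [IsGalois L L'] (𝔚 : HeightOneSpectrum (𝓞 L))
    (𝔔 : HeightOneSpectrum (𝓞 L')) [𝔔.asIdeal.LiesOver 𝔚.asIdeal]
    (hu : 𝔚.valuation L u = 1) (hpv : 𝔚.valuation L (p : L) = 1) (hpow : IsPowMod 𝔚 p u) :
    𝔔.asIdeal.ramificationIdx (𝓞 L) = 1 ∧ 𝔔.asIdeal.inertiaDeg (𝓞 L) = 1 := by
  have hstab := stabilizer_eq_bot_of_isPowMod hp hζ H 𝔚 𝔔 hu hpv hpow
  rw [stabilizer_eq] at hstab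
  have hcard := Ideal.card_stabilizer_eq (G := L' ≃ₐ[L] L') 𝔚.asIdeal 𝔔.asIdeal
  rw [hstab, Subgroup.card_bot,
    Ideal.ramificationIdxIn_eq_ramificationIdx 𝔚.asIdeal 𝔔.asIdeal (L' ≃ₐ[L] L'),
    Ideal.inertiaDegIn_eq_inertiaDeg 𝔚.asIdeal 𝔔.asIdeal (L' ≃ₐ[L] L')] at hcard
  exact ⟨Nat.eq_one_of_mul_eq_one_right hcard.symm, Nat.eq_one_of_mul_eq_one_left hcard.symm⟩

end split

section localGlobal

variable {L : Type*} [Field L] [NumberField L]

/-- **Local-global principle for `p`-th powers** (`ζ_p ∈ L`): an element which is a unit and a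
`p`-th power residue at all primes outside a finite set `B` (none of which divides `p`) is a
`p`-th power. -/
theorem exists_pow_eq_of_forall_isPowMod {p : ℕ} (hp : p.Prime) {ζ : L}
    (hζ : IsPrimitiveRoot ζ p) {u : L} (B : Finset (HeightOneSpectrum (𝓞 L)))
    (h : ∀ 𝔚 : HeightOneSpectrum (𝓞 L), 𝔚 ∉ B →
      𝔚.valuation L u = 1 ∧ 𝔚.valuation L (p : L) = 1 ∧ IsPowMod 𝔚 p u) :
    ∃ c : L, c ^ p = u := by
  classical
  by_contra hcon
  push Not at hcon
  have H : Irreducible (X ^ p - C u) := X_pow_sub_C_irreducible_of_prime hp hcon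
  have hζ' : (primitiveRoots p L).Nonempty := ⟨ζ, (mem_primitiveRoots hp.pos).mpr hζ⟩
  have : Fact (Irreducible (X ^ p - C u)) := ⟨H⟩
  have : Module.Finite L (AdjoinRoot (X ^ p - C u)) :=
    (monic_X_pow_sub_C u hp.ne_zero).finite_adjoinRoot
  have : NumberField (AdjoinRoot (X ^ p - C u)) :=
    NumberField.of_module_finite L (AdjoinRoot (X ^ p - C u))
  have : IsSplittingField L (AdjoinRoot (X ^ p - C u)) (X ^ p - C u) :=
    isSplittingField_AdjoinRoot_X_pow_sub_C hζ' H
  have : IsGalois L (AdjoinRoot (X ^ p - C u)) :=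
    isGalois_of_isSplittingField_X_pow_sub_C hζ' H _
  have hfin : Module.finrank L (AdjoinRoot (X ^ p - C u)) = p :=
    finrank_of_isSplittingField_X_pow_sub_C hζ' H _
  have h1 : 1 < Module.finrank L (AdjoinRoot (X ^ p - C u)) := by
    rw [hfin]; exact hp.one_lt
  obtain ⟨𝔭, hprime, hne, hnotin, 𝔓, h𝔓, hnot⟩ :=
    Fermat.Agent.S14.NonSplit.exists_not_splitsCompletely
      (K := L) (L := AdjoinRoot (X ^ p - C u)) h1 (B.image (fun w => w.asIdeal))
  have : 𝔓.IsPrime := h𝔓.1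
  have : 𝔓.LiesOver 𝔭 := h𝔓.2
  let 𝔚 : HeightOneSpectrum (𝓞 L) := ⟨𝔭, hprime, hne⟩
  let 𝔔 : HeightOneSpectrum (𝓞 (AdjoinRoot (X ^ p - C u))) :=
    ⟨𝔓, h𝔓.1, Ideal.ne_bot_of_liesOver_of_ne_bot hne 𝔓⟩
  have : 𝔔.asIdeal.LiesOver 𝔚.asIdeal := h𝔓.2
  have h𝔚B : 𝔚 ∉ B := by
    intro hmem
    exact hnotin (Finset.mem_image.mpr ⟨𝔚, hmem, rfl⟩)
  obtain ⟨hu, hpv, hpow⟩ := h 𝔚 h𝔚B
  exact hnot (ramificationIdx_inertiaDeg_eq_one_of_isPowMod hp hζ H 𝔚 𝔔 hu hpv hpow)

end localGlobal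

end Fermat.Agent.S55.GL.SecondIneq
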