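/-
S55 / GLO7 (helper21): second inequality, Chevalley–Kummer proof.  File 4: the relative
local-global principle for power residues.

`K` a number field containing a primitive `p`-th root of unity, `a u ∈ K`.  If at all primes `w`
outside a finite set (where `a`, `u`, `p` are units)
  `a` is a `p`-th power residue mod `w`  ⟹  `u` is a `p`-th power residue mod `w`,
then `u = a ^ k * c ^ p` for some `k`, `c ∈ K`
(`exists_eq_pow_mul_pow_of_forall_isPowMod`).

This replaces the Galois theory of `K(K_S^{1/p})/K` (Frobenius elements generate the Galois group)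
in Chevalley's proof of the second inequality.
Imports Mathlib + S14/GalDivisors + S14/NonSplit (through SplitKummer) + KummerDescent.
-/
import Mathlib
import Fermat.Agent.S55.GL.SecondIneq.SplitKummer
import Fermat.Agent.S55.GL.SecondIneq.KummerDescent

set_option autoImplicit false

namespace Fermat.Agent.S55.GL.SecondIneq

open NumberField IsDedekindDomain HeightOneSpectrum Polynomial WithZero
open Fermat.Agent.S14.GalDiv

variable {K : Type*} [Field K] [NumberField K]

/-- removing a `p`-th power unit factor does not change the power-residue behaviour -/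
lemma IsPowMod.of_mul_pow {R : Type*} [CommRing R] [IsDedekindDomain R] {F : Type*} [Field F]
    [Algebra R F] [IsFractionRing R F] {w : HeightOneSpectrum R} {p : ℕ} (hp : p ≠ 0) {x t : F}
    (hx : w.valuation F x ≤ 1) (ht : w.valuation F t = 1) (h : IsPowMod w p (x * t ^ p)) :
    IsPowMod w p x := by
  have ht0 : t ≠ 0 := by
    rintro rfl; simp at ht
  have h1 : w.valuation F (x * t ^ p) ≤ 1 := by
    rw [map_mul, map_pow, ht, one_pow, mul_one]; exact hx
  have h2 : w.valuation F (t⁻¹ ^ p) ≤ 1 := by
    rw [map_pow, map_inv₀, ht, inv_one, one_pow]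
  have := IsPowMod.mul hp h1 h2 h (isPowMod_pow_self t⁻¹)
  have e : x * t ^ p * t⁻¹ ^ p = x := by
    rw [mul_assoc, ← mul_pow, mul_inv_cancel₀ ht0, one_pow, mul_one]
  rwa [e] at this

/-- **Relative local-global principle for power residues.** -/
theorem exists_eq_pow_mul_pow_of_forall_isPowMod {p : ℕ} (hp : p.Prime) {ζ : K}
    (hζ : IsPrimitiveRoot ζ p) {a u : K} (B : Finset (HeightOneSpectrum (𝓞 K)))
    (h : ∀ w : HeightOneSpectrum (𝓞 K), w ∉ B →
      w.valuation K a = 1 ∧ w.valuation K u = 1 ∧ w.valuation K (p : K) = 1 ∧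
        (IsPowMod w p a → IsPowMod w p u)) :
    ∃ (k : ℕ) (c : K), u = a ^ k * c ^ p := by
  classical
  by_cases hab : ∃ b : K, b ^ p = a
  · -- `a` is a `p`-th power: `u` is a power residue almost everywhere
    obtain ⟨b, rfl⟩ := hab
    obtain ⟨c, hc⟩ := exists_pow_eq_of_forall_isPowMod hp hζ (u := u) B
      (fun w hw => ⟨(h w hw).2.1, (h w hw).2.2.1, (h w hw).2.2.2 (isPowMod_pow_self b)⟩)
    exact ⟨0, c, by rw [pow_zero, one_mul, hc]⟩
  · push Not at hab
    have H : Irreducible (X ^ p - C a) := X_pow_sub_C_irreducible_of_prime hp hab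
    have hζ' : (primitiveRoots p K).Nonempty := ⟨ζ, (mem_primitiveRoots hp.pos).mpr hζ⟩
    have : Fact (Irreducible (X ^ p - C a)) := ⟨H⟩
    have : Module.Finite K (AdjoinRoot (X ^ p - C a)) :=
      (monic_X_pow_sub_C a hp.ne_zero).finite_adjoinRoot
    have : NumberField (AdjoinRoot (X ^ p - C a)) :=
      NumberField.of_module_finite K (AdjoinRoot (X ^ p - C a))
    have : IsSplittingField K (AdjoinRoot (X ^ p - C a)) (X ^ p - C a) :=
      isSplittingField_AdjoinRoot_X_pow_sub_C hζ' H
    have : IsGalois K (AdjoinRoot (X ^ p - C a)) :=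
      isGalois_of_isSplittingField_X_pow_sub_C hζ' H _
    -- notation
    set L := AdjoinRoot (X ^ p - C a) with hL
    set α : L := AdjoinRoot.root (X ^ p - C a) with hαdef
    have hα : α ^ p = algebraMap K L a := by
      rw [hαdef, root_X_pow_sub_C_pow, AdjoinRoot.algebraMap_eq]
    have hζL : IsPrimitiveRoot (algebraMap K L ζ) p :=
      hζ.map_of_injective (algebraMap K L).injective
    -- the local-global principle over `L`
    have key : ∃ y : L, y ^ p = algebraMap K L u := by
      refine exists_pow_eq_of_forall_isPowMod hp hζL (B.biUnion (fibre K L)) ?_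
      intro 𝔚 h𝔚
      have hwB : underK K 𝔚 ∉ B := by
        intro hmem
        exact h𝔚 (Finset.mem_biUnion.mpr ⟨underK K 𝔚, hmem, mem_fibre.mpr rfl⟩)
      obtain ⟨ha1, hu1, hp1, himp⟩ := h (underK K 𝔚) hwB
      refine ⟨valuation_algebraMap_eq_one (underK K 𝔚) 𝔚 hu1, ?_, ?_⟩
      · have := valuation_algebraMap_eq_one (underK K 𝔚) 𝔚 hp1
        rwa [map_natCast] at this
      · by_cases hpa : IsPowMod (underK K 𝔚) p a
        · exact (himp hpa).baseChange (underK K 𝔚) 𝔚
        · have : Finite (𝓞 K ⧸ (underK K 𝔚).asIdeal) :=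
            Ideal.finiteQuotientOfFreeOfNeBot _ (underK K 𝔚).ne_bot
          obtain ⟨i, hi⟩ := exists_isPowMod_mul_pow hp ha1 hpa hu1
          have hi' := hi.baseChange (underK K 𝔚) 𝔚
          rw [map_mul, map_pow, ← hα, ← pow_mul, mul_comm p i, pow_mul] at hi'
          have hαv : 𝔚.valuation L α = 1 := by
            have h1 : 𝔚.valuation L α ^ p = 1 := by
              rw [← map_pow, hα]
              exact valuation_algebraMap_eq_one (underK K 𝔚) 𝔚 ha1
            exact (pow_eq_one_iff_of_nonneg zero_le hp.ne_zero).mp h1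
          refine IsPowMod.of_mul_pow hp.ne_zero
            (valuation_algebraMap_eq_one (underK K 𝔚) 𝔚 hu1).le ?_ hi'
          rw [map_pow, hαv, one_pow]
    obtain ⟨y, hy⟩ := key
    exact kummer_descent_of_isSplittingField hp hζ H hy

end Fermat.Agent.S55.GL.SecondIneq
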